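import Mathlib

/-!
# S28 library, task F1: an integrality criterion over a normal domain.
-/

set_option autoImplicit false

namespace Fermat.Agent.S28lib

open Polynomial in
/-- **Task F1.** `B` a normal domain, `l` a prime element, `σ` not divisible by `l`.  If `l y` and
`σ y` are integral over `B` then so is `y`.
(Proof: `σ • (l • y) = l • (σ • y)`; `IsIntegrallyClosed.minpoly_smul` gives
`(minpoly B (l • y)).scaleRoots σ = (minpoly B (σ • y)).scaleRoots l`; compare coefficients
(`Polynomial.coeff_scaleRoots`): `f_i σ^(r-i) = g_i l^(r-i)`, so `l^(r-i) ∣ f_i`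
(`Prime.pow_dvd_of_dvd_mul_right`), `f_i = h_i l^(r-i)`; then `X^r + ∑ h_i X^i` kills `y`.) -/
theorem isIntegral_of_isIntegral_smul {B F : Type*} [CommRing B] [IsDomain B]
    [IsIntegrallyClosed B] [Field F] [Algebra B F] [Module.IsTorsionFree B F]
    {l σ : B} (hl : Prime l) (hσ : ¬ l ∣ σ) {y : F}
    (h1 : IsIntegral B (l • y)) (h2 : IsIntegral B (σ • y)) : IsIntegral B y := by
  have hl0 : l ≠ 0 := hl.ne_zero
  have hσ0 : σ ≠ 0 := fun h => hσ (h ▸ dvd_zero l)
  set f := minpoly B (l • y) with hf
  set g := minpoly B (σ • y) with hg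
  have hfm : f.Monic := minpoly.monic h1
  have e : f.scaleRoots σ = g.scaleRoots l := by
    rw [hf, hg, ← IsIntegrallyClosed.minpoly_smul hσ0 h1, ← IsIntegrallyClosed.minpoly_smul hl0 h2,
      smul_comm]
  have hdeg : f.natDegree = g.natDegree := by
    have := congrArg natDegree e
    simpa using this
  have hdiv : ∀ i, l ^ (f.natDegree - i) ∣ f.coeff i := by
    intro i
    have := congrArg (fun P => coeff P i) e
    simp only [coeff_scaleRoots] at this
    refine hl.pow_dvd_of_dvd_mul_right _ (fun h => hσ (hl.dvd_of_dvd_pow h))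
      (b := σ ^ (f.natDegree - i)) ?_
    rw [this, hdeg]
    exact dvd_mul_left _ _
  choose c hc using hdiv
  set r := f.natDegree with hr
  refine ⟨X ^ r + ∑ i ∈ Finset.range r, C (c i) * X ^ i, ?_, ?_⟩
  · apply monic_X_pow_add
    refine lt_of_le_of_lt (degree_sum_le _ _) ?_
    refine (Finset.sup_lt_iff (WithBot.bot_lt_coe r)).2 ?_
    intro i hi
    refine lt_of_le_of_lt (degree_C_mul_X_pow_le _ _) ?_
    exact WithBot.coe_lt_coe.2 (Finset.mem_range.1 hi)
  · have hla : algebraMap B F l ≠ 0 := by
      rw [Ne, FaithfulSMul.algebraMap_eq_zero_iff]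
      exact hl0
    have h0 : aeval (l • y) f = 0 := minpoly.aeval _ _
    rw [hfm.as_sum, ← hr] at h0
    simp only [map_add, map_pow, aeval_X, map_sum, map_mul, aeval_C] at h0
    simp only [eval₂_add, eval₂_pow, eval₂_X, eval₂_finsetSum, eval₂_mul, eval₂_C]
    apply (mul_right_injective₀ (pow_ne_zero r hla))
    simp only [mul_zero]
    rw [← h0, mul_add, Finset.mul_sum, Algebra.smul_def, mul_pow]
    congr 1
    refine Finset.sum_congr rfl fun i hi => ?_
    have hi' := Finset.mem_range.1 hi
    rw [hc i, map_mul, map_pow, mul_pow]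
    have : algebraMap B F l ^ r = algebraMap B F l ^ (r - i) * algebraMap B F l ^ i := by
      rw [← pow_add]; congr 1; omega
    rw [this]
    ring

end Fermat.Agent.S28lib
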