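import Fermat.Agent.S28.AnPoly
import Fermat.Prelude.Thm_ModularForm_heckeT_slash_eq_self_of_mem_Gamma0

/-!
# S28 library, task A2: the `p + 1` conjugates `j ∘ α`, `p (Δ ∣ α) / Δ` and their symmetric functions.
-/

set_option autoImplicit false
set_option linter.unusedSectionVars false

open UpperHalfPlane ModularForm MatrixGroups Filter Topology Polynomial
open scoped Manifold
open Fermat.Agent.S24lib (jfun)
open P2MW.S_ModularForm_heckeT_slash_eq_self_of_mem_Gamma0.ModularForm.HeckeSlashInvariance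
  (heckeRep redMatrix heckeRep_mul)

namespace Fermat.Agent.S28lib

local notation "Δ" => ModularForm.discriminant

noncomputable section

variable (p : ℕ) [Fact p.Prime]

/-- `j ∘ α_x` -/
def Jx (x : OnePoint (ZMod p)) (τ : ℍ) : ℂ := jfun (heckeRep p x • τ)

/-- `p (Δ ∣₁₂ α_x) / Δ`, i.e. `p^12 Δ(pτ)/Δ(τ)` and `Δ((τ+b)/p)/Δ(τ)` -/
def phix (x : OnePoint (ZMod p)) (τ : ℍ) : ℂ :=
  (p : ℂ) * ((Δ : ℍ → ℂ) ∣[(12 : ℤ)] heckeRep p x) τ / Δ τ

def PhiAt (τ : ℍ) : ℂ[X] := ∏ x : OnePoint (ZMod p), (X - C (Jx p x τ))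

def PsiAt (τ : ℍ) : ℂ[X] := ∏ x : OnePoint (ZMod p), (X - C (phix p x τ))

open Classical in
def GAt (τ : ℍ) : ℂ[X] :=
  ∑ x : OnePoint (ZMod p), C (phix p x τ) * ∏ y ∈ Finset.univ.erase x, (X - C (Jx p y τ))

/-- multiplication by `p` on `ℍ` -/
def mulP (τ : ℍ) : ℍ := heckeDiagMatrix p • τ

theorem p_ne_zero' : p ≠ 0 := (Fact.out : p.Prime).ne_zero

theorem coe_mulP (τ : ℍ) : ((mulP p τ : ℍ) : ℂ) = p * τ :=
  coe_heckeDiagMatrix_smul (p_ne_zero' p) τ

theorem Jx_infty (τ : ℍ) : Jx p OnePoint.infty τ = jfun (mulP p τ) := rfl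

theorem heckeMatrix_zero_smul_mulP (τ : ℍ) : heckeMatrix p 0 • mulP p τ = τ := by
  apply UpperHalfPlane.ext
  rw [coe_heckeMatrix_smul (p_ne_zero' p), coe_mulP]
  have : (p : ℂ) ≠ 0 := by exact_mod_cast p_ne_zero' p
  field_simp
  simp

theorem heckeRep_zero : heckeRep p ((0 : ZMod p) : OnePoint (ZMod p)) = heckeMatrix p 0 := by
  show heckeMatrix p (0 : ZMod p).val = heckeMatrix p 0
  rw [ZMod.val_zero]

theorem Jx_zero_mulP (τ : ℍ) : Jx p ((0 : ZMod p) : OnePoint (ZMod p)) (mulP p τ) = jfun τ := by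
  rw [Jx, heckeRep_zero, heckeMatrix_zero_smul_mulP]

theorem phix_infty (τ : ℍ) : phix p OnePoint.infty τ = (p : ℂ) ^ 12 * Δ (mulP p τ) / Δ τ := by
  have h : heckeRep p OnePoint.infty = heckeDiagMatrix p := rfl
  rw [phix, h, slash_heckeDiagMatrix_apply 12 (p_ne_zero' p)]
  have : ((p : ℂ) ^ ((12 : ℤ) - 1)) = (p : ℂ) ^ 11 := by
    norm_num
  rw [this, mulP]
  ring

theorem phix_zero_mulP (τ : ℍ) :
    phix p ((0 : ZMod p) : OnePoint (ZMod p)) (mulP p τ) = Δ τ / Δ (mulP p τ) := by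
  rw [phix, heckeRep_zero, slash_heckeMatrix_apply 12 (p_ne_zero' p), heckeMatrix_zero_smul_mulP]
  have : (p : ℂ) ≠ 0 := by exact_mod_cast p_ne_zero' p
  field_simp

theorem exists_heckeRep_mul (g : SL(2, ℤ)) (x : OnePoint (ZMod p)) :
    ∃ g' : SL(2, ℤ), heckeRep p x * Matrix.SpecialLinearGroup.mapGL ℝ g =
      Matrix.SpecialLinearGroup.mapGL ℝ g' * heckeRep p (redMatrix p g • x) := by
  obtain ⟨g', -, h⟩ := heckeRep_mul (p := p) (N := 1)
    (fun h => (Fact.out : p.Prime).one_lt.ne' (Nat.dvd_one.mp h)) g (by simp) x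
  exact ⟨g', h⟩

theorem Jx_smul (g : SL(2, ℤ)) (x : OnePoint (ZMod p)) (τ : ℍ) :
    Jx p x (g • τ) = Jx p (redMatrix p g • x) τ := by
  obtain ⟨g', h⟩ := exists_heckeRep_mul p g x
  have h1 : heckeRep p x • (g • τ) = g' • (heckeRep p (redMatrix p g • x) • τ) := by
    show heckeRep p x • (Matrix.SpecialLinearGroup.mapGL ℝ g • τ) =
      Matrix.SpecialLinearGroup.mapGL ℝ g' • (heckeRep p (redMatrix p g • x) • τ)
    rw [← mul_smul, ← mul_smul, h]
  rw [Jx, h1, Fermat.Agent.S24lib.jfun_smul, Jx]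

theorem phix_smul (g : SL(2, ℤ)) (x : OnePoint (ZMod p)) (τ : ℍ) :
    phix p x (g • τ) = phix p (redMatrix p g • x) τ := by
  obtain ⟨g', h⟩ := exists_heckeRep_mul p g x
  have hΔ : ∀ γ : SL(2, ℤ), (Δ : ℍ → ℂ) ∣[(12 : ℤ)] γ = Δ := S20lib.isR_disc.inv
  have h1 : (((Δ : ℍ → ℂ) ∣[(12 : ℤ)] heckeRep p x) ∣[(12 : ℤ)] g) =
      (Δ : ℍ → ℂ) ∣[(12 : ℤ)] heckeRep p (redMatrix p g • x) := by
    have e1 : (((Δ : ℍ → ℂ) ∣[(12 : ℤ)] heckeRep p x) ∣[(12 : ℤ)] g) =
        (((Δ : ℍ → ℂ) ∣[(12 : ℤ)] heckeRep p x) ∣[(12 : ℤ)]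
          Matrix.SpecialLinearGroup.mapGL ℝ g) := rfl
    have e2 : ((Δ : ℍ → ℂ) ∣[(12 : ℤ)] Matrix.SpecialLinearGroup.mapGL ℝ g') = Δ := hΔ g'
    rw [e1, ← SlashAction.slash_mul, h, SlashAction.slash_mul, e2]
  have h2 := congrFun h1 τ
  have h3 := congrFun (hΔ g) τ
  rw [ModularForm.SL_slash_apply] at h2 h3
  have hd : denom g τ ≠ 0 := denom_ne_zero g τ
  have hz : denom g τ ^ (-(12 : ℤ)) ≠ 0 := zpow_ne_zero _ hd
  have hΔ1 := discriminant_ne_zero τ
  have hΔ2 := discriminant_ne_zero (g • τ)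
  rw [phix, phix, ← h2, ← h3]
  field_simp

/-! ### Holomorphic functions of moderate growth -/

omit [Fact p.Prime] in
theorem exp_isBigO_exp {c c' : ℝ} (h : c ≤ c') :
    (fun τ : ℍ => Real.exp (c * τ.im)) =O[atImInfty] (fun τ : ℍ => Real.exp (c' * τ.im)) := by
  refine Asymptotics.IsBigO.of_bound 1 (Eventually.of_forall fun τ => ?_)
  rw [Real.norm_of_nonneg (Real.exp_pos _).le, Real.norm_of_nonneg (Real.exp_pos _).le, one_mul]
  exact Real.exp_le_exp.mpr (mul_le_mul_of_nonneg_right h τ.im_pos.le)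

/-- holomorphic on `ℍ`, of moderate growth at `i∞` -/
structure Good (f : ℍ → ℂ) : Prop where
  holo : MDiff f
  mod : ∃ c : ℝ, f =O[atImInfty] (fun τ : ℍ => Real.exp (c * τ.im))

theorem Good.const (c : ℂ) : Good (fun _ : ℍ => c) where
  holo := mdifferentiable_const
  mod := ⟨0, by
    simp only [zero_mul, Real.exp_zero]
    exact Asymptotics.isBigO_const_const c one_ne_zero _⟩

theorem Good.add {f g : ℍ → ℂ} (hf : Good f) (hg : Good g) : Good (fun τ => f τ + g τ) where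
  holo := hf.holo.add hg.holo
  mod := by
    obtain ⟨c, hc⟩ := hf.mod
    obtain ⟨d, hd⟩ := hg.mod
    exact ⟨max c d, (hc.trans (exp_isBigO_exp (le_max_left c d))).add
      (hd.trans (exp_isBigO_exp (le_max_right c d)))⟩

theorem Good.mul {f g : ℍ → ℂ} (hf : Good f) (hg : Good g) : Good (fun τ => f τ * g τ) where
  holo := hf.holo.mul hg.holo
  mod := by
    obtain ⟨c, hc⟩ := hf.mod
    obtain ⟨d, hd⟩ := hg.mod
    refine ⟨c + d, (hc.mul hd).congr_right fun τ => ?_⟩
    rw [← Real.exp_add]; ring_nf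

theorem Good.neg {f : ℍ → ℂ} (hf : Good f) : Good (fun τ => - f τ) := by
  have := (Good.const (-1)).mul hf
  simpa using this

theorem Good.sub {f g : ℍ → ℂ} (hf : Good f) (hg : Good g) : Good (fun τ => f τ - g τ) := by
  simpa [sub_eq_add_neg] using hf.add hg.neg

theorem Good.sum {ι : Type*} (s : Finset ι) {f : ι → ℍ → ℂ} (hf : ∀ i ∈ s, Good (f i)) :
    Good (fun τ => ∑ i ∈ s, f i τ) := by
  classical
  induction s using Finset.induction_on with
  | empty => simpa using Good.const 0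
  | insert a s ha ih =>
    simp only [Finset.sum_insert ha]
    exact (hf a (Finset.mem_insert_self a s)).add
      (ih fun i hi => hf i (Finset.mem_insert_of_mem hi))

/-- polynomial-valued functions all of whose coefficients are `Good` -/
def GoodP (P : ℍ → ℂ[X]) : Prop := ∀ k, Good (fun τ => (P τ).coeff k)

theorem GoodP.C {f : ℍ → ℂ} (hf : Good f) : GoodP (fun τ => Polynomial.C (f τ)) := by
  intro k
  simp only [coeff_C]
  by_cases hk : k = 0
  · simpa [hk] using hf
  · simpa [hk] using Good.const 0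

theorem GoodP.const (Q : ℂ[X]) : GoodP (fun _ => Q) := fun _ => Good.const _

theorem GoodP.add {P Q : ℍ → ℂ[X]} (hP : GoodP P) (hQ : GoodP Q) :
    GoodP (fun τ => P τ + Q τ) := by
  intro k
  simp only [coeff_add]
  exact (hP k).add (hQ k)

theorem GoodP.sub {P Q : ℍ → ℂ[X]} (hP : GoodP P) (hQ : GoodP Q) :
    GoodP (fun τ => P τ - Q τ) := by
  intro k
  simp only [coeff_sub]
  exact (hP k).sub (hQ k)

theorem GoodP.mul {P Q : ℍ → ℂ[X]} (hP : GoodP P) (hQ : GoodP Q) :
    GoodP (fun τ => P τ * Q τ) := by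
  intro k
  simp only [coeff_mul]
  exact Good.sum _ fun i _ => (hP i.1).mul (hQ i.2)

theorem GoodP.sum {ι : Type*} (s : Finset ι) {P : ι → ℍ → ℂ[X]} (hP : ∀ i ∈ s, GoodP (P i)) :
    GoodP (fun τ => ∑ i ∈ s, P i τ) := by
  intro k
  simp only [finsetSum_coeff]
  exact Good.sum _ fun i hi => hP i hi k

theorem GoodP.prod {ι : Type*} (s : Finset ι) {P : ι → ℍ → ℂ[X]} (hP : ∀ i ∈ s, GoodP (P i)) :
    GoodP (fun τ => ∏ i ∈ s, P i τ) := by
  classical
  induction s using Finset.induction_on with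
  | empty => simpa using GoodP.const 1
  | insert a s ha ih =>
    simp only [Finset.prod_insert ha]
    exact (hP a (Finset.mem_insert_self a s)).mul
      (ih fun i hi => hP i (Finset.mem_insert_of_mem hi))

theorem disc_isBigO_exp :
    (Δ : ℍ → ℂ) =O[atImInfty] (fun τ : ℍ => Real.exp (-(2 * Real.pi) * τ.im)) := by
  have := CuspFormClass.exp_decay_atImInfty (h := 1) CuspForm.discriminant one_pos
    one_mem_strictPeriods_SL
  refine this.congr_right fun τ => ?_
  congr 1; ring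

/-- A `Good` invariant function is a polynomial in `j`. -/
theorem Good.exists_poly {f : ℍ → ℂ} (hf : Good f)
    (hinv : ∀ (g : SL(2, ℤ)) (τ : ℍ), f (g • τ) = f τ) :
    ∃ P : ℂ[X], ∀ τ, f τ = P.eval (jfun τ) := by
  obtain ⟨c, hc⟩ := hf.mod
  obtain ⟨m, hm⟩ := exists_nat_ge (c / (2 * Real.pi))
  have hpi : 0 < 2 * Real.pi := by positivity
  have hm' : c ≤ 2 * Real.pi * m := by
    rw [div_le_iff₀ hpi] at hm; linarith
  have hbd : IsBoundedAtImInfty (fun τ => (Δ τ) ^ m * f τ) := by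
    have h1 := (disc_isBigO_exp.pow m).mul hc
    refine h1.trans (Asymptotics.IsBigO.of_bound 1 (Eventually.of_forall fun τ => ?_))
    rw [← Real.exp_nat_mul, ← Real.exp_add, Real.norm_of_nonneg (Real.exp_pos _).le]
    simp only [Pi.one_apply, norm_one, mul_one]
    rw [Real.exp_le_one_iff]
    have : (m : ℝ) * (-(2 * Real.pi) * τ.im) + c * τ.im = (c - 2 * Real.pi * m) * τ.im := by ring
    rw [this]
    exact mul_nonpos_of_nonpos_of_nonneg (by linarith) τ.im_pos.le
  obtain ⟨P, -, hP⟩ := exists_poly_of_invariant f hf.holo hinv m hbd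
  exact ⟨P, hP⟩

theorem GoodP.exists_poly {P : ℍ → ℂ[X]} (hP : GoodP P)
    (hinv : ∀ (g : SL(2, ℤ)) (τ : ℍ), P (g • τ) = P τ) (d : ℕ) (hd : ∀ τ, (P τ).natDegree ≤ d) :
    ∃ Φ : ℂ[X][X], ∀ τ, Φ.map (evalRingHom (jfun τ)) = P τ := by
  have h : ∀ k, ∃ Q : ℂ[X], ∀ τ, (P τ).coeff k = Q.eval (jfun τ) := fun k =>
    (hP k).exists_poly fun g τ => by rw [hinv]
  choose Q hQ using h
  refine ⟨∑ k ∈ Finset.range (d + 1), monomial k (Q k), fun τ => ?_⟩
  ext k
  rw [coeff_map, finsetSum_coeff]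
  simp only [coeff_monomial, Finset.sum_ite_eq', Finset.mem_range]
  split_ifs with hk
  · rw [coe_evalRingHom, ← hQ]
  · rw [map_zero, coeff_eq_zero_of_natDegree_lt (lt_of_le_of_lt (hd τ) (by omega))]

/-! ### The conjugates are `Good` -/

theorem det_heckeRep_pos (x : OnePoint (ZMod p)) : 0 < ((heckeRep p x).det : ℝ) := by
  induction x using OnePoint.rec with
  | infty => exact det_heckeDiagMatrix_pos p
  | coe j => exact det_heckeMatrix_pos p j.val

theorem heckeRep_one_zero (x : OnePoint (ZMod p)) : (heckeRep p x) 1 0 = 0 := by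
  induction x using OnePoint.rec with
  | infty =>
    show (heckeDiagMatrix p : Matrix (Fin 2) (Fin 2) ℝ) 1 0 = 0
    rw [val_heckeDiagMatrix (p_ne_zero' p)]; simp
  | coe j =>
    show (heckeMatrix p j.val : Matrix (Fin 2) (Fin 2) ℝ) 1 0 = 0
    rw [val_heckeMatrix (p_ne_zero' p)]; simp

theorem im_heckeRep_smul_le (x : OnePoint (ZMod p)) (τ : ℍ) :
    (heckeRep p x • τ).im ≤ p * τ.im := by
  have hp : (1 : ℝ) ≤ p := by exact_mod_cast (Fact.out : p.Prime).one_lt.le
  have hp0 : (p : ℂ) ≠ 0 := by exact_mod_cast p_ne_zero' p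
  induction x using OnePoint.rec with
  | infty =>
    have h := coe_heckeDiagMatrix_smul (p_ne_zero' p) τ
    have h2 : (heckeDiagMatrix p • τ).im = p * τ.im := by
      have := congrArg Complex.im h
      simpa using this
    exact h2.le
  | coe j =>
    have h := coe_heckeMatrix_smul (p_ne_zero' p) j.val τ
    have h2 : (heckeMatrix p j.val • τ).im = τ.im / p := by
      have := congrArg Complex.im h
      rw [Complex.div_natCast_im, Complex.add_im, Complex.natCast_im, add_zero] at this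
      exact this
    show (heckeMatrix p j.val • τ).im ≤ p * τ.im
    rw [h2, div_le_iff₀ (by linarith)]
    have h3 : 1 ≤ (p : ℝ) * p := by nlinarith
    nlinarith [mul_le_mul_of_nonneg_right h3 τ.im_pos.le]

/-- precomposition with `α_x` preserves `Good`. -/
theorem Good.comp_heckeRep {f : ℍ → ℂ} (hf : Good f) (x : OnePoint (ZMod p)) :
    Good (fun τ => f (heckeRep p x • τ)) where
  holo := hf.holo.comp (mdifferentiable_smul (det_heckeRep_pos p x))
  mod := by
    obtain ⟨c, hc⟩ := hf.mod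
    have h1 := (hc.trans (exp_isBigO_exp (le_max_left c 0))).comp_tendsto
      (tendsto_smul_atImInfty (heckeRep_one_zero p x))
    refine ⟨max c 0 * p, h1.trans (Asymptotics.IsBigO.of_bound 1 (Eventually.of_forall fun τ => ?_))⟩
    simp only [Function.comp_apply]
    rw [Real.norm_of_nonneg (Real.exp_pos _).le, Real.norm_of_nonneg (Real.exp_pos _).le, one_mul,
      mul_assoc]
    exact Real.exp_le_exp.mpr
      (mul_le_mul_of_nonneg_left (im_heckeRep_smul_le p x τ) (le_max_right c 0))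

theorem good_of_isBounded {f : ℍ → ℂ} (hf : MDiff f) (hb : IsBoundedAtImInfty f) : Good f where
  holo := hf
  mod := ⟨0, by
    simp only [zero_mul, Real.exp_zero]
    exact hb⟩

theorem good_disc : Good (Δ : ℍ → ℂ) := good_of_isBounded S20lib.isR_disc.holo S20lib.isR_disc.bdd

theorem good_E4 : Good (E₄ : ℍ → ℂ) := good_of_isBounded S20lib.isR_E4.holo S20lib.isR_E4.bdd

theorem good_disc_inv : Good (fun τ : ℍ => (Δ τ)⁻¹) where
  holo := Fermat.Agent.S24lib.mdiff_disc_inv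
  mod := by
    refine ⟨2 * Real.pi, ?_⟩
    have h := exp_isBigO_discriminant.inv_rev
      (Eventually.of_forall fun τ h => absurd h (Real.exp_pos _).ne')
    refine h.congr_right fun τ => ?_
    rw [← Real.exp_neg]
    congr 1; ring

theorem good_jfun : Good jfun := by
  have h := ((good_E4.mul good_E4).mul good_E4).mul good_disc_inv
  have e : jfun = fun τ => E₄ τ * E₄ τ * E₄ τ * (Δ τ)⁻¹ := by
    funext τ
    simp only [jfun, div_eq_mul_inv]; ring
  rw [e]; exact h

theorem good_Jx (x : OnePoint (ZMod p)) : Good (Jx p x) := good_jfun.comp_heckeRep p x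

theorem slash_heckeRep_apply (x : OnePoint (ZMod p)) :
    ∃ c : ℂ, ∀ τ, ((Δ : ℍ → ℂ) ∣[(12 : ℤ)] heckeRep p x) τ = c * Δ (heckeRep p x • τ) := by
  induction x using OnePoint.rec with
  | infty => exact ⟨_, fun τ => slash_heckeDiagMatrix_apply 12 (p_ne_zero' p) _ τ⟩
  | coe j => exact ⟨_, fun τ => slash_heckeMatrix_apply 12 (p_ne_zero' p) j.val _ τ⟩

theorem good_phix (x : OnePoint (ZMod p)) : Good (phix p x) := by
  obtain ⟨c, hc⟩ := slash_heckeRep_apply p x
  have h := ((Good.const ((p : ℂ) * c)).mul (good_disc.comp_heckeRep p x)).mul good_disc_inv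
  have e : phix p x = fun τ => (p : ℂ) * c * Δ (heckeRep p x • τ) * (Δ τ)⁻¹ := by
    funext τ
    rw [phix, hc, div_eq_mul_inv]; ring
  rw [e]; exact h

/-! ### The three families -/

theorem goodP_X_sub_C {f : ℍ → ℂ} (hf : Good f) : GoodP (fun τ => (X : ℂ[X]) - C (f τ)) :=
  (GoodP.const X).sub (GoodP.C hf)

theorem exists_Phi : ∃ Φ : ℂ[X][X], ∀ τ, Φ.map (evalRingHom (jfun τ)) = PhiAt p τ := by
  refine GoodP.exists_poly (P := PhiAt p) ?_ ?_ (Fintype.card (OnePoint (ZMod p))) ?_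
  · exact GoodP.prod _ fun x _ => goodP_X_sub_C (good_Jx p x)
  · intro g τ
    simp only [PhiAt, Jx_smul]
    exact Equiv.prod_comp (MulAction.toPerm (redMatrix p g)) (fun x => X - C (Jx p x τ))
  · intro τ
    refine (natDegree_prod_le _ _).trans ?_
    refine (Finset.sum_le_card_nsmul _ _ 1 fun x _ => natDegree_X_sub_C_le _).trans ?_
    simp

theorem exists_Psi : ∃ Ψ : ℂ[X][X], ∀ τ, Ψ.map (evalRingHom (jfun τ)) = PsiAt p τ := by
  refine GoodP.exists_poly (P := PsiAt p) ?_ ?_ (Fintype.card (OnePoint (ZMod p))) ?_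
  · exact GoodP.prod _ fun x _ => goodP_X_sub_C (good_phix p x)
  · intro g τ
    simp only [PsiAt, phix_smul]
    exact Equiv.prod_comp (MulAction.toPerm (redMatrix p g)) (fun x => X - C (phix p x τ))
  · intro τ
    refine (natDegree_prod_le _ _).trans ?_
    refine (Finset.sum_le_card_nsmul _ _ 1 fun x _ => natDegree_X_sub_C_le _).trans ?_
    simp

open Classical in
theorem prod_erase_smul (g : SL(2, ℤ)) (τ : ℍ) (x : OnePoint (ZMod p)) :
    ∏ y ∈ Finset.univ.erase x, ((X : ℂ[X]) - C (Jx p y (g • τ))) =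
      ∏ y ∈ Finset.univ.erase (redMatrix p g • x), ((X : ℂ[X]) - C (Jx p y τ)) := by
  refine Finset.prod_equiv (MulAction.toPerm (redMatrix p g)) ?_ ?_
  · intro y
    simp only [Finset.mem_erase, Finset.mem_univ, and_true, ne_eq, MulAction.toPerm_apply,
      smul_left_cancel_iff]
  · intro y _
    rw [Jx_smul, MulAction.toPerm_apply]

open Classical in
theorem GAt_smul (g : SL(2, ℤ)) (τ : ℍ) : GAt p (g • τ) = GAt p τ := by
  unfold GAt
  simp only [prod_erase_smul, phix_smul]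
  exact Equiv.sum_comp (MulAction.toPerm (redMatrix p g))
    (fun x => C (phix p x τ) * ∏ y ∈ Finset.univ.erase x, ((X : ℂ[X]) - C (Jx p y τ)))

open Classical in
theorem exists_G : ∃ G : ℂ[X][X], ∀ τ, G.map (evalRingHom (jfun τ)) = GAt p τ := by
  refine GoodP.exists_poly (P := GAt p) ?_ (GAt_smul p) (Fintype.card (OnePoint (ZMod p))) ?_
  · exact GoodP.sum _ fun x _ => (GoodP.C (good_phix p x)).mul
      (GoodP.prod _ fun y _ => goodP_X_sub_C (good_Jx p y))
  · intro τ
    refine natDegree_sum_le_of_forall_le _ _ fun x _ => ?_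
    refine (natDegree_C_mul_le _ _).trans ?_
    refine (natDegree_prod_le _ _).trans ?_
    refine (Finset.sum_le_card_nsmul _ _ 1 fun x _ => natDegree_X_sub_C_le _).trans ?_
    simp only [smul_eq_mul, mul_one]
    exact Finset.card_le_univ _

end

end Fermat.Agent.S28lib
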