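import Fermat.Agent.S28.Defs
import Fermat.Agent.S28.AnFamily
import Fermat.Agent.S24.JFunA

/-!
# S28 library, task A3: existence of the modular data over `ℂ`
(transfer of the analytic identities to formal `q`-series).
-/

set_option autoImplicit false

open ModularCurve UpperHalfPlane ModularForm Filter Topology Polynomial
open Fermat.Agent.S24lib

namespace Fermat.Agent.S28lib

local notation "Δ" => ModularForm.discriminant

namespace An3

noncomputable section


/-- value at `(x, y)` of `P ∈ ℂ[Y][X]` -/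
def val2 (P : ℂ[X][X]) (x y : ℂ) : ℂ := (P.map (evalRingHom y)).eval x

/-- evaluation at a point, as a ring hom on `Mer` -/
def evq (q : ℂ) : Mer →+* ℂ := (Pi.evalRingHom (fun _ : ℂ => ℂ) q).comp Mer.val.toRingHom

theorem evq_apply (q : ℂ) (φ : Mer) : evq q φ = (φ : ℂ → ℂ) q := rfl

/-- `P(x, y)` as an element of `Mer` -/
def mer2 (P : ℂ[X][X]) (x y : Mer) : Mer :=
  P.eval₂ (Polynomial.eval₂RingHom (algebraMap ℂ Mer) y) x

theorem mer2_apply (P : ℂ[X][X]) (x y : Mer) (q : ℂ) :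
    (mer2 P x y : ℂ → ℂ) q = val2 P ((x : ℂ → ℂ) q) ((y : ℂ → ℂ) q) := by
  rw [← evq_apply, mer2, Polynomial.hom_eval₂, val2, Polynomial.eval_map]
  congr 1
  ext c
  · simp [evq_apply]
  · simp [evq_apply]

theorem laurent_mer2 (P : ℂ[X][X]) (x y : Mer) :
    laurent (mer2 P x y : ℂ → ℂ) = ev2 P (laurent x) (laurent y) := by
  change (laurentHom : Mer →+* LaurentSeries ℂ) (mer2 P x y) = _
  rw [mer2, Polynomial.hom_eval₂, ev2]
  congr 1
  ext c : 2
  · simp [evY, ModularCurve.algebraMap_laurentSeries_eq_single]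
  · simp [evY]



theorem twist_one (S : LaurentSeries ℂ) : twist 1 S = S := by
  ext k; simp

theorem laurent_jcusp' : laurent jcusp = jA ℂ := by
  rw [laurent_jcusp, ← jqModC_rat, coeffMap_jqModC]

theorem meromorphicAt_comp_pow {φ : ℂ → ℂ} (hφ : MeromorphicAt φ 0) (p : ℕ) [NeZero p] :
    MeromorphicAt (fun q => φ (q ^ p)) 0 := by
  simpa only [one_mul] using (laurent_comp_mul_pow hφ one_ne_zero p).1

theorem laurent_comp_pow {φ : ℂ → ℂ} (hφ : MeromorphicAt φ 0) (p : ℕ) [NeZero p] :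
    laurent (fun q => φ (q ^ p)) = qExpand ℂ p (laurent φ) := by
  have := (laurent_comp_mul_pow hφ one_ne_zero p).2
  simpa only [one_mul, twist_one] using this

/-- `Δ` as a function of `q` -/
def dcusp : ℂ → ℂ := cuspFunction 1 Δ

theorem disc_eq_dcusp (τ : ℍ) : Δ τ = dcusp (Function.Periodic.qParam 1 τ) := by
  have := SlashInvariantFormClass.eq_cuspFunction CuspForm.discriminant τ
    one_mem_strictPeriods_SL one_ne_zero
  rw [CuspForm.coe_discriminant] at this
  exact this.symm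

theorem meromorphicAt_dcusp : MeromorphicAt dcusp 0 := analyticAt_cusp_disc.meromorphicAt

theorem laurent_dcusp : laurent dcusp = delta ℂ := by
  set P : ℂ → ℂ := fun q => ∏' n : ℕ, (1 - q ^ (n + 1)) with hP
  have hPan : AnalyticAt ℂ P 0 :=
    differentiableOn_tprod_one_sub_pow.analyticAt (Metric.ball_mem_nhds 0 one_pos)
  have hev : ∀ᶠ z in 𝓝[≠] (0 : ℂ), dcusp z = z ^ (1 : ℤ) * (P ^ 24) z := by
    filter_upwards [nhdsWithin_le_nhds (Metric.ball_mem_nhds (0 : ℂ) one_pos)] with z hz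
    rw [dcusp, discriminant_cuspFunction_eqOn hz]
    simp only [hP, Pi.pow_apply]
    rw [(multipliable_one_sub_pow (by simpa using hz)).tprod_pow, zpow_one]
  rw [laurent_eq (hPan.pow 24) hev, taylor_pow hPan, taylor_tprod, ← map_pow, delta,
    ModularCurve.dedekindEtaUnit]

theorem delta_mul_deltaInv (A : Type*) [CommRing A] : delta A * deltaInv A = 1 := by
  have h3 := congrArg (PowerSeries.map (Int.castRingHom A)) ModularCurve.dedekindEtaUnit_mul_inv
  rw [map_mul, map_one] at h3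
  rw [delta, deltaInv, mul_mul_mul_comm, ← map_mul, h3, HahnSeries.single_mul_single]
  simp

theorem eventually_dcusp_ne_zero : ∀ᶠ z in 𝓝[≠] (0 : ℂ), dcusp z ≠ 0 := by
  filter_upwards [nhdsWithin_le_nhds (Metric.ball_mem_nhds (0 : ℂ) one_pos),
    self_mem_nhdsWithin] with z hz hz0
  have him := Function.Periodic.im_invQParam_pos_of_norm_lt_one one_pos
      (by simpa [dist_zero_right] using hz) hz0
  have h := disc_eq_dcusp ⟨_, him⟩
  rw [UpperHalfPlane.coe_mk, Function.Periodic.qParam_right_inv one_ne_zero hz0] at h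
  rw [← h]
  exact discriminant_ne_zero _

theorem laurent_dcusp_inv : laurent (fun q => (dcusp q)⁻¹) = deltaInv ℂ := by
  have h1 : laurent (dcusp * fun q => (dcusp q)⁻¹) = 1 := by
    rw [laurent_congr (ψ := fun _ => 1), laurent_const, map_one]
    filter_upwards [eventually_dcusp_ne_zero] with z hz
    simp [hz]
  rw [laurent_mul meromorphicAt_dcusp (ψ := fun q => (dcusp q)⁻¹) meromorphicAt_dcusp.inv,
    laurent_dcusp] at h1
  have h2 := delta_mul_deltaInv ℂ
  calc laurent (fun q => (dcusp q)⁻¹) = (delta ℂ * deltaInv ℂ) * laurent (fun q => (dcusp q)⁻¹) := by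
        rw [h2, one_mul]
    _ = deltaInv ℂ * (delta ℂ * laurent (fun q => (dcusp q)⁻¹)) := by ring
    _ = deltaInv ℂ := by rw [h1, mul_one]

/-- every point of the punctured unit disc is `q(τ)` -/
theorem exists_qParam_eq {q : ℂ} (hq : ‖q‖ < 1) (hq0 : q ≠ 0) :
    ∃ τ : ℍ, Function.Periodic.qParam 1 τ = q := by
  have him := Function.Periodic.im_invQParam_pos_of_norm_lt_one one_pos hq hq0
  exact ⟨⟨_, him⟩, by
    rw [UpperHalfPlane.coe_mk, Function.Periodic.qParam_right_inv one_ne_zero hq0]⟩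

theorem eventually_of_forall_qParam {Q : ℂ → Prop}
    (h : ∀ τ : ℍ, Q (Function.Periodic.qParam 1 τ)) : ∀ᶠ z in 𝓝[≠] (0 : ℂ), Q z := by
  filter_upwards [nhdsWithin_le_nhds (Metric.ball_mem_nhds (0 : ℂ) one_pos),
    self_mem_nhdsWithin] with z hz hz0
  obtain ⟨τ, rfl⟩ := exists_qParam_eq (by simpa [dist_zero_right] using hz) hz0
  exact h τ

theorem qParam_mulP (p : ℕ) [Fact p.Prime] (τ : ℍ) :
    Function.Periodic.qParam 1 (mulP p τ) = Function.Periodic.qParam 1 τ ^ p := by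
  rw [coe_mulP, Function.Periodic.qParam, Function.Periodic.qParam, ← Complex.exp_nat_mul]
  congr 1
  simp only [Complex.ofReal_one, div_one]
  ring



section trunc

variable {R S : Type*} [CommRing R] [CommRing S]

/-- truncation of a polynomial below degree `n` -/
def truncP (n : ℕ) (P : R[X]) : R[X] := ∑ k ∈ Finset.range n, C (P.coeff k) * X ^ k

theorem coeff_truncP (n : ℕ) (P : R[X]) (i : ℕ) :
    (truncP n P).coeff i = if i < n then P.coeff i else 0 := by
  simp only [truncP, finsetSum_coeff, coeff_C_mul_X_pow]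
  rw [Finset.sum_ite_eq]
  simp

theorem degree_truncP_lt (n : ℕ) (P : R[X]) : (truncP n P).degree < n := by
  rw [degree_lt_iff_coeff_zero]
  intro m hm
  rw [coeff_truncP, if_neg (by omega)]

theorem map_truncP_of_natDegree_lt (f : R →+* S) (n : ℕ) (P : R[X]) (M : S[X]) (h : P.map f = M)
    (hM : M.natDegree < n) : (truncP n P).map f = M := by
  ext i
  rw [coeff_map, coeff_truncP, ← h]
  split_ifs with hi
  · rw [coeff_map]
  · rw [map_zero, h, coeff_eq_zero_of_natDegree_lt (by omega)]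

theorem map_X_pow_add_truncP (f : R →+* S) (n : ℕ) (P : R[X]) (M : S[X]) (h : P.map f = M)
    (hM : M.Monic) (hn : M.natDegree = n) : (X ^ n + truncP n P).map f = M := by
  ext i
  rw [coeff_map, coeff_add, coeff_X_pow, coeff_truncP]
  rcases lt_trichotomy i n with hi | hi | hi
  · rw [if_neg (by omega), if_pos hi, zero_add, ← h, coeff_map]
  · subst hi
    rw [if_pos rfl, if_neg (by omega), add_zero, map_one, ← hn]
    exact hM.coeff_natDegree.symm
  · rw [if_neg (by omega), if_neg (by omega), add_zero, map_zero,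
      coeff_eq_zero_of_natDegree_lt (by omega)]

theorem natDegree_X_pow_add_truncP [Nontrivial R] (n : ℕ) (P : R[X]) :
    (X ^ n + truncP n P).natDegree = n := by
  have h := degree_truncP_lt n P
  have h2 : (X ^ n + truncP n P).degree = (n : WithBot ℕ) := by
    rw [degree_add_eq_left_of_degree_lt (by rwa [degree_X_pow]), degree_X_pow]
  exact natDegree_eq_of_degree_eq_some h2

theorem natDegree_truncP_le (n : ℕ) (P : R[X]) : (truncP (n + 1) P).natDegree ≤ n := by
  rw [natDegree_le_iff_coeff_eq_zero]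
  intro m hm
  rw [coeff_truncP, if_neg (by omega)]

end trunc

variable (p : ℕ) [Fact p.Prime]

theorem card_onePoint : Fintype.card (OnePoint (ZMod p)) = p + 1 := by
  have : Fintype.card (OnePoint (ZMod p)) = Fintype.card (Option (ZMod p)) :=
    Fintype.card_congr (Equiv.refl _)
  rw [this, Fintype.card_option, ZMod.card]

theorem monic_PhiAt (τ : ℍ) : (PhiAt p τ).Monic :=
  monic_prod_of_monic _ _ fun _ _ => monic_X_sub_C _

theorem natDegree_PhiAt (τ : ℍ) : (PhiAt p τ).natDegree = p + 1 := by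
  rw [PhiAt, natDegree_prod_of_monic _ _ fun _ _ => monic_X_sub_C _]
  simp [card_onePoint]

theorem monic_PsiAt (τ : ℍ) : (PsiAt p τ).Monic :=
  monic_prod_of_monic _ _ fun _ _ => monic_X_sub_C _

theorem natDegree_PsiAt (τ : ℍ) : (PsiAt p τ).natDegree = p + 1 := by
  rw [PsiAt, natDegree_prod_of_monic _ _ fun _ _ => monic_X_sub_C _]
  simp [card_onePoint]

theorem eval_PhiAt (x : OnePoint (ZMod p)) (τ : ℍ) : (PhiAt p τ).eval (Jx p x τ) = 0 := by
  rw [PhiAt, eval_prod]
  exact Finset.prod_eq_zero (Finset.mem_univ x) (by simp)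

theorem eval_PsiAt (x : OnePoint (ZMod p)) (τ : ℍ) : (PsiAt p τ).eval (phix p x τ) = 0 := by
  rw [PsiAt, eval_prod]
  exact Finset.prod_eq_zero (Finset.mem_univ x) (by simp)

theorem natDegree_GAt_le (τ : ℍ) : (GAt p τ).natDegree ≤ p := by
  classical
  rw [GAt]
  refine natDegree_sum_le_of_forall_le _ _ fun x _ => ?_
  refine (natDegree_C_mul_le _ _).trans ?_
  refine (natDegree_prod_le _ _).trans ?_
  simp only [natDegree_X_sub_C, Finset.sum_const, smul_eq_mul, mul_one]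
  rw [Finset.card_erase_of_mem (Finset.mem_univ x), Finset.card_univ, card_onePoint]
  simp

theorem eval_GAt (x : OnePoint (ZMod p)) (τ : ℍ) :
    (GAt p τ).eval (Jx p x τ) = phix p x τ * (derivative (PhiAt p τ)).eval (Jx p x τ) := by
  classical
  rw [GAt, PhiAt, derivative_prod_finset, eval_finsetSum, eval_finsetSum,
    Finset.sum_eq_single x, Finset.sum_eq_single x]
  · simp only [eval_mul, eval_C, derivative_X_sub_C, mul_one]
  · intro y _ hy
    rw [eval_mul, eval_prod, Finset.prod_eq_zero (i := x) (by simp [hy.symm]) (by simp), zero_mul]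
  · simp
  · intro y _ hy
    rw [eval_mul, eval_prod, Finset.prod_eq_zero (i := x) (by simp [hy.symm]) (by simp), mul_zero]
  · simp


/-! ### the four meromorphic germs -/

/-- `j(q)` -/
def jM : Mer := ⟨jcusp, meromorphicAt_jcusp⟩

/-- `j(q^p)` -/
def jpM : Mer :=
  haveI : NeZero p := ⟨(Fact.out : p.Prime).ne_zero⟩
  ⟨fun q => jcusp (q ^ p), meromorphicAt_comp_pow meromorphicAt_jcusp p⟩

/-- `p^12 Δ(q^p)/Δ(q)` -/
def uM : Mer :=
  haveI : NeZero p := ⟨(Fact.out : p.Prime).ne_zero⟩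
  ⟨(fun _ => (p : ℂ) ^ 12) * ((fun q => dcusp (q ^ p)) * fun q => (dcusp q)⁻¹),
    (MeromorphicAt.const _ _).mul
      ((meromorphicAt_comp_pow meromorphicAt_dcusp p).mul meromorphicAt_dcusp.inv)⟩

/-- `Δ(q)/Δ(q^p)` -/
def vM : Mer :=
  haveI : NeZero p := ⟨(Fact.out : p.Prime).ne_zero⟩
  ⟨dcusp * fun q => (dcusp (q ^ p))⁻¹,
    meromorphicAt_dcusp.mul (meromorphicAt_comp_pow meromorphicAt_dcusp p).inv⟩

theorem laurent_jM : laurent (jM : ℂ → ℂ) = jA ℂ := laurent_jcusp'

theorem laurent_jpM [NeZero p] : laurent (jpM p : ℂ → ℂ) = jAd ℂ p := by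
  rw [jpM]
  exact (laurent_comp_pow meromorphicAt_jcusp p).trans (by rw [laurent_jcusp'])

theorem laurent_uM [NeZero p] :
    laurent (uM p : ℂ → ℂ) = HahnSeries.C ((p : ℂ) ^ 12) * uA ℂ p := by
  rw [uM]
  change laurent ((fun _ => (p : ℂ) ^ 12) * ((fun q => dcusp (q ^ p)) * fun q => (dcusp q)⁻¹)) = _
  have hinv : MeromorphicAt (fun q => (dcusp q)⁻¹) 0 := meromorphicAt_dcusp.inv
  rw [laurent_mul (MeromorphicAt.const _ _)
      ((meromorphicAt_comp_pow meromorphicAt_dcusp p).mul hinv),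
    laurent_mul (meromorphicAt_comp_pow meromorphicAt_dcusp p) hinv,
    laurent_const, laurent_comp_pow meromorphicAt_dcusp p, laurent_dcusp, laurent_dcusp_inv, uA]

theorem laurent_vM [NeZero p] : laurent (vM p : ℂ → ℂ) = uAinv ℂ p := by
  rw [vM]
  change laurent (dcusp * fun q => (dcusp (q ^ p))⁻¹) = _
  have hinv : MeromorphicAt (fun q => (dcusp q)⁻¹) 0 := meromorphicAt_dcusp.inv
  rw [laurent_mul meromorphicAt_dcusp (meromorphicAt_comp_pow hinv p),
    laurent_dcusp, laurent_comp_pow hinv p, laurent_dcusp_inv, uAinv]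

theorem jM_qParam (τ : ℍ) : (jM : ℂ → ℂ) (Function.Periodic.qParam 1 τ) = jfun τ :=
  (jfun_eq_jcusp τ).symm

theorem jpM_qParam (τ : ℍ) :
    (jpM p : ℂ → ℂ) (Function.Periodic.qParam 1 τ) = jfun (mulP p τ) := by
  rw [jfun_eq_jcusp, qParam_mulP]
  rfl

theorem uM_qParam (τ : ℍ) :
    (uM p : ℂ → ℂ) (Function.Periodic.qParam 1 τ) = phix p OnePoint.infty τ := by
  rw [phix_infty, disc_eq_dcusp, disc_eq_dcusp, qParam_mulP, mul_div_assoc, div_eq_mul_inv]
  rfl

theorem vM_qParam (τ : ℍ) :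
    (vM p : ℂ → ℂ) (Function.Periodic.qParam 1 τ) =
      phix p ((0 : ZMod p) : OnePoint (ZMod p)) (mulP p τ) := by
  rw [phix_zero_mulP, disc_eq_dcusp, disc_eq_dcusp, qParam_mulP, div_eq_mul_inv]
  rfl

/-- transfer of a polynomial identity -/
theorem ev2_eq_zero_of_forall (P : ℂ[X][X]) (x y : Mer)
    (h : ∀ τ : ℍ, val2 P ((x : ℂ → ℂ) (Function.Periodic.qParam 1 τ))
      ((y : ℂ → ℂ) (Function.Periodic.qParam 1 τ)) = 0) :
    ev2 P (laurent x) (laurent y) = 0 := by
  rw [← laurent_mer2, laurent_eq_zero_iff (mer2 P x y).2]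
  refine eventually_of_forall_qParam (Q := fun z => (mer2 P x y : ℂ → ℂ) z = 0) fun τ => ?_
  rw [mer2_apply]
  exact h τ

theorem ev2_eq_mul_of_forall (P Q : ℂ[X][X]) (x y u : Mer)
    (h : ∀ τ : ℍ, val2 P ((x : ℂ → ℂ) (Function.Periodic.qParam 1 τ))
      ((y : ℂ → ℂ) (Function.Periodic.qParam 1 τ)) =
      (u : ℂ → ℂ) (Function.Periodic.qParam 1 τ) *
        val2 Q ((x : ℂ → ℂ) (Function.Periodic.qParam 1 τ))
          ((y : ℂ → ℂ) (Function.Periodic.qParam 1 τ))) :
    ev2 P (laurent x) (laurent y) = laurent u * ev2 Q (laurent x) (laurent y) := by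
  rw [← laurent_mer2, ← laurent_mer2, ← laurent_mul u.2 (mer2 Q x y).2]
  refine laurent_congr ?_
  refine eventually_of_forall_qParam
    (Q := fun z => (mer2 P x y : ℂ → ℂ) z = ((u : ℂ → ℂ) * (mer2 Q x y : ℂ → ℂ)) z) fun τ => ?_
  rw [Pi.mul_apply, mer2_apply, mer2_apply]
  exact h τ

end

end An3

open An3 in
/-- **Task A3.** -/
theorem nonempty_modData_complex {p : ℕ} [NeZero p] (hp : p.Prime) : Nonempty (ModData ℂ p) := by
  have : Fact p.Prime := ⟨hp⟩
  obtain ⟨Φ₀, hΦ₀⟩ := exists_Phi p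
  obtain ⟨Ψ₀, hΨ₀⟩ := exists_Psi p
  obtain ⟨G₀, hG₀⟩ := exists_G p
  set Φ : ℂ[X][X] := X ^ (p + 1) + truncP (p + 1) Φ₀ with hΦdef
  set Ψ : ℂ[X][X] := X ^ (p + 1) + truncP (p + 1) Ψ₀ with hΨdef
  set G : ℂ[X][X] := truncP (p + 1) G₀ with hGdef
  have hΦ : ∀ τ, Φ.map (evalRingHom (jfun τ)) = PhiAt p τ := fun τ =>
    map_X_pow_add_truncP _ _ _ _ (hΦ₀ τ) (monic_PhiAt p τ) (natDegree_PhiAt p τ)
  have hΨ : ∀ τ, Ψ.map (evalRingHom (jfun τ)) = PsiAt p τ := fun τ =>
    map_X_pow_add_truncP _ _ _ _ (hΨ₀ τ) (monic_PsiAt p τ) (natDegree_PsiAt p τ)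
  have hG : ∀ τ, G.map (evalRingHom (jfun τ)) = GAt p τ := fun τ =>
    map_truncP_of_natDegree_lt _ _ _ _ (hG₀ τ) (Nat.lt_succ_of_le (natDegree_GAt_le p τ))
  have hΦ' : ∀ τ, (derivative Φ).map (evalRingHom (jfun τ)) = derivative (PhiAt p τ) := fun τ => by
    rw [← derivative_map, hΦ]
  refine ⟨{
    Φ := Φ
    Ψ := Ψ
    G := G
    Φ_monic := monic_X_pow_add (degree_truncP_lt _ _)
    Φ_natDegree := natDegree_X_pow_add_truncP _ _
    Φ_ev₁ := ?_
    Φ_ev₂ := ?_
    Ψ_monic := monic_X_pow_add (degree_truncP_lt _ _)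
    Ψ_natDegree := natDegree_X_pow_add_truncP _ _
    Ψ_ev₁ := ?_
    Ψ_ev₂ := ?_
    G_natDegree := natDegree_truncP_le _ _
    G_ev₁ := ?_
    G_ev₂ := ?_ }⟩
  · rw [← laurent_jM, ← laurent_jpM p]
    refine ev2_eq_zero_of_forall _ _ _ fun τ => ?_
    rw [jM_qParam, jpM_qParam, val2, hΦ, ← Jx_infty]
    exact eval_PhiAt p _ τ
  · rw [← laurent_jM, ← laurent_jpM p]
    refine ev2_eq_zero_of_forall _ _ _ fun τ => ?_
    rw [jM_qParam, jpM_qParam, val2, hΦ, ← Jx_zero_mulP p τ]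
    exact eval_PhiAt p _ _
  · rw [← laurent_jM, ← laurent_uM p]
    refine ev2_eq_zero_of_forall _ _ _ fun τ => ?_
    rw [jM_qParam, uM_qParam, val2, hΨ]
    exact eval_PsiAt p _ τ
  · rw [← laurent_jpM p, ← laurent_vM p]
    refine ev2_eq_zero_of_forall _ _ _ fun τ => ?_
    rw [jpM_qParam, vM_qParam, val2, hΨ]
    exact eval_PsiAt p _ _
  · rw [← laurent_jM, ← laurent_jpM p, ← laurent_uM p]
    refine ev2_eq_mul_of_forall _ _ _ _ _ fun τ => ?_
    rw [jM_qParam, jpM_qParam, uM_qParam, val2, val2, hG, hΦ', ← Jx_infty]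
    exact eval_GAt p _ τ
  · rw [← laurent_jM, ← laurent_jpM p, ← laurent_vM p]
    refine ev2_eq_mul_of_forall _ _ _ _ _ fun τ => ?_
    rw [jM_qParam, jpM_qParam, vM_qParam, val2, val2, hG, hΦ', ← Jx_zero_mulP p τ]
    exact eval_GAt p _ _

end Fermat.Agent.S28lib
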