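import Fermat.Agent.S28.Subst

/-!
# S28 library, task B: descent of the modular data `ℂ → ℚ → ℤ_(ℓ) → 𝔽_ℓ`, functoriality.
-/

set_option autoImplicit false

open ModularCurve

namespace Fermat.Agent.S28lib

noncomputable section

section map

variable {A B : Type*} [CommRing A] [CommRing B]

theorem coeffMap_jA (f : A →+* B) : coeffMap f (jA A) = jA B := coeffMap_jqModC f

theorem coeffMap_jAd (f : A →+* B) (d : ℕ) [NeZero d] : coeffMap f (jAd A d) = jAd B d := by
  rw [jAd, coeffMap_qExpand, coeffMap_jqModC]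

theorem coeffMap_uA (f : A →+* B) (p : ℕ) [NeZero p] : coeffMap f (uA A p) = uA B p := by
  rw [uA, map_mul, coeffMap_qExpand, coeffMap_delta, coeffMap_deltaInv, uA]

theorem coeffMap_uAinv (f : A →+* B) (p : ℕ) [NeZero p] : coeffMap f (uAinv A p) = uAinv B p := by
  rw [uAinv, map_mul, coeffMap_qExpand, coeffMap_delta, coeffMap_deltaInv, uAinv]

theorem coeffMap_C_natCast_pow (f : A →+* B) (p n : ℕ) :
    coeffMap f (HahnSeries.C ((p : A) ^ n)) = HahnSeries.C ((p : B) ^ n) := by
  rw [coeffMap_C, map_pow, map_natCast]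

/-- the coefficient map on two-variable polynomials -/
abbrev map2 (f : A →+* B) : Polynomial (Polynomial A) →+* Polynomial (Polynomial B) :=
  Polynomial.mapRingHom (Polynomial.mapRingHom f)

theorem map2_apply (f : A →+* B) (P : Polynomial (Polynomial A)) :
    map2 f P = P.map (Polynomial.mapRingHom f) := rfl

/-- functoriality of the modular data in the coefficient ring -/
def ModData.map [Nontrivial B] (f : A →+* B) {p : ℕ} [NeZero p]
    (D : ModData A p) : ModData B p where
  Φ := D.Φ.map (Polynomial.mapRingHom f)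
  Ψ := D.Ψ.map (Polynomial.mapRingHom f)
  G := D.G.map (Polynomial.mapRingHom f)
  Φ_monic := D.Φ_monic.map _
  Φ_natDegree := by rw [D.Φ_monic.natDegree_map, D.Φ_natDegree]
  Φ_ev₁ := by
    rw [← coeffMap_jAd f, ← coeffMap_jA f, ← coeffMap_ev2, D.Φ_ev₁, map_zero]
  Φ_ev₂ := by
    rw [← coeffMap_jAd f, ← coeffMap_jA f, ← coeffMap_ev2, D.Φ_ev₂, map_zero]
  Ψ_monic := D.Ψ_monic.map _
  Ψ_natDegree := by rw [D.Ψ_monic.natDegree_map, D.Ψ_natDegree]
  Ψ_ev₁ := by
    rw [← coeffMap_uA f, ← coeffMap_jA f, ← coeffMap_C_natCast_pow f, ← map_mul, ← coeffMap_ev2,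
      D.Ψ_ev₁, map_zero]
  Ψ_ev₂ := by
    rw [← coeffMap_uAinv f, ← coeffMap_jAd f, ← coeffMap_ev2, D.Ψ_ev₂, map_zero]
  G_natDegree := (Polynomial.natDegree_map_le).trans D.G_natDegree
  G_ev₁ := by
    rw [← coeffMap_uA f, ← coeffMap_jA f, ← coeffMap_jAd f, ← coeffMap_C_natCast_pow f,
      Polynomial.derivative_map, ← coeffMap_ev2, ← coeffMap_ev2, ← map_mul, ← map_mul, D.G_ev₁]
  G_ev₂ := by
    rw [← coeffMap_uAinv f, ← coeffMap_jA f, ← coeffMap_jAd f,
      Polynomial.derivative_map, ← coeffMap_ev2, ← coeffMap_ev2, ← map_mul, D.G_ev₂]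

end map

section addmap

variable {M N : Type*} [Semiring M] [Semiring N]

/-- apply an additive map to all coefficients of a polynomial -/
def polyAdd (g : M →+ N) : Polynomial M →+ Polynomial N where
  toFun P := P.sum fun n a => Polynomial.monomial n (g a)
  map_zero' := by simp
  map_add' P Q := Polynomial.sum_add_index P Q _ (by simp) (by simp)

theorem polyAdd_apply (g : M →+ N) (P : Polynomial M) :
    polyAdd g P = P.sum fun n a => Polynomial.monomial n (g a) := rfl

@[simp] theorem polyAdd_monomial (g : M →+ N) (n : ℕ) (a : M) :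
    polyAdd g (Polynomial.monomial n a) = Polynomial.monomial n (g a) := by
  rw [polyAdd_apply, Polynomial.sum_monomial_index _ _ (by simp)]

@[simp] theorem coeff_polyAdd (g : M →+ N) (P : Polynomial M) (k : ℕ) :
    (polyAdd g P).coeff k = g (P.coeff k) := by
  induction P using Polynomial.induction_on' with
  | add P Q hP hQ => rw [map_add, Polynomial.coeff_add, hP, hQ, Polynomial.coeff_add, map_add]
  | monomial n a =>
    rw [polyAdd_monomial, Polynomial.coeff_monomial, Polynomial.coeff_monomial]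
    split_ifs <;> simp

theorem natDegree_polyAdd_le (g : M →+ N) (P : Polynomial M) :
    (polyAdd g P).natDegree ≤ P.natDegree := by
  rw [Polynomial.natDegree_le_iff_coeff_eq_zero]
  intro k hk
  rw [coeff_polyAdd, Polynomial.coeff_eq_zero_of_natDegree_lt hk, map_zero]

theorem polyAdd_C (g : M →+ N) (a : M) : polyAdd g (Polynomial.C a) = Polynomial.C (g a) := by
  rw [← Polynomial.monomial_zero_left, polyAdd_monomial, Polynomial.monomial_zero_left]

theorem polyAdd_derivative (g : M →+ N) (P : Polynomial M) :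
    polyAdd g (Polynomial.derivative P) = Polynomial.derivative (polyAdd g P) := by
  ext k
  rw [coeff_polyAdd, Polynomial.coeff_derivative, Polynomial.coeff_derivative, coeff_polyAdd]
  have h1 : P.coeff (k + 1) * ((k : M) + 1) = (k + 1) • P.coeff (k + 1) := by
    rw [nsmul_eq_mul']; push_cast; rfl
  have h2 : g (P.coeff (k + 1)) * ((k : N) + 1) = (k + 1) • g (P.coeff (k + 1)) := by
    rw [nsmul_eq_mul']; push_cast; rfl
  rw [h1, h2, map_nsmul]

end addmap

section retraction

variable {k K : Type*} [CommRing k] [CommRing K]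

/-- apply an additive map to all coefficients of a Laurent series -/
def laurAdd (π : K →+ k) : LaurentSeries K →+ LaurentSeries k where
  toFun z := z.map π
  map_zero' := by ext n; simp
  map_add' x y := by ext n; simp

@[simp] theorem coeff_laurAdd (π : K →+ k) (z : LaurentSeries K) (n : ℤ) :
    (laurAdd π z).coeff n = π (z.coeff n) := rfl

theorem laurAdd_C (π : K →+ k) (a : K) : laurAdd π (HahnSeries.C a) = HahnSeries.C (π a) := by
  ext n
  rw [coeff_laurAdd, HahnSeries.C_apply, HahnSeries.C_apply, HahnSeries.coeff_single,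
    HahnSeries.coeff_single]
  split_ifs <;> simp

variable (f : k →+* K) (π : K →+ k) (hπ : ∀ a z, π (f a * z) = a * π z)

include hπ in
theorem laurAdd_mul (w : LaurentSeries k) (z : LaurentSeries K) :
    laurAdd π (coeffMap f w * z) = w * laurAdd π z := by
  ext n
  have h1 : (coeffMap f w).support ⊆ w.support := fun m hm => by
    simp only [HahnSeries.mem_support, coeffMap_coeff, ne_eq] at hm ⊢
    exact fun h => hm (by rw [h, map_zero])
  have h2 : (laurAdd π z).support ⊆ z.support := fun m hm => by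
    simp only [HahnSeries.mem_support, coeff_laurAdd, ne_eq] at hm ⊢
    exact fun h => hm (by rw [h, map_zero])
  rw [coeff_laurAdd, HahnSeries.coeff_mul_left' w.isPWO_support h1,
    HahnSeries.coeff_mul_right' z.isPWO_support h2, map_sum]
  exact Finset.sum_congr rfl fun ij _ => by rw [coeffMap_coeff, hπ, coeff_laurAdd]

include hπ in
theorem laurAdd_evY_mul (y m : LaurentSeries k) (Q : Polynomial K) :
    laurAdd π (evY K (coeffMap f y) Q * coeffMap f m) = evY k y (polyAdd π Q) * m := by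
  induction Q using Polynomial.induction_on' with
  | add P Q hP hQ => rw [map_add, add_mul, map_add, hP, hQ, map_add, map_add, add_mul]
  | monomial n a =>
    have e1 : evY K (coeffMap f y) (Polynomial.monomial n a) * coeffMap f m =
        coeffMap f (y ^ n * m) * HahnSeries.C a := by
      rw [← Polynomial.C_mul_X_pow_eq_monomial, map_mul, map_pow, evY_C, evY_X, map_mul, map_pow]
      ring
    have e2 : evY k y (Polynomial.monomial n (π a)) = HahnSeries.C (π a) * y ^ n := by
      rw [← Polynomial.C_mul_X_pow_eq_monomial, map_mul, map_pow, evY_C, evY_X]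
    rw [polyAdd_monomial, e1, e2, laurAdd_mul f π hπ, laurAdd_C]
    ring

include hπ in
theorem laurAdd_ev2_mul (x y m : LaurentSeries k) (P : Polynomial (Polynomial K)) :
    laurAdd π (ev2 P (coeffMap f x) (coeffMap f y) * coeffMap f m) =
      ev2 (polyAdd (polyAdd π) P) x y * m := by
  induction P using Polynomial.induction_on' with
  | add P Q hP hQ =>
    simp only [ev2] at hP hQ ⊢
    rw [Polynomial.eval₂_add, add_mul, map_add, hP, hQ, map_add, Polynomial.eval₂_add, add_mul]
  | monomial n a =>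
    simp only [ev2]
    rw [polyAdd_monomial, Polynomial.eval₂_monomial, Polynomial.eval₂_monomial, ← map_pow,
      mul_assoc, ← map_mul, laurAdd_evY_mul f π hπ, mul_assoc]

include hπ in
theorem laurAdd_ev2 (x y : LaurentSeries k) (P : Polynomial (Polynomial K)) :
    laurAdd π (ev2 P (coeffMap f x) (coeffMap f y)) = ev2 (polyAdd (polyAdd π) P) x y := by
  have := laurAdd_ev2_mul f π hπ x y 1 P
  rwa [map_one, mul_one, mul_one] at this

theorem polyAdd_one {π : K →+ k} (h1 : π 1 = 1) : polyAdd π (1 : Polynomial K) = 1 := by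
  rw [← Polynomial.C_1, polyAdd_C, h1, Polynomial.C_1]

theorem monic_polyAdd2 {π : K →+ k} (h1 : π 1 = 1) {P : Polynomial (Polynomial K)}
    (hP : P.Monic) : (polyAdd (polyAdd π) P).Monic :=
  Polynomial.monic_of_natDegree_le_of_coeff_eq_one P.natDegree (natDegree_polyAdd_le _ _)
    (by rw [coeff_polyAdd, hP.coeff_natDegree, polyAdd_one h1])

theorem natDegree_polyAdd2 [Nontrivial k] {π : K →+ k} (h1 : π 1 = 1)
    {P : Polynomial (Polynomial K)} (hP : P.Monic) :
    (polyAdd (polyAdd π) P).natDegree = P.natDegree :=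
  Polynomial.natDegree_eq_of_le_of_coeff_ne_zero (natDegree_polyAdd_le _ _)
    (by rw [coeff_polyAdd, hP.coeff_natDegree, polyAdd_one h1]; exact one_ne_zero)

/-- descent of the modular data along a linear retraction -/
def ModData.retract [Nontrivial k] (h1 : π 1 = 1) {p : ℕ} [NeZero p] (D : ModData K p) :
    ModData k p where
  Φ := polyAdd (polyAdd π) D.Φ
  Ψ := polyAdd (polyAdd π) D.Ψ
  G := polyAdd (polyAdd π) D.G
  Φ_monic := monic_polyAdd2 h1 D.Φ_monic
  Φ_natDegree := by rw [natDegree_polyAdd2 h1 D.Φ_monic, D.Φ_natDegree]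
  Φ_ev₁ := by
    rw [← laurAdd_ev2 f π hπ, coeffMap_jAd, coeffMap_jA, D.Φ_ev₁, map_zero]
  Φ_ev₂ := by
    rw [← laurAdd_ev2 f π hπ, coeffMap_jAd, coeffMap_jA, D.Φ_ev₂, map_zero]
  Ψ_monic := monic_polyAdd2 h1 D.Ψ_monic
  Ψ_natDegree := by rw [natDegree_polyAdd2 h1 D.Ψ_monic, D.Ψ_natDegree]
  Ψ_ev₁ := by
    rw [← laurAdd_ev2 f π hπ, map_mul, coeffMap_uA, coeffMap_jA, coeffMap_C_natCast_pow, D.Ψ_ev₁,
      map_zero]
  Ψ_ev₂ := by
    rw [← laurAdd_ev2 f π hπ, coeffMap_uAinv, coeffMap_jAd, D.Ψ_ev₂, map_zero]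
  G_natDegree := (natDegree_polyAdd_le _ _).trans D.G_natDegree
  G_ev₁ := by
    rw [← laurAdd_ev2 f π hπ, coeffMap_jAd, coeffMap_jA, D.G_ev₁, ← polyAdd_derivative,
      mul_comm _ (ev2 _ _ _), mul_comm _ (ev2 _ _ _), ← laurAdd_ev2_mul f π hπ,
      map_mul (coeffMap f), coeffMap_uA, coeffMap_jA, coeffMap_jAd, coeffMap_C_natCast_pow]
  G_ev₂ := by
    rw [← laurAdd_ev2 f π hπ, coeffMap_jAd, coeffMap_jA, D.G_ev₂, ← polyAdd_derivative,
      mul_comm _ (ev2 _ _ _), mul_comm _ (ev2 _ _ _), ← laurAdd_ev2_mul f π hπ, coeffMap_uAinv,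
      coeffMap_jA, coeffMap_jAd]

end retraction

/-- apply a `ℚ`-linear retraction `ℂ → ℚ` to all coefficients: every condition in `ModData` is
`ℚ`-linear in the coefficients of `(Φ, Ψ, G)`, because all the series involved are rational. -/
theorem nonempty_modData_rat {p : ℕ} [NeZero p] (h : Nonempty (ModData ℂ p)) :
    Nonempty (ModData ℚ p) := by
  obtain ⟨D⟩ := h
  obtain ⟨π, hπ⟩ := LinearMap.exists_leftInverse_of_injective (Algebra.linearMap ℚ ℂ)
    (LinearMap.ker_eq_bot.2 (algebraMap ℚ ℂ).injective)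
  have h1 : π 1 = 1 := by
    have := LinearMap.congr_fun hπ 1
    simpa using this
  refine ⟨ModData.retract (algebraMap ℚ ℂ) π.toAddMonoidHom ?_ h1 D⟩
  intro a z
  show π (algebraMap ℚ ℂ a * z) = a * π z
  rw [← Algebra.smul_def, map_smul, smul_eq_mul]

section redsetup

/-- an abstract "integral model + reduction" situation: `ι : O → F` injective, every element of `F`
becomes integral after multiplication by a power of `ϖ`, `red : O → k` has kernel `(ϖ)`. -/
structure RedSetup {O F k : Type*} [CommRing O] [CommRing F] [CommRing k]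
    (ι : O →+* F) (red : O →+* k) (ϖ : O) : Prop where
  inj : Function.Injective ι
  scale : ∀ c : F, ∃ n : ℕ, ι ϖ ^ n * c ∈ ι.range
  ker : ∀ x : O, red x = 0 → ϖ ∣ x
  red_unif : red ϖ = 0
  reg : ∀ c : F, ι ϖ * c = 0 → c = 0

variable {O F k : Type*} [CommRing O] [CommRing F] [CommRing k]
  {ι : O →+* F} {red : O →+* k} {ϖ : O}

theorem RedSetup.poly (h : RedSetup ι red ϖ) :
    RedSetup (Polynomial.mapRingHom ι) (Polynomial.mapRingHom red) (Polynomial.C ϖ) where
  inj := Polynomial.map_injective ι h.inj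
  scale c := by
    induction c using Polynomial.induction_on' with
    | add P Q hP hQ =>
      obtain ⟨n, hn⟩ := hP
      obtain ⟨m, hm⟩ := hQ
      refine ⟨n + m, ?_⟩
      have e : (Polynomial.mapRingHom ι) (Polynomial.C ϖ) ^ (n + m) * (P + Q) =
          (Polynomial.mapRingHom ι) (Polynomial.C ϖ ^ m) *
            ((Polynomial.mapRingHom ι) (Polynomial.C ϖ) ^ n * P) +
          (Polynomial.mapRingHom ι) (Polynomial.C ϖ ^ n) *
            ((Polynomial.mapRingHom ι) (Polynomial.C ϖ) ^ m * Q) := by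
        rw [map_pow, map_pow]; ring
      rw [e]
      exact add_mem (mul_mem ⟨_, rfl⟩ hn) (mul_mem ⟨_, rfl⟩ hm)
    | monomial n a =>
      obtain ⟨m, x, hx⟩ := h.scale a
      refine ⟨m, Polynomial.monomial n x, ?_⟩
      rw [Polynomial.coe_mapRingHom, Polynomial.map_monomial, hx, Polynomial.map_C,
        ← Polynomial.C_pow, Polynomial.C_mul_monomial]
  ker x hx := by
    rw [Polynomial.C_dvd_iff_dvd_coeff]
    intro i
    apply h.ker
    have := congrArg (fun P => Polynomial.coeff P i) hx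
    simpa using this
  red_unif := by
    rw [Polynomial.coe_mapRingHom, Polynomial.map_C, h.red_unif, map_zero]
  reg c hc := by
    ext i
    apply h.reg
    have := congrArg (fun P => Polynomial.coeff P i) hc
    simpa using this

theorem RedSetup.dichotomy (h : RedSetup ι red ϖ) (c : F) :
    c ∈ ι.range ∨ ∃ (a : ℕ) (x : O), ι x = ι ϖ ^ (a + 1) * c ∧ red x ≠ 0 := by
  classical
  rcases Nat.eq_zero_or_pos (Nat.find (h.scale c)) with h0 | hpos
  · left
    have := Nat.find_spec (h.scale c)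
    rwa [h0, pow_zero, one_mul] at this
  · right
    obtain ⟨a, ha⟩ := Nat.exists_eq_succ_of_ne_zero hpos.ne'
    obtain ⟨x, hx⟩ := Nat.find_spec (h.scale c)
    rw [ha] at hx
    refine ⟨a, x, hx, ?_⟩
    intro hred
    obtain ⟨y, rfl⟩ := h.ker x hred
    apply Nat.find_min (h.scale c) (m := a) (by omega)
    refine ⟨y, ?_⟩
    have : ι ϖ * (ι y - ι ϖ ^ a * c) = 0 := by
      rw [mul_sub, ← map_mul, hx, Nat.succ_eq_add_one]; ring
    exact sub_eq_zero.1 (h.reg _ this)

end redsetup

section rootcount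

variable {K : Type*} [Field K] {p : ℕ} [NeZero p]

theorem uAinv_ne_zero : uAinv K p ≠ 0 := fun h => by
  have := uA_mul_uAinv (A := K) p
  rw [h, mul_zero] at this
  exact zero_ne_one this

theorem order_uAinv : (uAinv K p).order = 1 - (p : ℤ) := by
  have h := congrArg HahnSeries.order (uA_mul_uAinv (A := K) p)
  rw [HahnSeries.order_mul (uA_ne_zero p) uAinv_ne_zero, order_uA, HahnSeries.order_one] at h
  omega

/-- A polynomial `P(X, Y)` of `X`-degree `≤ p` vanishing at `(x₁(q), j(q))` and `(x₂(q), j(q^p))`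
is zero, as soon as the `p + 1` series `x₁(t^p)`, `x₂(c t)` (`c^p = 1`) are pairwise distinct. -/
theorem eq_zero_of_two_ev [IsAlgClosed K] (hpK : (p : K) ≠ 0)
    (x₁ x₂ : LaurentSeries K)
    (hne : ∀ c : Kˣ, sub c 1 x₂ ≠ sub 1 (1 * p) x₁)
    (hinj : ∀ c c' : Kˣ, c ^ p = 1 → c' ^ p = 1 → sub c 1 x₂ = sub c' 1 x₂ → c = c')
    (P : Polynomial (Polynomial K)) (hdeg : P.natDegree ≤ p)
    (h1 : ev2 P x₁ (jA K) = 0) (h2 : ev2 P x₂ (jAd K p) = 0) : P = 0 := by
  classical
  obtain ⟨T, hTcard, hT⟩ := exists_finset_pthRoots (p := p) hpK 1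
  set F := specialize P (J 1 (1 * p)) with hFdef
  set S : Finset (LaurentSeries K) := insert (sub 1 (1 * p) x₁) (T.image fun c' => sub c' 1 x₂)
    with hSdef
  have hSroot : ∀ a ∈ S, F.eval a = 0 := by
    intro a ha
    rw [hSdef, Finset.mem_insert, Finset.mem_image] at ha
    rcases ha with rfl | ⟨c', hc', rfl⟩
    · rw [hFdef, eval_specialize]
      have h := congrArg (sub (1 : Kˣ) (1 * p)) h1
      rw [sub_ev2, map_zero] at h
      exact h
    · rw [hFdef, eval_specialize]
      have h := congrArg (sub c' 1) h2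
      rw [sub_ev2, map_zero, ← J_one, sub_J, one_mul, (hT c').1 hc'] at h
      exact h
  have hScard : F.natDegree < S.card := by
    rw [hSdef, Finset.card_insert_of_notMem, Finset.card_image_of_injOn, hTcard]
    · exact Nat.lt_succ_of_le ((Polynomial.natDegree_map_le).trans hdeg)
    · intro a ha b hb hab
      exact hinj a b ((hT a).1 ha) ((hT b).1 hb) hab
    · rw [Finset.mem_image]
      rintro ⟨c', _, hc'⟩
      exact hne c' hc'
  have hF0 := Polynomial.eq_zero_of_natDegree_lt_card_of_eval_eq_zero' F S hSroot hScard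
  rw [hFdef, specialize] at hF0
  exact (Polynomial.map_eq_zero_iff (evY_J_injective _ _)).1 hF0

theorem eq_zero_of_ev_j [IsAlgClosed K] (hp : p.Prime) (hpK : (p : K) ≠ 0)
    (P : Polynomial (Polynomial K)) (hdeg : P.natDegree ≤ p)
    (h1 : ev2 P (jAd K p) (jA K) = 0) (h2 : ev2 P (jA K) (jAd K p) = 0) : P = 0 := by
  refine eq_zero_of_two_ev hpK _ _ ?_ ?_ P hdeg h1 h2
  · intro c h
    have h' := congrArg HahnSeries.order h
    rw [order_sub _ _ _ jA_ne_zero, order_sub _ _ _ ((map_ne_zero_iff _ (qExpand_injective p)).2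
      jA_ne_zero), order_qExpand _ _ jA_ne_zero, order_jA] at h'
    have hp2 : (2 : ℤ) ≤ p := by exact_mod_cast hp.two_le
    push_cast at h'
    nlinarith
  · intro c c' _ _ h
    exact (J_injective h).1

theorem eq_zero_of_ev_u [IsAlgClosed K] (hp : p.Prime) (hpK : (p : K) ≠ 0)
    (P : Polynomial (Polynomial K)) (hdeg : P.natDegree ≤ p)
    (h1 : ev2 P (HahnSeries.C ((p : K) ^ 12) * uA K p) (jA K) = 0)
    (h2 : ev2 P (uAinv K p) (jAd K p) = 0) : P = 0 := by
  have hp2 : (2 : ℤ) ≤ p := by exact_mod_cast hp.two_le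
  have hC : (HahnSeries.C ((p : K) ^ 12) : LaurentSeries K) ≠ 0 :=
    HahnSeries.C_ne_zero (pow_ne_zero _ hpK)
  refine eq_zero_of_two_ev hpK _ _ ?_ ?_ P hdeg h1 h2
  · intro c h
    have h' := congrArg HahnSeries.order h
    rw [order_sub _ _ _ uAinv_ne_zero, order_sub _ _ _ (mul_ne_zero hC (uA_ne_zero p)),
      HahnSeries.order_mul hC (uA_ne_zero p), HahnSeries.order_C, order_uA, order_uAinv] at h'
    push_cast at h'
    nlinarith
  · intro c c' hc hc' h
    have h' := congrArg HahnSeries.leadingCoeff h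
    rw [leadingCoeff_sub _ _ _ uAinv_ne_zero, leadingCoeff_sub _ _ _ uAinv_ne_zero,
      order_uAinv] at h'
    have h'' := mul_right_cancel₀ (HahnSeries.leadingCoeff_ne_zero.2 uAinv_ne_zero) h'
    have h3 : c ^ (1 - (p : ℤ)) = c' ^ (1 - (p : ℤ)) := Units.ext h''
    rwa [zpow_sub, zpow_sub, zpow_natCast, zpow_natCast, hc, hc', zpow_one, zpow_one, inv_one,
      mul_one, mul_one] at h3

end rootcount

section ev2hom

variable {A : Type*} [CommRing A]

theorem ev2_mul (P Q : Polynomial (Polynomial A)) (x y : LaurentSeries A) :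
    ev2 (P * Q) x y = ev2 P x y * ev2 Q x y := Polynomial.eval₂_mul _ _

theorem ev2_pow (P : Polynomial (Polynomial A)) (n : ℕ) (x y : LaurentSeries A) :
    ev2 (P ^ n) x y = ev2 P x y ^ n := Polynomial.eval₂_pow _ _ _

theorem ev2_C_C (a : A) (x y : LaurentSeries A) :
    ev2 (Polynomial.C (Polynomial.C a)) x y = HahnSeries.C a := by
  rw [ev2, Polynomial.eval₂_C, evY_C]

theorem coeffMap_injective {B : Type*} [CommRing B] {f : A →+* B} (hf : Function.Injective f) :
    Function.Injective (coeffMap f) := by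
  intro x y h
  ext n
  apply hf
  rw [← coeffMap_coeff, ← coeffMap_coeff, h]

end ev2hom

section integrality

variable {O F k : Type*} [CommRing O] [CommRing F] [CommRing k]
  {ι : O →+* F} {red : O →+* k} {ϖ : O}

theorem RedSetup.mem_range_of_roots (h : RedSetup ι red ϖ)
    (P : Polynomial (Polynomial F)) (n : ℕ)
    (htop : ∀ i, n < i → P.coeff i ∈ (Polynomial.mapRingHom ι).range)
    (x₁ y₁ x₂ y₂ w₁ w₂ : LaurentSeries O)
    (h1 : ev2 P (coeffMap ι x₁) (coeffMap ι y₁) = coeffMap ι w₁)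
    (h2 : ev2 P (coeffMap ι x₂) (coeffMap ι y₂) = coeffMap ι w₂)
    (hzero : ∀ Q : Polynomial (Polynomial k), Q.natDegree ≤ n →
      ev2 Q (coeffMap red x₁) (coeffMap red y₁) = 0 →
      ev2 Q (coeffMap red x₂) (coeffMap red y₂) = 0 → Q = 0) :
    P ∈ (map2 ι).range := by
  rcases h.poly.poly.dichotomy P with hP | ⟨a, P₁, hP₁, hne⟩
  · exact hP
  · exfalso
    apply hne
    have key : ∀ x y w : LaurentSeries O, ev2 P (coeffMap ι x) (coeffMap ι y) = coeffMap ι w →
        ev2 (Polynomial.mapRingHom (Polynomial.mapRingHom red) P₁)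
          (coeffMap red x) (coeffMap red y) = 0 := by
      intro x y w hw
      have e1 : coeffMap ι (ev2 P₁ x y) = coeffMap ι (HahnSeries.C ϖ ^ (a + 1) * w) := by
        rw [coeffMap_ev2, ← Polynomial.coe_mapRingHom, hP₁, ev2_mul, ev2_pow, hw,
          Polynomial.coe_mapRingHom, Polynomial.map_C, Polynomial.coe_mapRingHom,
          Polynomial.map_C, ev2_C_C, map_mul, map_pow, coeffMap_C]
      have e2 := coeffMap_injective h.inj e1
      rw [Polynomial.coe_mapRingHom, ← coeffMap_ev2, e2, map_mul, map_pow, coeffMap_C, h.red_unif,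
        map_zero, zero_pow (Nat.succ_ne_zero a), zero_mul]
    refine hzero _ ?_ (key _ _ _ h1) (key _ _ _ h2)
    rw [Polynomial.natDegree_le_iff_coeff_eq_zero]
    intro i hi
    obtain ⟨z, hz⟩ := htop i hi
    have e1 : Polynomial.mapRingHom ι (P₁.coeff i) =
        Polynomial.mapRingHom ι (Polynomial.C ϖ ^ (a + 1) * z) := by
      have := congrArg (fun Q => Polynomial.coeff Q i) hP₁
      simp only [Polynomial.coe_mapRingHom, Polynomial.coeff_map, Polynomial.map_C] at this
      rw [← Polynomial.C_pow, Polynomial.coeff_C_mul, ← hz] at this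
      rw [Polynomial.coe_mapRingHom, this, Polynomial.coe_mapRingHom, Polynomial.map_mul,
        Polynomial.map_pow, Polynomial.map_C]
    have e2 := h.poly.inj e1
    rw [Polynomial.coe_mapRingHom, Polynomial.coeff_map, e2, map_mul, map_pow, h.poly.red_unif,
      zero_pow (Nat.succ_ne_zero a), zero_mul]

end integrality

section descend

variable {O F : Type*} [CommRing O] [CommRing F]

/-- descent of the modular data along an injective ring hom, when the three polynomials have
coefficients in the subring -/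
def ModData.descend (ι : O →+* F) (hι : Function.Injective ι) {p : ℕ} [NeZero p]
    (D : ModData F p) (Φ Ψ G : Polynomial (Polynomial O))
    (hΦ : Φ.map (Polynomial.mapRingHom ι) = D.Φ) (hΨ : Ψ.map (Polynomial.mapRingHom ι) = D.Ψ)
    (hG : G.map (Polynomial.mapRingHom ι) = D.G) : ModData O p where
  Φ := Φ
  Ψ := Ψ
  G := G
  Φ_monic := Polynomial.monic_of_injective (Polynomial.map_injective ι hι) (hΦ ▸ D.Φ_monic)
  Φ_natDegree := by
    rw [← Polynomial.natDegree_map_eq_of_injective
      (f := Polynomial.mapRingHom ι) (Polynomial.map_injective ι hι), hΦ,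
      D.Φ_natDegree]
  Φ_ev₁ := coeffMap_injective hι (by
    rw [coeffMap_ev2, hΦ, coeffMap_jAd, coeffMap_jA, D.Φ_ev₁, map_zero])
  Φ_ev₂ := coeffMap_injective hι (by
    rw [coeffMap_ev2, hΦ, coeffMap_jAd, coeffMap_jA, D.Φ_ev₂, map_zero])
  Ψ_monic := Polynomial.monic_of_injective (Polynomial.map_injective ι hι) (hΨ ▸ D.Ψ_monic)
  Ψ_natDegree := by
    rw [← Polynomial.natDegree_map_eq_of_injective
      (f := Polynomial.mapRingHom ι) (Polynomial.map_injective ι hι), hΨ,
      D.Ψ_natDegree]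
  Ψ_ev₁ := coeffMap_injective hι (by
    rw [coeffMap_ev2, hΨ, map_mul, coeffMap_uA, coeffMap_jA, coeffMap_C_natCast_pow, D.Ψ_ev₁,
      map_zero])
  Ψ_ev₂ := coeffMap_injective hι (by
    rw [coeffMap_ev2, hΨ, coeffMap_uAinv, coeffMap_jAd, D.Ψ_ev₂, map_zero])
  G_natDegree := by
    rw [← Polynomial.natDegree_map_eq_of_injective
      (f := Polynomial.mapRingHom ι) (Polynomial.map_injective ι hι), hG]
    exact D.G_natDegree
  G_ev₁ := coeffMap_injective hι (by
    rw [coeffMap_ev2, hG, map_mul, map_mul, coeffMap_ev2, ← Polynomial.derivative_map, hΦ,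
      coeffMap_uA, coeffMap_jA, coeffMap_jAd, coeffMap_C_natCast_pow, D.G_ev₁])
  G_ev₂ := coeffMap_injective hι (by
    rw [coeffMap_ev2, hG, map_mul, coeffMap_ev2, ← Polynomial.derivative_map, hΦ,
      coeffMap_uAinv, coeffMap_jA, coeffMap_jAd, D.G_ev₂])

end descend

section main

variable {O F k : Type*} [CommRing O] [CommRing F] [Field k]
  {ι : O →+* F} {red : O →+* k} {ϖ : O}

theorem eq_zero_of_ev_j' {p : ℕ} [NeZero p] (hp : p.Prime) (hpk : (p : k) ≠ 0)
    (P : Polynomial (Polynomial k)) (hdeg : P.natDegree ≤ p)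
    (h1 : ev2 P (jAd k p) (jA k) = 0) (h2 : ev2 P (jA k) (jAd k p) = 0) : P = 0 := by
  have hinj : Function.Injective (algebraMap k (AlgebraicClosure k)) :=
    (algebraMap k (AlgebraicClosure k)).injective
  have hpK : (p : AlgebraicClosure k) ≠ 0 := by
    rw [← map_natCast (algebraMap k (AlgebraicClosure k))]
    exact (map_ne_zero_iff _ hinj).2 hpk
  have := eq_zero_of_ev_j hp hpK (P.map (Polynomial.mapRingHom (algebraMap k (AlgebraicClosure k))))
    ((Polynomial.natDegree_map_le).trans hdeg)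
    (by rw [← coeffMap_jAd (algebraMap k (AlgebraicClosure k)),
      ← coeffMap_jA (algebraMap k (AlgebraicClosure k)), ← coeffMap_ev2, h1, map_zero])
    (by rw [← coeffMap_jAd (algebraMap k (AlgebraicClosure k)),
      ← coeffMap_jA (algebraMap k (AlgebraicClosure k)), ← coeffMap_ev2, h2, map_zero])
  exact (Polynomial.map_eq_zero_iff (Polynomial.map_injective _ hinj)).1 this

theorem eq_zero_of_ev_u' {p : ℕ} [NeZero p] (hp : p.Prime) (hpk : (p : k) ≠ 0)
    (P : Polynomial (Polynomial k)) (hdeg : P.natDegree ≤ p)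
    (h1 : ev2 P (HahnSeries.C ((p : k) ^ 12) * uA k p) (jA k) = 0)
    (h2 : ev2 P (uAinv k p) (jAd k p) = 0) : P = 0 := by
  have hinj : Function.Injective (algebraMap k (AlgebraicClosure k)) :=
    (algebraMap k (AlgebraicClosure k)).injective
  have hpK : (p : AlgebraicClosure k) ≠ 0 := by
    rw [← map_natCast (algebraMap k (AlgebraicClosure k))]
    exact (map_ne_zero_iff _ hinj).2 hpk
  have := eq_zero_of_ev_u hp hpK (P.map (Polynomial.mapRingHom (algebraMap k (AlgebraicClosure k))))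
    ((Polynomial.natDegree_map_le).trans hdeg)
    (by rw [← coeffMap_uA (algebraMap k (AlgebraicClosure k)),
      ← coeffMap_jA (algebraMap k (AlgebraicClosure k)),
      ← coeffMap_C_natCast_pow (algebraMap k (AlgebraicClosure k)), ← map_mul, ← coeffMap_ev2, h1,
      map_zero])
    (by rw [← coeffMap_jAd (algebraMap k (AlgebraicClosure k)),
      ← coeffMap_uAinv (algebraMap k (AlgebraicClosure k)), ← coeffMap_ev2, h2, map_zero])
  exact (Polynomial.map_eq_zero_iff (Polynomial.map_injective _ hinj)).1 this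

theorem mem_range_top_of_monic (ι : O →+* F) {P : Polynomial (Polynomial F)} (hP : P.Monic) {n : ℕ}
    (hn : P.natDegree = n + 1) (i : ℕ) (hi : n < i) :
    P.coeff i ∈ (Polynomial.mapRingHom ι).range := by
  rcases Nat.lt_or_ge (n + 1) i with h | h
  · rw [Polynomial.coeff_eq_zero_of_natDegree_lt (hn ▸ h)]
    exact zero_mem _
  · have : i = P.natDegree := by omega
    rw [this, hP.coeff_natDegree]
    exact one_mem _

/-- integrality + reduction of the modular data in an abstract reduction setup -/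
theorem RedSetup.nonempty_modData (h : RedSetup ι red ϖ) {p : ℕ} [NeZero p] (hp : p.Prime)
    (hpk : (p : k) ≠ 0) (D : ModData F p) : Nonempty (ModData k p) := by
  obtain ⟨Φ, hΦ⟩ : D.Φ ∈ (map2 ι).range := by
    refine h.mem_range_of_roots D.Φ p (mem_range_top_of_monic ι D.Φ_monic D.Φ_natDegree)
      (jAd O p) (jA O) (jA O) (jAd O p) 0 0 ?_ ?_ ?_
    · rw [coeffMap_jAd, coeffMap_jA, D.Φ_ev₁, map_zero]
    · rw [coeffMap_jAd, coeffMap_jA, D.Φ_ev₂, map_zero]
    · intro Q hQ h1 h2
      rw [coeffMap_jAd, coeffMap_jA] at h1 h2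
      exact eq_zero_of_ev_j' hp hpk Q hQ h1 h2
  obtain ⟨Ψ, hΨ⟩ : D.Ψ ∈ (map2 ι).range := by
    refine h.mem_range_of_roots D.Ψ p (mem_range_top_of_monic ι D.Ψ_monic D.Ψ_natDegree)
      (HahnSeries.C ((p : O) ^ 12) * uA O p) (jA O) (uAinv O p) (jAd O p) 0 0 ?_ ?_ ?_
    · rw [map_mul, coeffMap_uA, coeffMap_jA, coeffMap_C_natCast_pow, D.Ψ_ev₁, map_zero]
    · rw [coeffMap_jAd, coeffMap_uAinv, D.Ψ_ev₂, map_zero]
    · intro Q hQ h1 h2
      rw [map_mul, coeffMap_uA, coeffMap_jA, coeffMap_C_natCast_pow] at h1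
      rw [coeffMap_jAd, coeffMap_uAinv] at h2
      exact eq_zero_of_ev_u' hp hpk Q hQ h1 h2
  obtain ⟨G, hG⟩ : D.G ∈ (map2 ι).range := by
    refine h.mem_range_of_roots D.G p
      (fun i hi => by
        rw [Polynomial.coeff_eq_zero_of_natDegree_lt (lt_of_le_of_lt D.G_natDegree hi)]
        exact zero_mem _)
      (jAd O p) (jA O) (jA O) (jAd O p)
      (HahnSeries.C ((p : O) ^ 12) * uA O p * ev2 (Polynomial.derivative Φ) (jAd O p) (jA O))
      (uAinv O p * ev2 (Polynomial.derivative Φ) (jA O) (jAd O p)) ?_ ?_ ?_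
    · rw [map_mul, map_mul, coeffMap_ev2, ← Polynomial.derivative_map, ← map2_apply, hΦ,
        coeffMap_uA, coeffMap_jA, coeffMap_jAd, coeffMap_C_natCast_pow, D.G_ev₁]
    · rw [map_mul, coeffMap_ev2, ← Polynomial.derivative_map, ← map2_apply, hΦ,
        coeffMap_uAinv, coeffMap_jA, coeffMap_jAd, D.G_ev₂]
    · intro Q hQ h1 h2
      rw [coeffMap_jAd, coeffMap_jA] at h1 h2
      exact eq_zero_of_ev_j' hp hpk Q hQ h1 h2
  exact ⟨(ModData.descend ι h.inj D Φ Ψ G hΦ hΨ hG).map red⟩

end main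

theorem redSetup_padic (ℓ : ℕ) [Fact ℓ.Prime] :
    RedSetup (PadicInt.Coe.ringHom : ℤ_[ℓ] →+* ℚ_[ℓ]) (PadicInt.toZMod) (ℓ : ℤ_[ℓ]) where
  inj := Subtype.coe_injective
  scale c := by
    have hℓ : (1 : ℝ) < ℓ := by exact_mod_cast (Fact.out : ℓ.Prime).one_lt
    obtain ⟨n, hn⟩ := pow_unbounded_of_one_lt ‖c‖ hℓ
    have hnorm : ‖(ℓ : ℚ_[ℓ]) ^ n * c‖ ≤ 1 := by
      rw [norm_mul, norm_pow, Padic.norm_p, inv_pow]
      rw [inv_mul_le_iff₀ (by positivity), mul_one]
      exact hn.le
    refine ⟨n, ⟨⟨(ℓ : ℚ_[ℓ]) ^ n * c, hnorm⟩, ?_⟩⟩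
    show (ℓ : ℚ_[ℓ]) ^ n * c = ((ℓ : ℤ_[ℓ]) : ℚ_[ℓ]) ^ n * c
    rw [PadicInt.coe_natCast]
  ker x hx := by
    have : x ∈ RingHom.ker (PadicInt.toZMod (p := ℓ)) := hx
    rw [PadicInt.ker_toZMod, PadicInt.maximalIdeal_eq_span_p, Ideal.mem_span_singleton] at this
    exact this
  red_unif := by
    rw [map_natCast, ZMod.natCast_self]
  reg c hc := by
    have hℓ : ((ℓ : ℤ_[ℓ]) : ℚ_[ℓ]) ≠ 0 := by
      simp [(Fact.out : ℓ.Prime).ne_zero]
    exact (mul_eq_zero.1 hc).resolve_left hℓ

/-- `ℓ`-integrality of `Φ, Ψ, G` for `ℓ ≠ p` by counting roots in characteristic `ℓ`, then reduce. -/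
theorem nonempty_modData_zmod {p : ℕ} [NeZero p] (hp : p.Prime) (ℓ : ℕ) [Fact ℓ.Prime] (hℓp : ℓ ≠ p)
    (h : Nonempty (ModData ℚ p)) : Nonempty (ModData (ZMod ℓ) p) := by
  obtain ⟨D⟩ := h
  refine (redSetup_padic ℓ).nonempty_modData hp ?_ (D.map (algebraMap ℚ ℚ_[ℓ]))
  intro h0
  rw [ZMod.natCast_eq_zero_iff] at h0
  exact hℓp ((Nat.prime_dvd_prime_iff_eq Fact.out hp).1 h0)

end
end Fermat.Agent.S28lib
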