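import Fermat.Agent.S28.Degree
import Fermat.Agent.S28.Descent
import Fermat.Agent.S28.Analytic

/-!
# S28 library: the two key facts used by the commutative algebra part.
-/

set_option autoImplicit false

open ModularCurve

namespace Fermat.Agent.S28lib

theorem key_char0 (N : ℕ) [NeZero N] {m : ℕ} (x : Fin m → LaurentSeries ℚ)
    (hx : ∀ i, x i ∈ modularFunctionFieldFull N) (h : JIndep ℚ x) : m ≤ dedekindPsi N := by
  refine card_le_of_JIndep (K := ℂ) N (Nat.cast_ne_zero.mpr (NeZero.ne N))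
    (fun p hp _ => by
      haveI : NeZero p := ⟨hp.ne_zero⟩
      exact nonempty_modData_complex hp) (fun i => coeffMap (algebraMap ℚ ℂ) (x i))
    (fun i => coeffMap_mem_full (algebraMap ℚ ℂ) N (hx i)) ((JIndep.map_iff _ x).mpr h)

theorem key_charL (N : ℕ) [NeZero N] (ℓ : ℕ) [Fact ℓ.Prime] (hℓN : ¬ ℓ ∣ N) :
    ∃ b : Fin (dedekindPsi N) → LaurentSeries ℤ,
      (∀ i, b i ∈ Algebra.adjoin ℤ (jSet ℤ N)) ∧
      JIndep (ZMod ℓ) (fun i => coeffMap (Int.castRingHom (ZMod ℓ)) (b i)) := by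
  have hN : (N : AlgebraicClosure (ZMod ℓ)) ≠ 0 := by
    intro h
    rw [CharP.cast_eq_zero_iff (AlgebraicClosure (ZMod ℓ)) ℓ] at h
    exact hℓN h
  obtain ⟨b, hb, hind⟩ := exists_JIndep (K := AlgebraicClosure (ZMod ℓ)) N hN (fun p hp hpN => by
    haveI : NeZero p := ⟨hp.ne_zero⟩
    obtain ⟨D⟩ := nonempty_modData_zmod hp ℓ (fun h => hℓN (h ▸ hpN))
      (nonempty_modData_rat (nonempty_modData_complex hp))
    exact ⟨D.map (algebraMap (ZMod ℓ) (AlgebraicClosure (ZMod ℓ)))⟩)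
  refine ⟨b, hb, (JIndep.map_iff (algebraMap (ZMod ℓ) (AlgebraicClosure (ZMod ℓ))) _).mp ?_⟩
  convert hind using 2 with i
  rw [coeffMap_coeffMap]
  exact coeffMap_congr (RingHom.ext_int _ _) _

end Fermat.Agent.S28lib
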