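import Fermat.Agent.S28.Subst

/-!
# S28 library, task D1: `j(q^p) ∉ K(j(q))` (the modular unit argument)
-/

set_option autoImplicit false

open ModularCurve Polynomial

namespace Fermat.Agent.S28lib

noncomputable section

/-- An element of a field `L` which is a fraction of elements of the image of an injective ring
homomorphism `φ : R → L` from an integrally closed domain, and which is a root of a monic
polynomial with coefficients in the image, lies in the image. -/
theorem exists_eq_of_integral_of_fraction {R L : Type*} [CommRing R] [IsDomain R]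
    [IsIntegrallyClosed R] [Field L] (φ : R →+* L) (hφ : Function.Injective φ)
    (x : L) (a b : R) (hb : b ≠ 0) (hx : φ b * x = φ a)
    (M : R[X]) (hM : M.Monic) (hroot : M.eval₂ φ x = 0) : ∃ c : R, x = φ c := by
  let Fr := FractionRing R
  let ι : Fr →+* L := IsFractionRing.lift hφ
  have hι : ∀ r : R, ι (algebraMap R Fr r) = φ r := fun r => IsFractionRing.lift_algebraMap hφ r
  have hb' : algebraMap R Fr b ≠ 0 := by
    simpa using (map_ne_zero_iff (algebraMap R Fr) (IsFractionRing.injective R Fr)).mpr hb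
  have hφb : φ b ≠ 0 := (map_ne_zero_iff φ hφ).mpr hb
  set r : Fr := algebraMap R Fr a / algebraMap R Fr b with hr
  have hιr : ι r = x := by
    rw [hr, map_div₀, hι, hι, ← hx, mul_div_cancel_left₀ _ hφb]
  have hint : IsIntegral R r := by
    refine ⟨M, hM, ?_⟩
    apply ι.injective
    rw [map_zero, Polynomial.hom_eval₂, hιr]
    have : ι.comp (algebraMap R Fr) = φ := RingHom.ext hι
    rw [this, hroot]
  obtain ⟨c, hc⟩ := IsIntegrallyClosed.isIntegral_iff.mp hint
  exact ⟨c, by rw [← hιr, ← hc, hι]⟩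

variable {K : Type*} [Field K]

theorem J_congr {c c' : Kˣ} {e e' : ℕ} [NeZero e] [NeZero e'] (hc : c = c') (he : e = e') :
    J c e = J c' e' := by
  subst hc; subst he; rfl

theorem ev2_evY (P : Polynomial (Polynomial K)) (R : Polynomial K) (y : LaurentSeries K) :
    ev2 P (evY K y R) y = evY K y (P.eval R) := by
  unfold ev2
  rw [Polynomial.eval, Polynomial.hom_eval₂, RingHom.comp_id]

/-- a monic polynomial of degree `n + 1` with `n + 1` distinct roots has only simple roots. -/
theorem derivative_eval_ne_zero_of_card_roots {L : Type*} [Field L] (S : L[X]) (hS : S.Monic)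
    (Z : Finset L) (hZ : ∀ z ∈ Z, S.eval z = 0) (r₀ : L) (hr₀ : S.eval r₀ = 0) (hr₀Z : r₀ ∉ Z)
    (hcard : S.natDegree ≤ Z.card + 1) : (derivative S).eval r₀ ≠ 0 := by
  intro hder
  have hS0 : S ≠ 0 := hS.ne_zero
  have hmult : 1 < S.rootMultiplicity r₀ :=
    (Polynomial.one_lt_rootMultiplicity_iff_isRoot hS0).mpr ⟨hr₀, hder⟩
  have hdvd : (X - C r₀) ^ 2 ∣ S := (Polynomial.le_rootMultiplicity_iff hS0).mp hmult
  obtain ⟨T, hT⟩ := hdvd
  have hT0 : T ≠ 0 := by
    rintro rfl
    exact hS0 (by rw [hT, mul_zero])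
  have hdeg : S.natDegree = 2 + T.natDegree := by
    rw [hT, Polynomial.natDegree_mul (pow_ne_zero _ (X_sub_C_ne_zero r₀)) hT0,
      Polynomial.natDegree_pow, natDegree_X_sub_C]
  have hsub : Z.val ⊆ T.roots := by
    intro z hz
    have hz' : z ∈ Z := hz
    rw [Polynomial.mem_roots hT0, Polynomial.IsRoot.def]
    have h1 := hZ z hz'
    rw [hT, eval_mul, eval_pow, eval_sub, eval_X, eval_C] at h1
    have hne : z - r₀ ≠ 0 := sub_ne_zero.mpr (fun h => hr₀Z (h ▸ hz'))
    exact (mul_eq_zero.mp h1).resolve_left (pow_ne_zero _ hne)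
  have := Polynomial.card_le_degree_of_subset_roots hsub
  omega

variable [IsAlgClosed K]

/-- `j(q^p)` is a simple root of `Φ(X, j(q))`. -/
theorem ev2_derivative_Phi_ne_zero {p : ℕ} [NeZero p] (hp : p.Prime) (hpK : (p : K) ≠ 0)
    (D : ModData K p) : ev2 (derivative D.Φ) (jAd K p) (jA K) ≠ 0 := by
  classical
  have : NeZero (p * p) := ⟨mul_ne_zero hp.ne_zero hp.ne_zero⟩
  have : NeZero (1 * p) := ⟨by simpa using hp.ne_zero⟩
  have : NeZero ((p : K)) := ⟨hpK⟩
  intro h0
  -- substitute `q ↦ t^p`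
  have h1 : ev2 (derivative D.Φ) (J (1 : Kˣ) (p * p)) (J (1 : Kˣ) p) = 0 := by
    have := congrArg (sub (1 : Kˣ) p) h0
    rw [sub_ev2, map_zero, ← J_one, sub_J] at this
    have e1 : J ((1 : Kˣ) * 1 ^ p) (p * p) = J (1 : Kˣ) (p * p) := J_congr (by simp) rfl
    rw [e1] at this
    exact this
  set S : Polynomial (LaurentSeries K) := specialize D.Φ (J (1 : Kˣ) p) with hS
  have hSmonic : S.Monic := D.Φ_monic.map _
  have hSdeg : S.natDegree = p + 1 := by
    rw [hS, specialize, D.Φ_monic.natDegree_map, D.Φ_natDegree]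
  have hder : derivative S = specialize (derivative D.Φ) (J (1 : Kˣ) p) := by
    rw [hS, specialize, specialize, Polynomial.derivative_map]
  obtain ⟨ζ, hζ⟩ := HasEnoughRootsOfUnity.exists_primitiveRoot K p
  obtain ⟨u, hu⟩ := hζ.isUnit hp.ne_zero
  have hup : u ^ p = 1 := by
    apply Units.ext
    rw [Units.val_pow_eq_pow_val, hu, hζ.pow_eq_one, Units.val_one]
  have huinj : ∀ i < p, ∀ k < p, u ^ i = u ^ k → i = k := by
    intro i hi k hk hik
    apply hζ.pow_inj hi hk
    have := congrArg Units.val hik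
    rwa [Units.val_pow_eq_pow_val, Units.val_pow_eq_pow_val, hu] at this
  let Z : Finset (LaurentSeries K) := (Finset.range p).image (fun i => J (u ^ i) 1)
  have hZcard : Z.card = p := by
    rw [Finset.card_image_of_injOn, Finset.card_range]
    intro i hi k hk hik
    exact huinj i (Finset.mem_range.mp hi) k (Finset.mem_range.mp hk) (J_injective hik).1
  have hZroot : ∀ z ∈ Z, S.eval z = 0 := by
    intro z hz
    obtain ⟨i, -, rfl⟩ := Finset.mem_image.mp hz
    rw [hS, eval_specialize]
    have := Phi_root_down D (u ^ i) 1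
    have e1 : J ((u ^ i) ^ p) (1 * p) = J (1 : Kˣ) p :=
      J_congr (by rw [← pow_mul, mul_comm, pow_mul, hup, one_pow]) (one_mul p)
    rwa [e1] at this
  have hr₀ : S.eval (J (1 : Kˣ) (p * p)) = 0 := by
    rw [hS, eval_specialize]
    have := Phi_root_up D (1 : Kˣ) p
    have e1 : J ((1 : Kˣ) ^ p) (p * p) = J (1 : Kˣ) (p * p) := J_congr (by simp) rfl
    rwa [e1] at this
  have hr₀Z : J (1 : Kˣ) (p * p) ∉ Z := by
    intro hmem
    obtain ⟨i, -, hi⟩ := Finset.mem_image.mp hmem
    have := (J_injective hi).2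
    have hp1 := hp.one_lt
    nlinarith
  refine derivative_eval_ne_zero_of_card_roots S hSmonic Z hZroot _ hr₀ hr₀Z (by omega) ?_
  rw [hder, eval_specialize]
  exact h1

/-- **Task D1 (prime level, the modular unit argument).** `j(q^p) ∉ K(j(q))`. -/
theorem jp_not_mem {p : ℕ} [NeZero p] (hp : p.Prime) (hpK : (p : K) ≠ 0) (D : ModData K p)
    (P Q : Polynomial K) (hQ : Q ≠ 0) :
    evY K (jA K) Q * jAd K p ≠ evY K (jA K) P := by
  intro h
  have hinj : Function.Injective (evY K (jA K)) := evY_jA_injective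
  -- (a) `j_p = R(j)`
  obtain ⟨R, hR⟩ := exists_eq_of_integral_of_fraction (evY K (jA K)) hinj (jAd K p) P Q hQ h
    D.Φ D.Φ_monic D.Φ_ev₁
  -- (b) `x = p^12 u ∈ K(j)`
  set x : LaurentSeries K := HahnSeries.C ((p : K) ^ 12) * uA K p with hx
  have hG := D.G_ev₁
  have hder := ev2_derivative_Phi_ne_zero hp hpK D
  rw [hR, ev2_evY, ev2_evY] at hG
  rw [hR, ev2_evY] at hder
  have hB : (derivative D.Φ).eval R ≠ 0 := by
    intro h0
    exact hder (by rw [h0, map_zero])
  -- (c) `x = c(j)`
  obtain ⟨c, hc⟩ := exists_eq_of_integral_of_fraction (evY K (jA K)) hinj x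
    (D.G.eval R) ((derivative D.Φ).eval R) hB (by rw [hG, mul_comm]) D.Ψ D.Ψ_monic D.Ψ_ev₁
  have hC0 : (HahnSeries.C ((p : K) ^ 12) : LaurentSeries K) ≠ 0 := by
    exact (map_ne_zero_iff _ HahnSeries.C_injective).mpr (pow_ne_zero _ hpK)
  have hx0 : x ≠ 0 := mul_ne_zero hC0 (uA_ne_zero p)
  have hc0 : c ≠ 0 := by
    rintro rfl
    exact hx0 (by rw [hc, map_zero])
  have hord1 : x.order = (p : ℤ) - 1 := by
    rw [hx, HahnSeries.order_mul hC0 (uA_ne_zero p), HahnSeries.order_C, zero_add, order_uA]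
  have hord2 : x.order = -(c.natDegree : ℤ) := by rw [hc, order_evY_jA c hc0]
  have hp1 : (1 : ℤ) < p := by exact_mod_cast hp.one_lt
  have : (0 : ℤ) ≤ c.natDegree := Int.natCast_nonneg _
  omega

end

end Fermat.Agent.S28lib
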