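import Fermat.Agent.S28.TowerBasic
import Fermat.Agent.S28.PrimeLevel
import Fermat.Agent.S20.CombIndex

/-!
# S28 library, task D2 (part 2): the tower datum
-/

set_option autoImplicit false

open ModularCurve Polynomial

namespace Fermat.Agent.S28lib

noncomputable section

universe u

/-- a model of `K(j)` -/
abbrev k0 (K : Type u) [Field K] : Type u := FractionRing K[X]

/-- `K[Y] → E` for a `K(Y)`-algebra `E` -/
def polTo (K : Type u) [Field K] (E : Type*) [Field E] [Algebra (k0 K) E] : K[X] →+* E :=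
  (algebraMap (k0 K) E).comp (algebraMap K[X] (k0 K))

/-- `K → E` for a `K(Y)`-algebra `E` -/
def cstTo (K : Type u) [Field K] (E : Type*) [Field E] [Algebra (k0 K) E] : K →+* E :=
  (polTo K E).comp C

/-- The tower datum of level `N`: an abstract model `E` of the field `K(j(q^d) : d ∣ N` a prime
power`)`, with its `q`-expansion embedding `ι` (cusp `∞`) and the embedding `τ` at the cusp `0`
(`j(q^d) ↦ j(t^(N/d))`), and `ψ(N)` elements of `ℤ[j(q^d)]` which are independent over `K[j]`. -/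
structure Tow (K : Type u) [Field K] (N : ℕ) where
  E : Type u
  [fE : Field E]
  [aE : Algebra (k0 K) E]
  [algE : Algebra.IsAlgebraic (k0 K) E]
  ι : E →+* LaurentSeries K
  τ : E →+* LaurentSeries K
  ι_pol : ∀ P : K[X], ι (polTo K E P) = evY K (jA K) P
  τ_pol : ∀ P : K[X], τ (polTo K E P) = evY K (Jt 1 N) P
  g : ℕ → E
  ι_g : ∀ r s : ℕ, r.Prime → r ^ s ∣ N → ι (g (r ^ s)) = Jt 1 (r ^ s)
  τ_g : ∀ r s : ℕ, r.Prime → r ^ s ∣ N → τ (g (r ^ s)) = Jt 1 (N / r ^ s)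
  gen : Subfield.closure (Set.range (algebraMap (k0 K) E) ∪
    {x | ∃ r s : ℕ, r.Prime ∧ r ^ s ∣ N ∧ x = g (r ^ s)}) = ⊤
  I : Type
  [fI : Fintype I]
  card_I : Fintype.card I = dedekindPsi N
  b : I → LaurentSeries ℤ
  b_mem : ∀ i, b i ∈ Algebra.adjoin ℤ (jSet ℤ N)
  b_range : ∀ i, coeffMap (Int.castRingHom K) (b i) ∈ ι.range
  b_indep : JIndepI K (fun i => coeffMap (Int.castRingHom K) (b i))

attribute [instance] Tow.fE Tow.aE Tow.algE Tow.fI

variable {K : Type u} [Field K]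

/-! ### API (owner: helper23; do not edit this file, ask for additions) -/

theorem polTo_C (E : Type*) [Field E] [Algebra (k0 K) E] (a : K) :
    polTo K E (C a) = cstTo K E a := rfl

theorem eval₂RingHom_cstTo (E : Type*) [Field E] [Algebra (k0 K) E] :
    eval₂RingHom (cstTo K E) (polTo K E X) = polTo K E := by
  apply Polynomial.ringHom_ext
  · intro a; simp [cstTo]
  · simp

/-- `Φ(X, j)` over `E` -/
theorem spec_polTo_X (E : Type*) [Field E] [Algebra (k0 K) E] (P : K[X][X]) :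
    spec (cstTo K E) P (polTo K E X) = P.map (polTo K E) := by
  rw [spec, eval₂RingHom_cstTo]

theorem qExpand_evY (p : ℕ) [NeZero p] (y : LaurentSeries K) (P : K[X]) :
    qExpand K p (evY K y P) = evY K (qExpand K p y) P := by
  rw [← sub_one_eq_qExpand, sub_evY, sub_one_eq_qExpand]

theorem Tow.ι_comp_cstTo {N : ℕ} (T : Tow K N) : T.ι.comp (cstTo K T.E) = HahnSeries.C := by
  ext1 a
  rw [RingHom.comp_apply, ← polTo_C, T.ι_pol, evY_C]

theorem Tow.τ_comp_cstTo {N : ℕ} (T : Tow K N) : T.τ.comp (cstTo K T.E) = HahnSeries.C := by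
  ext1 a
  rw [RingHom.comp_apply, ← polTo_C, T.τ_pol, evY_C]

theorem Tow.g_one {N : ℕ} (T : Tow K N) : T.g 1 = polTo K T.E X := by
  apply T.ι.injective
  have h := T.ι_g 2 0 Nat.prime_two (by simp)
  rw [pow_zero] at h
  rw [h, T.ι_pol, evY_X, Jt_one_one]

/-- `(P(X, y))^ι = P(X, ι y)` -/
theorem Tow.spec_map_ι {N : ℕ} (T : Tow K N) (P : K[X][X]) (y : T.E) :
    (spec (cstTo K T.E) P y).map T.ι = specialize P (T.ι y) := by
  rw [spec_map, T.ι_comp_cstTo, spec_C]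

theorem Tow.spec_map_τ {N : ℕ} (T : Tow K N) (P : K[X][X]) (y : T.E) :
    (spec (cstTo K T.E) P y).map T.τ = specialize P (T.τ y) := by
  rw [spec_map, T.τ_comp_cstTo, spec_C]

theorem Phi_up_Jt {p : ℕ} [NeZero p] (D : ModData K p) (c : Kˣ) {e : ℕ} (he : e ≠ 0) :
    (specialize D.Φ (Jt c e)).eval (Jt (c ^ p) (e * p)) = 0 := by
  have : NeZero e := ⟨he⟩
  have : NeZero (e * p) := ⟨mul_ne_zero he (NeZero.ne p)⟩
  rw [Jt_eq, Jt_eq, eval_specialize, Phi_root_up]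

theorem Phi_down_Jt {p : ℕ} [NeZero p] (D : ModData K p) (c : Kˣ) {e : ℕ} (he : e ≠ 0) :
    (specialize D.Φ (Jt (c ^ p) (e * p))).eval (Jt c e) = 0 := by
  have : NeZero e := ⟨he⟩
  have : NeZero (e * p) := ⟨mul_ne_zero he (NeZero.ne p)⟩
  rw [Jt_eq, Jt_eq, eval_specialize, Phi_root_down]

theorem Phi_root_iff_Jt [IsAlgClosed K] {p : ℕ} [NeZero p] (hp : p.Prime) (hpK : (p : K) ≠ 0)
    (D : ModData K p) (c : Kˣ) {e : ℕ} (he : e ≠ 0)
    {Ω : Type*} [Field Ω] [Algebra (LaurentSeries K) Ω] (x : Ω) :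
    aeval x (specialize D.Φ (Jt c (e * p))) = 0 ↔
      x = algebraMap _ Ω (Jt (c ^ p) (e * p * p)) ∨
        ∃ c' : Kˣ, c' ^ p = c ∧ x = algebraMap _ Ω (Jt c' e) := by
  have : NeZero e := ⟨he⟩
  have : NeZero (e * p) := ⟨mul_ne_zero he (NeZero.ne p)⟩
  have : NeZero (e * p * p) := ⟨mul_ne_zero (mul_ne_zero he (NeZero.ne p)) (NeZero.ne p)⟩
  simp only [Jt_eq]
  exact Phi_root_iff hp hpK D c e x

/-- the relation `Φ_r(j(q^(r^(s+1))), j(q^(r^s))) = 0` in `E` -/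
theorem Tow.rel_up {N : ℕ} (T : Tow K N) {r : ℕ} [NeZero r] (hr : r.Prime) (D : ModData K r)
    (s : ℕ) (h : r ^ (s + 1) ∣ N) :
    (spec (cstTo K T.E) D.Φ (T.g (r ^ s))).eval (T.g (r ^ (s + 1))) = 0 := by
  apply T.ι.injective
  rw [map_zero, ← eval_map_apply, T.spec_map_ι, T.ι_g r s hr ((pow_dvd_pow r (Nat.le_succ s)).trans h),
    T.ι_g r (s + 1) hr h, pow_succ]
  have := Phi_up_Jt D (1 : Kˣ) (pow_ne_zero s hr.ne_zero)
  rwa [one_pow] at this

/-- the relation `Φ_r(j(q^(r^s)), j(q^(r^(s+1)))) = 0` in `E` -/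
theorem Tow.rel_down {N : ℕ} (T : Tow K N) {r : ℕ} [NeZero r] (hr : r.Prime) (D : ModData K r)
    (s : ℕ) (h : r ^ (s + 1) ∣ N) :
    (spec (cstTo K T.E) D.Φ (T.g (r ^ (s + 1)))).eval (T.g (r ^ s)) = 0 := by
  apply T.ι.injective
  rw [map_zero, ← eval_map_apply, T.spec_map_ι, T.ι_g r s hr ((pow_dvd_pow r (Nat.le_succ s)).trans h),
    T.ι_g r (s + 1) hr h, pow_succ]
  have := Phi_down_Jt D (1 : Kˣ) (pow_ne_zero s hr.ne_zero)
  rwa [one_pow] at this

end

end Fermat.Agent.S28lib
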