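import Fermat.Agent.S24.JDef

/-!
# S28 library, task A1: an `SL(2,ℤ)`-invariant holomorphic function on `ℍ` with at most a pole at `i∞`
is a polynomial in `j`.
-/

set_option autoImplicit false

open UpperHalfPlane ModularForm MatrixGroups Filter Topology
open scoped Manifold
open Fermat.Agent.S24lib (jfun)

namespace Fermat.Agent.S28lib

local notation "Δ" => ModularForm.discriminant

theorem disc_smul (g : SL(2, ℤ)) (τ : ℍ) : Δ (g • τ) = Δ τ * denom g τ ^ (12 : ℤ) := by
  have h12 := congrFun (S20lib.isR_disc.inv g) τ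
  rw [ModularForm.SL_slash_apply] at h12
  have hd : denom g τ ≠ 0 := denom_ne_zero g τ
  rw [← h12, mul_assoc, ← zpow_add₀ hd]; simp

theorem isR_pow {k : ℤ} {a : ℍ → ℂ} (ha : S20lib.IsR k a) (n : ℕ) :
    S20lib.IsR (k * n) (a ^ n) := by
  induction n with
  | zero => simpa using S20lib.isR_one
  | succ n ih =>
    rw [pow_succ]
    exact (ih.mul ha).congr_weight (by push_cast; ring)

/-- `Δ^m f` is a level one modular form of weight `12 m`. -/
theorem isR_disc_pow_mul (f : ℍ → ℂ) (hf : MDiff f)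
    (hinv : ∀ (g : SL(2, ℤ)) (τ : ℍ), f (g • τ) = f τ) (m : ℕ)
    (hbd : IsBoundedAtImInfty (fun τ => (Δ τ) ^ m * f τ)) :
    S20lib.IsR (12 * m) (fun τ => (Δ τ) ^ m * f τ) where
  holo := (S24lib.mdiff_disc.pow m).mul hf
  inv g := by
    funext τ
    rw [ModularForm.SL_slash_apply, hinv, disc_smul]
    have hd : denom g τ ≠ 0 := denom_ne_zero g τ
    have : (denom g τ ^ (12 : ℤ)) ^ m * denom g τ ^ (-(12 * (m : ℤ))) = 1 := by
      rw [← zpow_natCast, ← zpow_mul, ← zpow_add₀ hd]; simp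
    rw [mul_pow]
    linear_combination (Δ τ ^ m * f τ) * this
  bdd := hbd

/-- **Task A1.** -/
theorem exists_poly_of_invariant (f : ℍ → ℂ) (hf : MDiff f)
    (hinv : ∀ (g : SL(2, ℤ)) (τ : ℍ), f (g • τ) = f τ) (m : ℕ)
    (hbd : IsBoundedAtImInfty (fun τ => (Δ τ) ^ m * f τ)) :
    ∃ P : Polynomial ℂ, P.natDegree ≤ m ∧ ∀ τ, f τ = P.eval (jfun τ) := by
  induction m generalizing f with
  | zero =>
    have h := isR_disc_pow_mul f hf hinv 0 hbd
    obtain ⟨c, hc⟩ := S20lib.IsR.eq_const (h.congr_weight (by simp))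
    refine ⟨Polynomial.C c, by simp, fun τ => ?_⟩
    have := congrFun hc τ
    simpa using this
  | succ m ih =>
    have ha := isR_disc_pow_mul f hf hinv (m + 1) hbd
    obtain ⟨c, hc⟩ := ha.exists_tendsto
    have hE : S20lib.IsR (12 * ((m + 1 : ℕ) : ℤ)) ((E₄ : ℍ → ℂ) ^ (3 * (m + 1))) :=
      (isR_pow S20lib.isR_E4 (3 * (m + 1))).congr_weight (by push_cast; ring)
    have hEt : Tendsto ((E₄ : ℍ → ℂ) ^ (3 * (m + 1))) atImInfty (𝓝 1) := by
      have := S20lib.tendsto_E4.pow (3 * (m + 1))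
      rw [one_pow] at this
      exact this
    have hb := ha.sub (hE.smul c)
    have hb0 : IsZeroAtImInfty
        ((fun τ => (Δ τ) ^ (m + 1) * f τ) - c • ((E₄ : ℍ → ℂ) ^ (3 * (m + 1)))) := by
      have := hc.sub (hEt.const_smul c)
      rw [smul_eq_mul, mul_one, sub_self] at this
      exact this
    obtain ⟨a', ha', hEq⟩ := hb.exists_eq_disc_mul hb0
    have key : ∀ τ, (Δ τ) ^ m * (f τ - c * jfun τ ^ (m + 1)) = a' τ := by
      intro τ
      have h1 := congrFun hEq τ
      simp only [Pi.sub_apply, Pi.smul_apply, Pi.pow_apply, Pi.mul_apply, smul_eq_mul] at h1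
      have hΔ := discriminant_ne_zero τ
      apply mul_left_cancel₀ hΔ
      rw [← h1]
      unfold jfun
      rw [div_pow, ← pow_mul]
      field_simp
      ring
    obtain ⟨P, hP, hPe⟩ := ih (fun τ => f τ - c * jfun τ ^ (m + 1))
      (hf.sub ((mdifferentiable_const (c := c)).mul (S24lib.mdiff_jfun.pow (m + 1))))
      (fun g τ => by simp only [hinv, S24lib.jfun_smul])
      (by
        have : (fun τ => (Δ τ) ^ m * (f τ - c * jfun τ ^ (m + 1))) = a' := funext key
        rw [this]; exact ha'.bdd)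
    refine ⟨P + Polynomial.C c * Polynomial.X ^ (m + 1), ?_, fun τ => ?_⟩
    · refine (Polynomial.natDegree_add_le _ _).trans (max_le (by omega) ?_)
      exact Polynomial.natDegree_C_mul_X_pow_le _ _
    · have := hPe τ
      simp only [Polynomial.eval_add, Polynomial.eval_mul, Polynomial.eval_C, Polynomial.eval_pow,
        Polynomial.eval_X, ← this]
      ring

end Fermat.Agent.S28lib
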