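import Mathlib
import Fermat.Prelude.Def_GaloisRep_Flat

/-!
# S28 library, task F3: the ring `ℤ_(ℓ) = GaloisRep.ratLocalizedAt ℓ` and `ℤ_(ℓ)[t]`.
-/

set_option autoImplicit false

open Polynomial

namespace Fermat.Agent.S28lib

variable (ℓ : ℕ) [Fact ℓ.Prime]

theorem exists_int_mul_eq (r : ↥(GaloisRep.ratLocalizedAt ℓ)) : ∃ m d : ℤ, ¬ (ℓ : ℤ) ∣ d ∧ (d : ↥(GaloisRep.ratLocalizedAt ℓ)) * r = (m : ↥(GaloisRep.ratLocalizedAt ℓ)) := by
  refine ⟨(r : ℚ).num, ((r : ℚ).den : ℤ), ?_, ?_⟩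
  · intro h
    have h1 : ℓ ∣ (r : ℚ).den := by exact_mod_cast h
    have h2 : (r : ℚ).den.Coprime ℓ := r.2
    have h3 : ℓ ∣ 1 := by
      have := Nat.dvd_gcd h1 (dvd_refl ℓ)
      rwa [h2] at this
    exact (Fact.out : ℓ.Prime).one_lt.ne' (Nat.dvd_one.1 h3)
  · apply Subtype.ext
    push_cast
    exact Rat.den_mul_eq_num _

omit [Fact ℓ.Prime] in
theorem intCast_injective_ratLocalizedAt :
    Function.Injective (fun m : ℤ => (m : ↥(GaloisRep.ratLocalizedAt ℓ))) := by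
  intro a b h
  have h' : ((a : ↥(GaloisRep.ratLocalizedAt ℓ)) : ℚ) = ((b : ↥(GaloisRep.ratLocalizedAt ℓ)) : ℚ) :=
    congrArg _ h
  push_cast at h'
  exact_mod_cast h'

theorem isUnit_intCast_ratLocalizedAt {d : ℤ} (hd : ¬ (ℓ : ℤ) ∣ d) :
    IsUnit (d : ↥(GaloisRep.ratLocalizedAt ℓ)) := by
  have hd0 : d ≠ 0 := by rintro rfl; exact hd (dvd_zero _)
  have hmem : ((d : ℚ)⁻¹) ∈ GaloisRep.ratLocalizedAt ℓ := by
    change ((d : ℚ)⁻¹).den.Coprime ℓ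
    rw [Rat.inv_intCast_den, if_neg hd0]
    rw [Nat.coprime_comm, Nat.Prime.coprime_iff_not_dvd (Fact.out : ℓ.Prime)]
    intro h
    exact hd (Int.natCast_dvd.2 h)
  refine IsUnit.of_mul_eq_one ⟨(d : ℚ)⁻¹, hmem⟩ ?_
  apply Subtype.ext
  push_cast
  exact mul_inv_cancel₀ (by exact_mod_cast hd0)

/-- ring homs from `ℤ_(ℓ)` to a field of characteristic `ℓ` are unique -/
theorem ratLocalizedAt_ringHom_ext {L : Type*} [Field L] [CharP L ℓ] (f g : ↥(GaloisRep.ratLocalizedAt ℓ) →+* L) : f = g := by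
  ext r
  obtain ⟨m, d, hd, h⟩ := exists_int_mul_eq ℓ r
  have hd' : (d : L) ≠ 0 := by
    intro h0
    exact hd ((CharP.intCast_eq_zero_iff L ℓ d).1 h0)
  have hf := congrArg f h
  have hg := congrArg g h
  rw [map_mul, map_intCast, map_intCast] at hf hg
  exact mul_left_cancel₀ hd' (hf.trans hg.symm)

instance isIntegrallyClosed_ratLocalizedAt : IsIntegrallyClosed ↥(GaloisRep.ratLocalizedAt ℓ) := by
  have hp : Prime (ℓ : ℤ) := Nat.prime_iff_prime_int.1 (Fact.out : ℓ.Prime)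
  let M : Submonoid ℤ :=
    { carrier := {d | ¬ (ℓ : ℤ) ∣ d}
      one_mem' := fun h => hp.not_isUnit (isUnit_of_dvd_one h)
      mul_mem' := fun {a b} ha hb h => (hp.dvd_or_dvd h).elim ha hb }
  have hloc : IsLocalization M ↥(GaloisRep.ratLocalizedAt ℓ) :=
    { map_units := by
        rintro ⟨d, hd⟩
        rw [eq_intCast (algebraMap ℤ ↥(GaloisRep.ratLocalizedAt ℓ))]
        exact isUnit_intCast_ratLocalizedAt ℓ hd
      surj := by
        intro r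
        obtain ⟨m, d, hd, h⟩ := exists_int_mul_eq ℓ r
        refine ⟨(m, ⟨d, hd⟩), ?_⟩
        rw [eq_intCast (algebraMap ℤ ↥(GaloisRep.ratLocalizedAt ℓ)),
          eq_intCast (algebraMap ℤ ↥(GaloisRep.ratLocalizedAt ℓ)), mul_comm]
        exact h
      exists_of_eq := by
        intro a b h
        rw [eq_intCast (algebraMap ℤ ↥(GaloisRep.ratLocalizedAt ℓ)),
          eq_intCast (algebraMap ℤ ↥(GaloisRep.ratLocalizedAt ℓ))] at h
        exact ⟨1, by rw [intCast_injective_ratLocalizedAt ℓ h]⟩ }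
  refine isIntegrallyClosed_of_isLocalization ↥(GaloisRep.ratLocalizedAt ℓ) M ?_
  intro d hd
  rw [mem_nonZeroDivisors_iff_ne_zero]
  rintro rfl
  exact hd (dvd_zero _)

theorem natCast_dvd_intCast_iff (m : ℤ) : ((ℓ : ℕ) : ↥(GaloisRep.ratLocalizedAt ℓ)) ∣ (m : ↥(GaloisRep.ratLocalizedAt ℓ)) ↔ (ℓ : ℤ) ∣ m := by
  constructor
  · rintro ⟨r, hr⟩
    obtain ⟨n, d, hd, h⟩ := exists_int_mul_eq ℓ r
    have h1 : ((d * m : ℤ) : ↥(GaloisRep.ratLocalizedAt ℓ)) = (((ℓ : ℤ) * n : ℤ) : ↥(GaloisRep.ratLocalizedAt ℓ)) := by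
      push_cast
      rw [hr, ← h]
      ring
    have h2 : d * m = (ℓ : ℤ) * n := intCast_injective_ratLocalizedAt ℓ h1
    have hp : Prime (ℓ : ℤ) := Nat.prime_iff_prime_int.1 (Fact.out : ℓ.Prime)
    exact (hp.dvd_or_dvd (Dvd.intro _ h2.symm)).resolve_left hd
  · rintro ⟨k, rfl⟩
    exact ⟨(k : ↥(GaloisRep.ratLocalizedAt ℓ)), by push_cast; rfl⟩

theorem prime_natCast_ratLocalizedAt : Prime ((ℓ : ℕ) : ↥(GaloisRep.ratLocalizedAt ℓ)) := by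
  have hp : Prime (ℓ : ℤ) := Nat.prime_iff_prime_int.1 (Fact.out : ℓ.Prime)
  have key : ∀ r : ↥(GaloisRep.ratLocalizedAt ℓ), ∀ m d : ℤ, ¬ (ℓ : ℤ) ∣ d →
      (d : ↥(GaloisRep.ratLocalizedAt ℓ)) * r = (m : ↥(GaloisRep.ratLocalizedAt ℓ)) →
      (((ℓ : ℕ) : ↥(GaloisRep.ratLocalizedAt ℓ)) ∣ r ↔ (ℓ : ℤ) ∣ m) := by
    intro r m d hd h
    rw [← natCast_dvd_intCast_iff, ← h]
    exact ((isUnit_intCast_ratLocalizedAt ℓ hd).dvd_mul_left).symm
  refine ⟨?_, ?_, ?_⟩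
  · intro h
    have : ((ℓ : ℤ) : ↥(GaloisRep.ratLocalizedAt ℓ)) = ((0 : ℤ) : ↥(GaloisRep.ratLocalizedAt ℓ)) := by
      push_cast; exact h
    exact hp.ne_zero (intCast_injective_ratLocalizedAt ℓ this)
  · intro h
    have h1 : ((ℓ : ℕ) : ↥(GaloisRep.ratLocalizedAt ℓ)) ∣ ((1 : ℤ) : ↥(GaloisRep.ratLocalizedAt ℓ)) := by
      push_cast; exact h.dvd
    exact hp.not_isUnit (isUnit_of_dvd_one ((natCast_dvd_intCast_iff ℓ 1).1 h1))
  · intro a b hab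
    obtain ⟨ma, da, hda, ha⟩ := exists_int_mul_eq ℓ a
    obtain ⟨mb, db, hdb, hb⟩ := exists_int_mul_eq ℓ b
    have hd : ¬ (ℓ : ℤ) ∣ da * db := fun h => (hp.dvd_or_dvd h).elim hda hdb
    have h : ((da * db : ℤ) : ↥(GaloisRep.ratLocalizedAt ℓ)) * (a * b) = ((ma * mb : ℤ) : ↥(GaloisRep.ratLocalizedAt ℓ)) := by
      push_cast
      rw [← ha, ← hb]; ring
    rw [key _ _ _ hd h] at hab
    rw [key _ _ _ hda ha, key _ _ _ hdb hb]
    exact hp.dvd_or_dvd hab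

variable {ℓ}

/-- the isomorphism `ℤ_(ℓ)[X] ≃ ℤ_(ℓ)[t]` for transcendental `t`. -/
noncomputable def adjoinSingletonEquiv {R F : Type*} [CommRing R] [Field F] [Algebra R F] {t : F}
    (ht : Transcendental R t) : R[X] ≃ₐ[R] ↥(Algebra.adjoin R {t}) :=
  (AlgEquiv.ofInjective (aeval t) (transcendental_iff_injective.1 ht)).trans
    (Subalgebra.equivOfEq _ _ (Algebra.adjoin_singleton_eq_range_aeval R t).symm)

theorem adjoinSingletonEquiv_coe {R F : Type*} [CommRing R] [Field F] [Algebra R F] {t : F}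
    (ht : Transcendental R t) (P : R[X]) : ((adjoinSingletonEquiv ht P : ↥(Algebra.adjoin R {t})) : F) = aeval t P :=
  rfl

/-- **Task F3.** For `t` transcendental over `ℤ_(ℓ)`, the ring `ℤ_(ℓ)[t]` is normal, `ℓ` is a prime
element of it, and `ℓ ∤ g(t)` if `g ∈ ℤ[X]` is nonzero mod `ℓ`. (`ℤ_(ℓ)[t] ≃ ℤ_(ℓ)[X]`,
`Polynomial.prime_C_iff`, `Polynomial.C_dvd_iff_dvd_coeff`, the instance
`IsIntegrallyClosed R[X]` in `Mathlib/RingTheory/Polynomial/IsIntegral.lean`.) -/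
theorem isIntegrallyClosed_adjoin_singleton {F : Type*} [Field F] [Algebra ↥(GaloisRep.ratLocalizedAt ℓ) F] {t : F}
    (ht : Transcendental ↥(GaloisRep.ratLocalizedAt ℓ) t) : IsIntegrallyClosed ↥(Algebra.adjoin ↥(GaloisRep.ratLocalizedAt ℓ) {t}) :=
  IsIntegrallyClosed.of_equiv (adjoinSingletonEquiv ht).toRingEquiv

theorem prime_natCast_adjoin_singleton {F : Type*} [Field F] [Algebra ↥(GaloisRep.ratLocalizedAt ℓ) F] {t : F}
    (ht : Transcendental ↥(GaloisRep.ratLocalizedAt ℓ) t) : Prime ((ℓ : ℕ) : ↥(Algebra.adjoin ↥(GaloisRep.ratLocalizedAt ℓ) {t})) := by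
  have h1 : Prime (C ((ℓ : ℕ) : ↥(GaloisRep.ratLocalizedAt ℓ))) :=
    Polynomial.prime_C_iff.2 (prime_natCast_ratLocalizedAt ℓ)
  have h2 := (MulEquiv.prime_iff (adjoinSingletonEquiv ht).toMulEquiv).2 h1
  have h3 : (adjoinSingletonEquiv ht).toMulEquiv (C ((ℓ : ℕ) : ↥(GaloisRep.ratLocalizedAt ℓ)))
      = ((ℓ : ℕ) : ↥(Algebra.adjoin ↥(GaloisRep.ratLocalizedAt ℓ) {t})) := by
    change (adjoinSingletonEquiv ht) (C ((ℓ : ℕ) : ↥(GaloisRep.ratLocalizedAt ℓ))) = _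
    rw [map_natCast C, map_natCast]
  rwa [h3] at h2

theorem not_natCast_dvd_adjoin_singleton {F : Type*} [Field F] [Algebra ↥(GaloisRep.ratLocalizedAt ℓ) F] {t : F}
    (ht : Transcendental ↥(GaloisRep.ratLocalizedAt ℓ) t) (g : ℤ[X]) (hg : g.map (Int.castRingHom (ZMod ℓ)) ≠ 0)
    (σ : ↥(Algebra.adjoin ↥(GaloisRep.ratLocalizedAt ℓ) {t})) (hσ : (σ : F) = aeval t g) :
    ¬ ((ℓ : ℕ) : ↥(Algebra.adjoin ↥(GaloisRep.ratLocalizedAt ℓ) {t})) ∣ σ := by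
  intro hdvd
  set G : (↥(GaloisRep.ratLocalizedAt ℓ))[X] := g.map (algebraMap ℤ _) with hG
  have h1 : adjoinSingletonEquiv ht G = σ := by
    apply Subtype.ext
    rw [adjoinSingletonEquiv_coe, hσ, hG, aeval_map_algebraMap]
  have h3 : (adjoinSingletonEquiv ht) (C ((ℓ : ℕ) : ↥(GaloisRep.ratLocalizedAt ℓ)))
      = ((ℓ : ℕ) : ↥(Algebra.adjoin ↥(GaloisRep.ratLocalizedAt ℓ) {t})) := by
    rw [map_natCast C, map_natCast]
  rw [← h1, ← h3] at hdvd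
  have h4 : C ((ℓ : ℕ) : ↥(GaloisRep.ratLocalizedAt ℓ)) ∣ G := by
    obtain ⟨c, hc⟩ := hdvd
    refine ⟨(adjoinSingletonEquiv ht).symm c, ?_⟩
    apply (adjoinSingletonEquiv ht).injective
    rw [hc, map_mul, AlgEquiv.apply_symm_apply]
  rw [Polynomial.C_dvd_iff_dvd_coeff] at h4
  apply hg
  ext i
  rw [coeff_map, coeff_zero, eq_intCast, ZMod.intCast_zmod_eq_zero_iff_dvd]
  have h5 := h4 i
  rw [hG, coeff_map, eq_intCast] at h5
  exact (natCast_dvd_intCast_iff ℓ _).1 h5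

end Fermat.Agent.S28lib
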