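import Fermat.Agent.S28.FIntegral
import Fermat.Agent.S28.FLocal

/-!
# S28 library, task F: the abstract form of "`ℓ y` integral over `ℤ_(ℓ)[t]` and `y ∈ Lam` imply
`y` integral over `ℤ_(ℓ)[t]`".
-/

set_option autoImplicit false

open Polynomial

namespace Fermat.Agent.S28lib

variable {ℓ : ℕ} [Fact ℓ.Prime]

/-- The relation property: every `z ∈ L` satisfies `g(t) z = ∑ G_i(t) b_i` with `g, G_i ∈ ℤ[X]`,
`g ≠ 0` mod `ℓ`. -/
def HasRel (ℓ : ℕ) {F : Type*} [Field F] (L : Subring F) {n : ℕ} (bF : Fin n → F) (t : F) : Prop :=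
  ∀ z ∈ L, ∃ (g : ℤ[X]) (G : Fin n → ℤ[X]), g.map (Int.castRingHom (ZMod ℓ)) ≠ 0 ∧
    aeval t g * z = ∑ i, aeval t (G i) * bF i

theorem HasRel.inv {F : Type*} [Field F] {L : Subring F} {n : ℕ} {bF : Fin n → F} {t : F}
    (ht : t ≠ 0) (H : HasRel ℓ L bF t) : HasRel ℓ L bF t⁻¹ := by
  intro z hz
  obtain ⟨g, G, hg, hrel⟩ := H z hz
  set m : ℕ := g.natDegree + ∑ i, (G i).natDegree with hm
  have hgm : g.natDegree ≤ m := Nat.le_add_right _ _
  have hGm : ∀ i, (G i).natDegree ≤ m := fun i =>
    (Finset.single_le_sum (f := fun i => (G i).natDegree) (fun _ _ => Nat.zero_le _)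
      (Finset.mem_univ i)).trans (Nat.le_add_left _ _)
  have key : ∀ f : ℤ[X], f.natDegree ≤ m → aeval t⁻¹ (f.reflect m) * t ^ m = aeval t f := by
    intro f hf
    letI : Invertible t := invertibleOfNonzero ht
    have := eval₂_reflect_mul_pow (algebraMap ℤ F) t m f hf
    rwa [invOf_eq_inv] at this
  refine ⟨g.reflect m, fun i => (G i).reflect m, ?_, ?_⟩
  · rw [← reflect_map]
    exact fun h => hg (reflect_eq_zero_iff.mp h)
  · have htm : t ^ m ≠ 0 := pow_ne_zero _ ht
    apply mul_right_cancel₀ htm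
    rw [Finset.sum_mul]
    calc aeval t⁻¹ (g.reflect m) * z * t ^ m = (aeval t⁻¹ (g.reflect m) * t ^ m) * z := by ring
      _ = ∑ i, aeval t (G i) * bF i := by rw [key g hgm, hrel]
      _ = ∑ i, aeval t⁻¹ ((G i).reflect m) * bF i * t ^ m := by
        refine Finset.sum_congr rfl fun i _ => ?_
        rw [← key (G i) (hGm i)]; ring

theorem aeval_int_mem_adjoin {F : Type*} [Field F] [Algebra ↥(GaloisRep.ratLocalizedAt ℓ) F] (t : F)
    (g : ℤ[X]) : aeval t g ∈ Algebra.adjoin ↥(GaloisRep.ratLocalizedAt ℓ) {t} := by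
  have : aeval t g = aeval t (g.map (algebraMap ℤ ↥(GaloisRep.ratLocalizedAt ℓ))) := by
    rw [aeval_map_algebraMap]
  rw [this]
  exact aeval_mem_adjoin_singleton _ _

theorem isIntegral_of_hasRel {F : Type*} [Field F] [Algebra ↥(GaloisRep.ratLocalizedAt ℓ) F]
    (L : Subring F) {n : ℕ} (bF : Fin n → F) (hbL : ∀ i, bF i ∈ L) {t : F}
    (ht : Transcendental ↥(GaloisRep.ratLocalizedAt ℓ) t) (H : HasRel ℓ L bF t)
    {y : F} (hy : y ∈ L)
    (hly : IsIntegral ↥(Algebra.adjoin ↥(GaloisRep.ratLocalizedAt ℓ) {t}) (((ℓ : ℕ) : F) * y)) :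
    IsIntegral ↥(Algebra.adjoin ↥(GaloisRep.ratLocalizedAt ℓ) {t}) y := by
  classical
  haveI := isIntegrallyClosed_adjoin_singleton ht
  choose g G hg hrel using fun k => H (y * bF k) (L.mul_mem hy (hbL k))
  set σ : ℤ[X] := ∏ k, g k with hσ
  have hσmap : σ.map (Int.castRingHom (ZMod ℓ)) ≠ 0 := by
    rw [hσ, Polynomial.map_prod]
    exact Finset.prod_ne_zero_iff.mpr fun k _ => hg k
  set σB : ↥(Algebra.adjoin ↥(GaloisRep.ratLocalizedAt ℓ) {t}) :=
    ⟨aeval t σ, aeval_int_mem_adjoin t σ⟩ with hσB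
  have hnd := not_natCast_dvd_adjoin_singleton ht σ hσmap σB rfl
  have hprime := prime_natCast_adjoin_singleton ht
  refine isIntegral_of_isIntegral_smul hprime hnd ?_ ?_
  · have : ((ℓ : ℕ) : ↥(Algebra.adjoin ↥(GaloisRep.ratLocalizedAt ℓ) {t})) • y =
        ((ℓ : ℕ) : F) * y := by
      rw [Algebra.smul_def, map_natCast]
    rw [this]; exact hly
  · -- `σ(t) y` stabilises the module spanned by the `b_i`
    set M : Submodule ↥(Algebra.adjoin ↥(GaloisRep.ratLocalizedAt ℓ) {t}) F :=
      Submodule.span _ (Set.range bF) with hM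
    have hMne : M ≠ ⊥ := by
      intro hbot
      obtain ⟨g₁, G₁, hg₁, hrel₁⟩ := H 1 L.one_mem
      have hb0 : ∀ i, bF i = 0 := fun i => by
        have : bF i ∈ M := Submodule.subset_span ⟨i, rfl⟩
        rwa [hbot, Submodule.mem_bot] at this
      simp only [hb0, mul_zero, Finset.sum_const_zero, mul_one] at hrel₁
      have h2 : aeval t (g₁.map (algebraMap ℤ ↥(GaloisRep.ratLocalizedAt ℓ))) = 0 := by
        rw [aeval_map_algebraMap]; exact hrel₁
      have h3 := (transcendental_iff.mp ht) _ h2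
      apply hg₁
      have h4 : g₁ = 0 := by
        apply Polynomial.map_injective (algebraMap ℤ ↥(GaloisRep.ratLocalizedAt ℓ))
          (FaithfulSMul.algebraMap_injective ℤ ↥(GaloisRep.ratLocalizedAt ℓ))
        rw [h3, Polynomial.map_zero]
      rw [h4, Polynomial.map_zero]
    have hMfg : M.FG := Submodule.fg_span (Set.finite_range bF)
    refine isIntegral_of_smul_mem_submodule M hMne hMfg (σB • y) ?_
    intro m hm
    induction hm using Submodule.span_induction with
    | mem x hx =>
      obtain ⟨k, rfl⟩ := hx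
      have h1 : (σB • y) • bF k =
          ∑ i, (⟨aeval t ((∏ k' ∈ Finset.univ.erase k, g k') * G k i),
            aeval_int_mem_adjoin t _⟩ : ↥(Algebra.adjoin ↥(GaloisRep.ratLocalizedAt ℓ) {t})) •
              bF i := by
        have h2 : σ = (∏ k' ∈ Finset.univ.erase k, g k') * g k := by
          rw [hσ, Finset.prod_erase_mul _ _ (Finset.mem_univ k)]
        calc (σB • y) • bF k = aeval t σ * (y * bF k) := by
              rw [smul_eq_mul, Algebra.smul_def]
              show aeval t σ * y * bF k = _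
              ring
          _ = aeval t (∏ k' ∈ Finset.univ.erase k, g k') * (aeval t (g k) * (y * bF k)) := by
              rw [h2, map_mul]; ring
          _ = _ := by
              rw [hrel k, Finset.mul_sum]
              refine Finset.sum_congr rfl fun i _ => ?_
              rw [Algebra.smul_def]
              show _ = aeval t ((∏ k' ∈ Finset.univ.erase k, g k') * G k i) * bF i
              rw [map_mul]; ring
      rw [h1]
      exact Submodule.sum_mem _ fun i _ => Submodule.smul_mem _ _ (Submodule.subset_span ⟨i, rfl⟩)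
    | zero => rw [smul_zero]; exact Submodule.zero_mem _
    | add x x' _ _ hx hx' => rw [smul_add]; exact Submodule.add_mem _ hx hx'
    | smul a x _ hx =>
      rw [smul_comm]
      exact Submodule.smul_mem _ _ hx

end Fermat.Agent.S28lib
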