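import Fermat.Agent.S28.FRed

/-!
# S28 library, task F: an element `x` with `ℓ^a x ∈ Lam`, `red (ℓ^a x) ≠ 0`, `a > 0` is not integral
over `Lam`.
-/

set_option autoImplicit false

open ModularCurve Polynomial

namespace Fermat.Agent.S28lib

noncomputable section

variable (ℓ : ℕ) [Fact ℓ.Prime]

theorem not_isIntegral_Lam {x : LaurentSeries ℚ} {a : ℕ} (ha : 0 < a)
    (h : ((ℓ : ℕ) : LaurentSeries ℚ) ^ a * x ∈ Lam ℓ) (hred : red ℓ ⟨_, h⟩ ≠ 0) :
    ¬ IsIntegral (Lam ℓ) x := by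
  rintro ⟨p, hp, hpx⟩
  set c : Lam ℓ := ((ℓ : ℕ) : Lam ℓ) ^ a with hc
  set y : Lam ℓ := ⟨_, h⟩ with hy
  have hal : ∀ z : Lam ℓ, algebraMap (Lam ℓ) (LaurentSeries ℚ) z = (z : LaurentSeries ℚ) :=
    fun _ => rfl
  have hcy : algebraMap (Lam ℓ) (LaurentSeries ℚ) c * x = algebraMap (Lam ℓ) (LaurentSeries ℚ) y := by
    rw [hal, hal, hc, hy, Subring.coe_pow, Subring.coe_natCast]
  have h1 : eval₂ (algebraMap (Lam ℓ) (LaurentSeries ℚ)) (algebraMap (Lam ℓ) (LaurentSeries ℚ) y)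
      (p.scaleRoots c) = 0 := by
    rw [← hcy, scaleRoots_eval₂_mul, hpx, mul_zero]
  rw [eval₂_at_apply] at h1
  have h2 : eval y (p.scaleRoots c) = 0 := by
    apply Subtype.val_injective
    rw [hal] at h1
    exact h1
  have h3 : eval (red ℓ y) ((p.scaleRoots c).map (red ℓ)) = 0 := by
    rw [eval_map, eval₂_at_apply, h2, map_zero]
  have hredc : red ℓ c = 0 := by
    rw [hc, map_pow, red_natCast_self, zero_pow ha.ne']
  have h4 : (p.scaleRoots c).map (red ℓ) = X ^ p.natDegree := by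
    ext i
    rw [coeff_map, coeff_scaleRoots, map_mul, map_pow, hredc, coeff_X_pow]
    split_ifs with hi
    · rw [hi, Nat.sub_self, pow_zero, mul_one, hp.coeff_natDegree, map_one]
    · rcases lt_or_gt_of_ne hi with hlt | hgt
      · rw [zero_pow (by omega), mul_zero]
      · rw [coeff_eq_zero_of_natDegree_lt hgt, map_zero, zero_mul]
  rw [h4, eval_pow, eval_X] at h3
  exact hred (pow_eq_zero_iff (fun h0 => by
    rw [h0, pow_zero] at h3; exact one_ne_zero h3) |>.mp h3)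

end

end Fermat.Agent.S28lib
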