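import Mathlib

/-!
# S28 library, task F2: scaling a family of rational polynomials to an `ℓ`-primitive integral family.
-/

set_option autoImplicit false

open Polynomial

namespace Fermat.Agent.S28lib

/-- family version over `ℤ` -/
theorem exists_pow_mul_primitive_family {ι : Type*} (ℓ : ℕ) [Fact ℓ.Prime] (m : ℕ) :
    ∀ (Q : ι → ℤ[X]) (i₀ : ι) (n₀ : ℕ), (Q i₀).coeff n₀ ≠ 0 → ((Q i₀).coeff n₀).natAbs ≤ m →
    ∃ (a : ℕ) (Q' : ι → ℤ[X]), (∀ i, Q i = C ((ℓ : ℤ) ^ a) * Q' i) ∧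
      ∃ i, (Q' i).map (Int.castRingHom (ZMod ℓ)) ≠ 0 := by
  induction m with
  | zero =>
    intro Q i₀ n₀ h0 hm
    exact absurd (Int.natAbs_eq_zero.1 (Nat.le_zero.1 hm)) h0
  | succ m ih =>
    intro Q i₀ n₀ h0 hm
    by_cases hex : ∃ i, (Q i).map (Int.castRingHom (ZMod ℓ)) ≠ 0
    · exact ⟨0, Q, fun i => by simp, hex⟩
    · push Not at hex
      have hdvd : ∀ i, C (ℓ : ℤ) ∣ Q i := fun i => by
        rw [C_dvd_iff_dvd_coeff]
        intro n
        have := congrArg (fun P => P.coeff n) (hex i)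
        simp only [coeff_map, coeff_zero, eq_intCast] at this
        exact (ZMod.intCast_zmod_eq_zero_iff_dvd _ _).1 this
      choose R hR using hdvd
      have hℓ : 2 ≤ ℓ := (Fact.out : ℓ.Prime).two_le
      have hc : (Q i₀).coeff n₀ = ℓ * (R i₀).coeff n₀ := by rw [hR i₀, coeff_C_mul]
      have hR0 : (R i₀).coeff n₀ ≠ 0 := fun h => h0 (by rw [hc, h, mul_zero])
      have hlt : ((R i₀).coeff n₀).natAbs ≤ m := by
        have h1 : ((Q i₀).coeff n₀).natAbs = ℓ * ((R i₀).coeff n₀).natAbs := by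
          rw [hc, Int.natAbs_mul, Int.natAbs_natCast]
        have h2 : 0 < ((R i₀).coeff n₀).natAbs := Int.natAbs_pos.2 hR0
        nlinarith
      obtain ⟨a, Q', hQ', hex'⟩ := ih R i₀ n₀ hR0 hlt
      refine ⟨a + 1, Q', fun i => ?_, hex'⟩
      rw [hR i, hQ' i, ← mul_assoc, ← C_mul, pow_succ, mul_comm (ℓ : ℤ)]

/-- a nonzero integer polynomial is `ℓ^a` times a polynomial which is nonzero mod `ℓ` -/
theorem exists_pow_mul_primitive (ℓ : ℕ) [Fact ℓ.Prime] (P : ℤ[X]) (hP : P ≠ 0) :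
    ∃ (a : ℕ) (P' : ℤ[X]), P = C ((ℓ : ℤ) ^ a) * P' ∧ P'.map (Int.castRingHom (ZMod ℓ)) ≠ 0 := by
  obtain ⟨n₀, hn₀⟩ : ∃ n, P.coeff n ≠ 0 := by
    by_contra h
    push Not at h
    exact hP (Polynomial.ext (by simpa using h))
  obtain ⟨a, Q', h1, ⟨_, h2⟩⟩ := exists_pow_mul_primitive_family (ι := Unit) ℓ _ (fun _ => P) () n₀
    hn₀ le_rfl
  exact ⟨a, Q' (), h1 (), h2⟩

/-- **Task F2.** A finite family of rational polynomials, not all zero, can be scaled by a nonzero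
rational to an integral family which is not identically zero mod `ℓ`. -/
theorem exists_primitive_int {ι : Type*} [Finite ι] (ℓ : ℕ) [Fact ℓ.Prime] (P : ι → ℚ[X])
    (hP : ∃ i, P i ≠ 0) :
    ∃ (c : ℚ) (P' : ι → ℤ[X]), c ≠ 0 ∧ (∀ i, (P' i).map (Int.castRingHom ℚ) = C c * P i) ∧
      ∃ i, (P' i).map (Int.castRingHom (ZMod ℓ)) ≠ 0 := by
  classical
  cases nonempty_fintype ι
  have hnorm : ∀ i, ∃ (b : ℤ) (N : ℤ[X]), b ≠ 0 ∧ N.map (Int.castRingHom ℚ) = C (b : ℚ) * P i := by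
    intro i
    obtain ⟨b, hbM, hb⟩ := IsLocalization.integerNormalization_spec (nonZeroDivisors ℤ) (P i)
    refine ⟨b, IsLocalization.integerNormalization (nonZeroDivisors ℤ) (P i),
      nonZeroDivisors.ne_zero hbM, ?_⟩
    rw [show Int.castRingHom ℚ = algebraMap ℤ ℚ from rfl, hb, ← smul_eq_C_mul]
    ext n
    simp [coeff_smul]
  choose b N hb hN using hnorm
  set d : ℤ := ∏ i, b i with hd
  have hd0 : d ≠ 0 := Finset.prod_ne_zero_iff.2 fun i _ => hb i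
  have hk : ∀ i, b i ∣ d := fun i => Finset.dvd_prod_of_mem _ (Finset.mem_univ i)
  choose k hk using hk
  set Q : ι → ℤ[X] := fun i => C (k i) * N i with hQ
  have hQmap : ∀ i, (Q i).map (Int.castRingHom ℚ) = C (d : ℚ) * P i := fun i => by
    rw [hQ]
    change (C (k i) * N i).map (Int.castRingHom ℚ) = _
    rw [Polynomial.map_mul, Polynomial.map_C, hN, ← mul_assoc, ← C_mul, hk i, eq_intCast]
    push_cast
    rw [mul_comm (k i : ℚ)]
  obtain ⟨i₀, hi₀⟩ := hP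
  have hQi₀ : Q i₀ ≠ 0 := by
    intro h
    have := hQmap i₀
    rw [h, Polynomial.map_zero] at this
    have hdq : (C (d : ℚ) : ℚ[X]) ≠ 0 := by
      rw [Ne, C_eq_zero]; exact_mod_cast hd0
    exact (mul_ne_zero hdq hi₀) this.symm
  obtain ⟨n₀, hn₀⟩ : ∃ n, (Q i₀).coeff n ≠ 0 := by
    by_contra h
    push Not at h
    exact hQi₀ (Polynomial.ext (by simpa using h))
  obtain ⟨a, Q', h1, h2⟩ := exists_pow_mul_primitive_family ℓ _ Q i₀ n₀ hn₀ le_rfl
  have hℓ0 : ((ℓ : ℚ) ^ a) ≠ 0 := pow_ne_zero _ (by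
    exact_mod_cast (Fact.out : ℓ.Prime).ne_zero)
  refine ⟨d / (ℓ : ℚ) ^ a, Q', div_ne_zero (by exact_mod_cast hd0) hℓ0, fun i => ?_, h2⟩
  have h3 := hQmap i
  rw [h1 i, Polynomial.map_mul, Polynomial.map_C, eq_intCast] at h3
  push_cast at h3
  have hC : (C ((ℓ : ℚ) ^ a) : ℚ[X]) ≠ 0 := by rwa [Ne, C_eq_zero]
  apply mul_left_cancel₀ hC
  rw [h3, ← mul_assoc, ← C_mul, mul_div_cancel₀ _ hℓ0]

end Fermat.Agent.S28lib
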