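import Fermat.Agent.S28.Key
import Fermat.Agent.S28.FClosed
import Fermat.Agent.S28.FScale

/-!
# S28 library, task F: relations `P(j) x = ∑ Q_i(j) b_i` for `x` in the function field.
-/

set_option autoImplicit false

open ModularCurve Polynomial

namespace Fermat.Agent.S28lib

noncomputable section

/-- `P(j) ∈ ℤ((q))` -/
abbrev evZ (P : ℤ[X]) : LaurentSeries ℤ := evY ℤ (jA ℤ) P

theorem ιQ_evZ (P : ℤ[X]) : ιQ (evZ P) = evY ℚ (jA ℚ) (P.map (Int.castRingHom ℚ)) := by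
  rw [coeffMap_evY, coeffMap_jqModC]

variable (ℓ : ℕ) [Fact ℓ.Prime]

theorem ρL_evZ (P : ℤ[X]) :
    ρL ℓ (evZ P) = evY (ZMod ℓ) (jA (ZMod ℓ)) (P.map (Int.castRingHom (ZMod ℓ))) := by
  rw [coeffMap_evY, coeffMap_jqModC]

theorem ρL_evZ_ne_zero {P : ℤ[X]} (hP : P.map (Int.castRingHom (ZMod ℓ)) ≠ 0) :
    ρL ℓ (evZ P) ≠ 0 := by
  rw [ρL_evZ]
  intro h
  exact hP (evY_jA_injective (K := ZMod ℓ) (by rw [h, map_zero]))

theorem ρL_evZ_eq_zero {P : ℤ[X]} (hP : P.map (Int.castRingHom (ZMod ℓ)) = 0) :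
    ρL ℓ (evZ P) = 0 := by
  rw [ρL_evZ, hP, map_zero]

variable (N : ℕ) [NeZero N]

variable {N} in
theorem exists_rel (b : Fin (dedekindPsi N) → LaurentSeries ℤ)
    (hbF : ∀ i, ιQ (b i) ∈ modularFunctionFieldFull N)
    {x : LaurentSeries ℚ} (hx : x ∈ modularFunctionFieldFull N) :
    ∃ (P : ℤ[X]) (Q : Fin (dedekindPsi N) → ℤ[X]),
      (P.map (Int.castRingHom (ZMod ℓ)) ≠ 0 ∨ ∃ i, (Q i).map (Int.castRingHom (ZMod ℓ)) ≠ 0) ∧
      ιQ (evZ P) * x = ιQ (∑ i, evZ (Q i) * b i) := by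
  set x' : Fin (dedekindPsi N + 1) → LaurentSeries ℚ := Fin.cons x (fun i => ιQ (b i)) with hx'
  have hx'F : ∀ i, x' i ∈ modularFunctionFieldFull N := by
    intro i
    refine Fin.cases ?_ (fun i => ?_) i
    · simpa [hx'] using hx
    · simpa [hx'] using hbF i
  have hnot : ¬ JIndep ℚ x' := fun h => by
    have := key_char0 N x' hx'F h
    omega
  unfold JIndep at hnot
  push Not at hnot
  obtain ⟨P, hsum, hP⟩ := hnot
  obtain ⟨c, P', hc, hP', hprim⟩ := exists_primitive_int ℓ P hP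
  have hsum' : ∑ i, ιQ (evZ (P' i)) * x' i = 0 := by
    have : ∀ i, ιQ (evZ (P' i)) * x' i = evY ℚ (jA ℚ) (C c) * (evY ℚ (jA ℚ) (P i) * x' i) := by
      intro i
      rw [ιQ_evZ, hP', map_mul]; ring
    simp only [this, ← Finset.mul_sum, hsum, mul_zero]
  rw [Fin.sum_univ_succ] at hsum'
  refine ⟨P' 0, fun i => - P' i.succ, ?_, ?_⟩
  · obtain ⟨i, hi⟩ := hprim
    refine Fin.cases (fun hi => Or.inl hi) (fun i hi => Or.inr ⟨i, ?_⟩) i hi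
    rw [Polynomial.map_neg]
    exact neg_ne_zero.mpr hi
  · simp only [hx', Fin.cons_zero, Fin.cons_succ] at hsum'
    rw [map_sum]
    simp only [map_mul, map_neg, neg_mul, Finset.sum_neg_distrib]
    linear_combination hsum'

omit [NeZero N] in
variable {N} in
theorem ρL_sum_ne_zero {b : Fin (dedekindPsi N) → LaurentSeries ℤ}
    (hind : JIndep (ZMod ℓ) (fun i => ρL ℓ (b i))) {Q : Fin (dedekindPsi N) → ℤ[X]}
    (hQ : ∃ i, (Q i).map (Int.castRingHom (ZMod ℓ)) ≠ 0) :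
    ρL ℓ (∑ i, evZ (Q i) * b i) ≠ 0 := by
  intro h
  obtain ⟨i, hi⟩ := hQ
  apply hi
  refine hind (fun i => (Q i).map (Int.castRingHom (ZMod ℓ))) ?_ i
  rw [← h, map_sum]
  refine Finset.sum_congr rfl fun i _ => ?_
  rw [map_mul, ρL_evZ]

variable {N} in
theorem exists_rel_of_mem_Lam {b : Fin (dedekindPsi N) → LaurentSeries ℤ}
    (hbF : ∀ i, ιQ (b i) ∈ modularFunctionFieldFull N)
    (hind : JIndep (ZMod ℓ) (fun i => ρL ℓ (b i)))
    {x : LaurentSeries ℚ} (hx : x ∈ modularFunctionFieldFull N) (hxL : x ∈ Lam ℓ) :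
    ∃ (P : ℤ[X]) (Q : Fin (dedekindPsi N) → ℤ[X]),
      P.map (Int.castRingHom (ZMod ℓ)) ≠ 0 ∧ ιQ (evZ P) * x = ιQ (∑ i, evZ (Q i) * b i) := by
  obtain ⟨P, Q, hprim, hrel⟩ := exists_rel ℓ b hbF hx
  refine ⟨P, Q, ?_, hrel⟩
  intro hP
  have hQ := hprim.resolve_left (not_not.mpr hP)
  apply ρL_sum_ne_zero ℓ hind hQ
  have h1 : (⟨ιQ (evZ P), ιQ_mem_Lam ℓ _⟩ : Lam ℓ) * ⟨x, hxL⟩ =
      ⟨ιQ (∑ i, evZ (Q i) * b i), ιQ_mem_Lam ℓ _⟩ := Subtype.ext hrel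
  have h2 := congrArg (red ℓ) h1
  rw [map_mul, red_ιQ, red_ιQ, ρL_evZ_eq_zero ℓ hP, zero_mul] at h2
  exact h2.symm

variable {N} in
theorem dichotomy {b : Fin (dedekindPsi N) → LaurentSeries ℤ}
    (hbF : ∀ i, ιQ (b i) ∈ modularFunctionFieldFull N)
    (hind : JIndep (ZMod ℓ) (fun i => ρL ℓ (b i)))
    {x : LaurentSeries ℚ} (hx : x ∈ modularFunctionFieldFull N) :
    x ∈ Lam ℓ ∨ ∃ a : ℕ, 0 < a ∧
      ∃ h : ((ℓ : ℕ) : LaurentSeries ℚ) ^ a * x ∈ Lam ℓ, red ℓ ⟨_, h⟩ ≠ 0 := by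
  obtain ⟨P, Q, hprim, hrel⟩ := exists_rel ℓ b hbF hx
  by_cases hP : P.map (Int.castRingHom (ZMod ℓ)) = 0
  · right
    have hQ := hprim.resolve_left (not_not.mpr hP)
    have hne := ρL_sum_ne_zero ℓ hind hQ
    have hP0 : P ≠ 0 := by
      rintro rfl
      apply hne
      have : (∑ i, evZ (Q i) * b i) = 0 := by
        apply ιQ_injective
        rw [← hrel]; simp
      rw [this, map_zero]
    obtain ⟨a, P₁, hPP, hP₁⟩ := exists_pow_mul_primitive ℓ P hP0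
    have ha : 0 < a := by
      rcases Nat.eq_zero_or_pos a with rfl | h
      · exfalso; apply hP₁
        rw [← hP, hPP]; simp
      · exact h
    have hrel' : ιQ (evZ P₁) * (((ℓ : ℕ) : LaurentSeries ℚ) ^ a * x) =
        ιQ (∑ i, evZ (Q i) * b i) := by
      rw [← hrel, hPP]
      have : evZ (C ((ℓ : ℤ) ^ a) * P₁) = ((ℓ : ℕ) : LaurentSeries ℤ) ^ a * evZ P₁ := by
        show evY ℤ (jA ℤ) (C ((ℓ : ℤ) ^ a) * P₁) = _
        have hC : (C ((ℓ : ℤ) ^ a) : ℤ[X]) = ((ℓ : ℕ) : ℤ[X]) ^ a := by simp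
        rw [map_mul, hC, map_pow, map_natCast]
      rw [this, map_mul, map_pow, map_natCast]
      ring
    have hs := ρL_evZ_ne_zero ℓ hP₁
    have hmem : ((ℓ : ℕ) : LaurentSeries ℚ) ^ a * x ∈ Lam ℓ :=
      (mem_Lam_iff ℓ).mpr ⟨evZ P₁, ∑ i, evZ (Q i) * b i, hs, hrel'⟩
    refine ⟨a, ha, hmem, ?_⟩
    rw [red_eq ℓ ⟨_, hmem⟩ hs hrel']
    exact div_ne_zero hne hs
  · left
    exact (mem_Lam_iff ℓ).mpr ⟨_, _, ρL_evZ_ne_zero ℓ hP, hrel⟩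

end

end Fermat.Agent.S28lib
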