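import Mathlib
import Fermat.Prelude.Def_GaloisRep_Flat
import Fermat.Prelude.Def_ModularCurve_LaurentCoeff
import Fermat.Agent.S28.FLocal

/-!
# S28 library, task F4: from a reduction map with kernel `ℓ A` to `A ⊗ K` being a domain.
-/

set_option autoImplicit false

open scoped TensorProduct

namespace Fermat.Agent.S28lib

variable (ℓ : ℕ) [Fact ℓ.Prime]

/-- **Task F4.** If `A` is a `ℤ_(ℓ)`-algebra with a ring hom `red : A → 𝔽_ℓ((q))` whose kernel is
`ℓ A`, then `A ⊗ K` is a domain for every field `K` of characteristic `ℓ`: it embeds in `K((q))`.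
(Ring hom `Φ : A ⊗ K → K((q))`, `a ⊗ κ ↦ C κ * (red a).map (ZMod.castHom _ K)`, built with
`Algebra.TensorProduct.lift`/`productMap`, the `ℤ_(ℓ)`-linearity by `ratLocalizedAt_ringHom_ext`.
Injectivity: let `𝓑` be an `𝔽_ℓ`-basis of `K`. Every `z` is `∑ a_j ⊗ 𝓑_j` (induction on `z`; lift the
coordinates of `κ` to integers). `Φ z = 0` gives coefficientwise `∑ 𝓑_j * (red a_j).coeff n = 0`, so
`red a_j = 0`, `a_j = ℓ a_j'` and `a_j ⊗ 𝓑_j = a_j' ⊗ ℓ 𝓑_j = 0`.) -/
theorem isDomain_tensor_of_red {A : Type*} [CommRing A] [Algebra ↥(GaloisRep.ratLocalizedAt ℓ) A]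
    (K : Type*) [Field K] [CharP K ℓ] [Algebra ↥(GaloisRep.ratLocalizedAt ℓ) K]
    (red : A →+* LaurentSeries (ZMod ℓ))
    (hker : ∀ a, red a = 0 → ∃ a', a = ((ℓ : ℕ) : A) * a') : IsDomain (A ⊗[↥(GaloisRep.ratLocalizedAt ℓ)] K) := by
  classical
  letI : Algebra (ZMod ℓ) K := ZMod.algebra K ℓ
  set R := ↥(GaloisRep.ratLocalizedAt ℓ) with hR
  haveI : CharP (LaurentSeries K) ℓ :=
    charP_of_injective_algebraMap (algebraMap K (LaurentSeries K)).injective ℓ
  letI : Algebra R (LaurentSeries K) :=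
    ((HahnSeries.C : K →+* LaurentSeries K).comp (algebraMap R K)).toAlgebra
  let φA : A →ₐ[R] LaurentSeries K :=
    { ((ModularCurve.coeffMap (algebraMap (ZMod ℓ) K)).comp red : A →+* LaurentSeries K) with
      commutes' := fun r => by
        have := ratLocalizedAt_ringHom_ext ℓ
          ((((ModularCurve.coeffMap (algebraMap (ZMod ℓ) K)).comp red).comp (algebraMap R A)))
          (algebraMap R (LaurentSeries K))
        exact DFunLike.congr_fun this r }
  let φK : K →ₐ[R] LaurentSeries K :=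
    { (HahnSeries.C : K →+* LaurentSeries K) with
      commutes' := fun r => rfl }
  let Φ : A ⊗[R] K →ₐ[R] LaurentSeries K := Algebra.TensorProduct.productMap φA φK
  let 𝓑 := Module.Basis.ofVectorSpace (ZMod ℓ) K
  have hnat : ∀ (n : ℕ) (a : A) (x : K), ((n : A) * a) ⊗ₜ[R] x = a ⊗ₜ[R] ((n : K) * x) := by
    intro n a x
    have h1 : (n : A) * a = (n : R) • a := by rw [Algebra.smul_def, map_natCast]
    have h2 : (n : K) * x = (n : R) • x := by rw [Algebra.smul_def, map_natCast]
    rw [h1, h2, TensorProduct.smul_tmul]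
  have hrepr : ∀ z : A ⊗[R] K, ∃ a : _ →₀ A, z = a.sum fun j x => x ⊗ₜ[R] 𝓑 j := by
    intro z
    induction z using TensorProduct.induction_on with
    | zero => exact ⟨0, by simp⟩
    | tmul a κ =>
      refine ⟨(𝓑.repr κ).mapRange (fun c => ((c.val : ℕ) : A) * a) (by simp), ?_⟩
      rw [Finsupp.sum_mapRange_index (by simp)]
      conv_lhs => rw [← 𝓑.linearCombination_repr κ, Finsupp.linearCombination_apply]
      rw [Finsupp.sum, TensorProduct.tmul_sum, Finsupp.sum]
      refine Finset.sum_congr rfl fun j _ => ?_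
      rw [hnat, Algebra.smul_def, ZMod.natCast_val]
      rfl
    | add x y hx hy =>
      obtain ⟨a, rfl⟩ := hx
      obtain ⟨b, rfl⟩ := hy
      refine ⟨a + b, ?_⟩
      rw [Finsupp.sum_add_index' (by simp) (by intro j x y; rw [TensorProduct.add_tmul])]
  have hinj : Function.Injective Φ := by
    rw [injective_iff_map_eq_zero]
    intro z hz
    obtain ⟨a, rfl⟩ := hrepr z
    have hcoef : ∀ n : ℤ, (a.sum fun j x => ((red x).coeff n) • 𝓑 j) = 0 := by
      intro n
      have := congrArg (fun s => HahnSeries.coeff s n) hz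
      simp only [HahnSeries.coeff_zero] at this
      rw [← this, Finsupp.sum, Finsupp.sum, map_sum, HahnSeries.coeff_sum]
      refine Finset.sum_congr rfl fun j _ => ?_
      have h1 : Φ (a j ⊗ₜ[R] 𝓑 j) =
          HahnSeries.C (𝓑 j) * ModularCurve.coeffMap (algebraMap (ZMod ℓ) K) (red (a j)) := by
        rw [mul_comm]
        exact Algebra.TensorProduct.productMap_apply_tmul φA φK (a j) (𝓑 j)
      rw [h1, HahnSeries.C_mul_eq_smul, HahnSeries.coeff_smul, ModularCurve.coeffMap_coeff,
        Algebra.smul_def, smul_eq_mul, mul_comm]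
    have hred : ∀ j, red (a j) = 0 := by
      intro j
      ext n
      have hli := 𝓑.linearIndependent
      rw [linearIndependent_iff] at hli
      have := hli (a.mapRange (fun x => (red x).coeff n) (by simp)) (by
        rw [Finsupp.linearCombination_apply, Finsupp.sum_mapRange_index (by simp)]
        exact hcoef n)
      have h2 := DFunLike.congr_fun this j
      simpa using h2
    rw [Finsupp.sum]
    refine Finset.sum_eq_zero fun j _ => ?_
    obtain ⟨a', ha'⟩ := hker (a j) (hred j)
    rw [ha', hnat, CharP.cast_eq_zero K ℓ, zero_mul, TensorProduct.tmul_zero]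
  exact hinj.isDomain Φ

end Fermat.Agent.S28lib
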