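import Fermat.Agent.S28.Key
import Fermat.Agent.S28.FRel
import Fermat.Agent.S28.FKernel
import Fermat.Agent.S28.FTensor

/-!
# S28 library, task F: commutative algebra.  `chartAlg ⊗ K` is a domain.
-/

set_option autoImplicit false

open ModularCurve ModularCurve.IgusaScheme Polynomial
open scoped TensorProduct

namespace Fermat.Agent.S28lib

noncomputable section

variable (N : ℕ) [NeZero N] (ℓ : ℕ) [Fact ℓ.Prime]

/-- `Lam ∩ F` as a subring of the function field `F` -/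
def LamF : Subring ↥(modularFunctionFieldFull N) :=
  (Lam ℓ).comap (algebraMap ↥(modularFunctionFieldFull N) (LaurentSeries ℚ))

omit [NeZero N] in
theorem mem_LamF_iff {x : ↥(modularFunctionFieldFull N)} :
    x ∈ LamF N ℓ ↔ (x : LaurentSeries ℚ) ∈ Lam ℓ := Iff.rfl

omit [NeZero N] in
theorem ιQ_mem_full_of_mem_adjoin {b : LaurentSeries ℤ} (hb : b ∈ Algebra.adjoin ℤ (jSet ℤ N)) :
    ιQ b ∈ modularFunctionFieldFull N := by
  induction hb using Algebra.adjoin_induction with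
  | mem x hx =>
    obtain ⟨d, hd0, hd, rfl⟩ := hx
    rw [coeffMap_qExpand, coeffMap_jqModC]
    exact jqd_mem_full N hd
  | algebraMap a =>
    rw [eq_intCast, map_intCast]
    exact intCast_mem _ a
  | add x y _ _ hx hy => rw [map_add]; exact add_mem hx hy
  | mul x y _ _ hx hy => rw [map_mul]; exact mul_mem hx hy

theorem ρL_intCast_ne_zero {d : ℤ} (hd : ¬ (ℓ : ℤ) ∣ d) : ρL ℓ (d : LaurentSeries ℤ) ≠ 0 := by
  rw [map_intCast, ← map_intCast (HahnSeries.C : ZMod ℓ →+* LaurentSeries (ZMod ℓ))]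
  intro h
  apply hd
  rw [← ZMod.intCast_zmod_eq_zero_iff_dvd]
  exact HahnSeries.C_injective (by rw [h, map_zero])

omit [NeZero N] in
theorem algebraMap_mem_LamF (r : ↥(GaloisRep.ratLocalizedAt ℓ)) :
    algebraMap ↥(GaloisRep.ratLocalizedAt ℓ) ↥(modularFunctionFieldFull N) r ∈ LamF N ℓ := by
  obtain ⟨m, d, hd, h⟩ := exists_int_mul_eq ℓ r
  rw [mem_LamF_iff, mem_Lam_iff]
  refine ⟨(d : LaurentSeries ℤ), (m : LaurentSeries ℤ), ρL_intCast_ne_zero ℓ hd, ?_⟩
  have h2 := congrArg (fun z => algebraMap ↥(modularFunctionFieldFull N) (LaurentSeries ℚ)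
    (algebraMap ↥(GaloisRep.ratLocalizedAt ℓ) ↥(modularFunctionFieldFull N) z)) h
  simp only [map_mul, map_intCast] at h2
  rw [map_intCast, map_intCast]
  exact h2

theorem coe_jFull_eq : ((jFull N : ↥(modularFunctionFieldFull N)) : LaurentSeries ℚ) = ιQ (jA ℤ) := by
  rw [coeffMap_jqModC]; rfl

theorem jFull_mem_LamF : jFull N ∈ LamF N ℓ := by
  rw [mem_LamF_iff, coe_jFull_eq]
  exact ιQ_mem_Lam ℓ _

theorem ρL_jA_ne_zero : ρL ℓ (jA ℤ) ≠ 0 := by
  rw [coeffMap_jqModC]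
  exact jqModC_ne_zero_of_nontrivial _

theorem jFull_inv_mem_LamF : (jFull N)⁻¹ ∈ LamF N ℓ := by
  rw [mem_LamF_iff]
  have : (((jFull N)⁻¹ : ↥(modularFunctionFieldFull N)) : LaurentSeries ℚ) = (ιQ (jA ℤ))⁻¹ := by
    rw [← coe_jFull_eq N]; rfl
  rw [this]
  exact inv_ιQ_mem_Lam ℓ (ρL_jA_ne_zero ℓ)

omit [NeZero N] in
theorem adjoin_le_LamF {S : Set ↥(modularFunctionFieldFull N)} (hS : ∀ s ∈ S, s ∈ LamF N ℓ)
    {x : ↥(modularFunctionFieldFull N)} (hx : x ∈ Algebra.adjoin ↥(GaloisRep.ratLocalizedAt ℓ) S) :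
    x ∈ LamF N ℓ := by
  induction hx using Algebra.adjoin_induction with
  | mem x hx => exact hS x hx
  | algebraMap a => exact algebraMap_mem_LamF N ℓ a
  | add x y _ _ hx hy => exact add_mem hx hy
  | mul x y _ _ hx hy => exact mul_mem hx hy

/-- the data coming from `key_charL` -/
structure BData where
  b : Fin (dedekindPsi N) → LaurentSeries ℤ
  hbF : ∀ i, ιQ (b i) ∈ modularFunctionFieldFull N
  hind : JIndep (ZMod ℓ) (fun i => ρL ℓ (b i))

theorem nonempty_bData (hℓN : ¬ ℓ ∣ N) : Nonempty (BData N ℓ) := by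
  obtain ⟨b, hb, hind⟩ := key_charL N ℓ hℓN
  exact ⟨⟨b, fun i => ιQ_mem_full_of_mem_adjoin N (hb i), hind⟩⟩

variable {N ℓ}

theorem chartAlg_le_LamF (D : BData N ℓ) {S : Set ↥(modularFunctionFieldFull N)}
    (hS : ∀ s ∈ S, s ∈ LamF N ℓ) {x : ↥(modularFunctionFieldFull N)} (hx : x ∈ chartAlg N ℓ S) :
    x ∈ LamF N ℓ := by
  rw [mem_chartAlg_iff] at hx
  let φ : ↥(Algebra.adjoin ↥(GaloisRep.ratLocalizedAt ℓ) S) →+* ↥(Lam ℓ) :=
    ((algebraMap ↥(modularFunctionFieldFull N) (LaurentSeries ℚ)).comp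
      (algebraMap ↥(Algebra.adjoin ↥(GaloisRep.ratLocalizedAt ℓ) S)
        ↥(modularFunctionFieldFull N))).codRestrict (Lam ℓ)
      (fun z => adjoin_le_LamF N ℓ hS z.2)
  have hint : IsIntegral ↥(Lam ℓ) (x : LaurentSeries ℚ) :=
    hx.map_of_comp_eq φ (algebraMap ↥(modularFunctionFieldFull N) (LaurentSeries ℚ)) (by ext; rfl)
  rcases dichotomy ℓ D.hbF D.hind x.2 with h | ⟨a, ha, h, hred⟩
  · exact h
  · exact absurd hint (not_isIntegral_Lam ℓ ha h hred)

/-- the `b_i` as elements of the function field -/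
def BData.bF (D : BData N ℓ) (i : Fin (dedekindPsi N)) : ↥(modularFunctionFieldFull N) :=
  ⟨ιQ (D.b i), D.hbF i⟩

omit [NeZero N] in
theorem BData.bF_mem (D : BData N ℓ) (i : Fin (dedekindPsi N)) : D.bF i ∈ LamF N ℓ :=
  ιQ_mem_Lam ℓ _

variable (N) in
theorem coe_aeval_jFull (P : ℤ[X]) :
    ((aeval (jFull N) P : ↥(modularFunctionFieldFull N)) : LaurentSeries ℚ) = ιQ (evZ P) := by
  have : ((algebraMap ↥(modularFunctionFieldFull N) (LaurentSeries ℚ)).comp
      (aeval (jFull N) : ℤ[X] →ₐ[ℤ] ↥(modularFunctionFieldFull N)).toRingHom) =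
      ιQ.comp (evY ℤ (jA ℤ)) := by
    apply Polynomial.ringHom_ext
    · intro a
      simp [evY]
    · simp only [RingHom.comp_apply, AlgHom.toRingHom_eq_coe, RingHom.coe_coe, aeval_X, evY,
        coe_eval₂RingHom, eval₂_X]
      exact coe_jFull_eq N
  exact congrArg (fun g => g P) this

theorem hasRel_jFull (D : BData N ℓ) : HasRel ℓ (LamF N ℓ) D.bF (jFull N) := by
  intro z hz
  obtain ⟨P, Q, hP, hrel⟩ := exists_rel_of_mem_Lam ℓ D.hbF D.hind z.2 hz
  refine ⟨P, Q, hP, Subtype.ext ?_⟩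
  have h1 : ((aeval (jFull N) P * z : ↥(modularFunctionFieldFull N)) : LaurentSeries ℚ) =
      ιQ (evZ P) * (z : LaurentSeries ℚ) := by
    rw [← coe_aeval_jFull N]; rfl
  have h2 : ((∑ i, aeval (jFull N) (Q i) * D.bF i : ↥(modularFunctionFieldFull N)) :
      LaurentSeries ℚ) = ιQ (∑ i, evZ (Q i) * D.b i) := by
    rw [map_sum]
    rw [← IntermediateField.algebraMap_apply, map_sum]
    refine Finset.sum_congr rfl fun i _ => ?_
    rw [map_mul, map_mul, ← coe_aeval_jFull N]; rfl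
  rw [h1, h2, hrel]

variable (N ℓ) in
theorem transcendental_jFull : Transcendental ↥(GaloisRep.ratLocalizedAt ℓ) (jFull N) := by
  rw [transcendental_iff]
  intro p hp
  have key : ((algebraMap ↥(modularFunctionFieldFull N) (LaurentSeries ℚ)).comp
      (aeval (jFull N) : (↥(GaloisRep.ratLocalizedAt ℓ))[X] →ₐ[↥(GaloisRep.ratLocalizedAt ℓ)]
        ↥(modularFunctionFieldFull N)).toRingHom) =
      (evY ℚ (jA ℚ)).comp (mapRingHom (algebraMap ↥(GaloisRep.ratLocalizedAt ℓ) ℚ)) := by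
    apply Polynomial.ringHom_ext
    · intro a
      simp only [RingHom.comp_apply, AlgHom.toRingHom_eq_coe, RingHom.coe_coe, aeval_C, evY,
        coe_mapRingHom, map_C, coe_eval₂RingHom, eval₂_C]
      rw [IsScalarTower.algebraMap_apply ↥(GaloisRep.ratLocalizedAt ℓ) ℚ
        ↥(modularFunctionFieldFull N)]
      exact congrArg (fun f : ℚ →+* LaurentSeries ℚ => f _)
        (RingHom.ext_rat ((algebraMap ↥(modularFunctionFieldFull N) (LaurentSeries ℚ)).comp
          (algebraMap ℚ ↥(modularFunctionFieldFull N))) HahnSeries.C)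
    · simp only [RingHom.comp_apply, AlgHom.toRingHom_eq_coe, RingHom.coe_coe, aeval_X, evY,
        coe_mapRingHom, map_X, coe_eval₂RingHom, eval₂_X]
      rfl
  have h1 := congrArg (fun g => g p) key
  simp only [RingHom.comp_apply, AlgHom.toRingHom_eq_coe, RingHom.coe_coe, hp, map_zero] at h1
  have h2 : mapRingHom (algebraMap ↥(GaloisRep.ratLocalizedAt ℓ) ℚ) p = 0 :=
    evY_jA_injective (K := ℚ) (by rw [← h1, map_zero])
  exact Polynomial.map_injective (algebraMap ↥(GaloisRep.ratLocalizedAt ℓ) ℚ)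
    (FaithfulSMul.algebraMap_injective ↥(GaloisRep.ratLocalizedAt ℓ) ℚ)
    (by rw [Polynomial.map_zero]; exact h2)

variable (N ℓ) in
theorem transcendental_jFull_inv : Transcendental ↥(GaloisRep.ratLocalizedAt ℓ) (jFull N)⁻¹ :=
  fun h => transcendental_jFull N ℓ (IsAlgebraic.inv_iff.mp h)

/-- the kernel statement for `S = {t}`, `t = j` or `t = 1/j` -/
theorem mem_chartAlg_singleton_of_mul (D : BData N ℓ) {t : ↥(modularFunctionFieldFull N)}
    (ht : t = jFull N ∨ t = (jFull N)⁻¹) {y : ↥(modularFunctionFieldFull N)} (hy : y ∈ LamF N ℓ)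
    (hly : ((ℓ : ℕ) : ↥(modularFunctionFieldFull N)) * y ∈ chartAlg N ℓ {t}) :
    y ∈ chartAlg N ℓ {t} := by
  rw [mem_chartAlg_iff] at hly ⊢
  rcases ht with rfl | rfl
  · exact isIntegral_of_hasRel (LamF N ℓ) D.bF D.bF_mem (transcendental_jFull N ℓ)
      (hasRel_jFull D) hy hly
  · exact isIntegral_of_hasRel (LamF N ℓ) D.bF D.bF_mem (transcendental_jFull_inv N ℓ)
      ((hasRel_jFull D).inv (jFull_ne_zero N)) hy hly

/-- the kernel statement for the three charts -/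
theorem mem_chartAlg_of_mul (D : BData N ℓ) {S : Set ↥(modularFunctionFieldFull N)}
    (hS : S = {jFull N} ∨ S = {(jFull N)⁻¹} ∨ S = {jFull N, (jFull N)⁻¹})
    {y : ↥(modularFunctionFieldFull N)} (hy : y ∈ LamF N ℓ)
    (hly : ((ℓ : ℕ) : ↥(modularFunctionFieldFull N)) * y ∈ chartAlg N ℓ S) :
    y ∈ chartAlg N ℓ S := by
  rcases hS with rfl | rfl | rfl
  · exact mem_chartAlg_singleton_of_mul D (Or.inl rfl) hy hly
  · exact mem_chartAlg_singleton_of_mul D (Or.inr rfl) hy hly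
  · have hly' : ((ℓ : ℕ) : ↥(modularFunctionFieldFull N)) * y ∈
        chartAlg N ℓ (insert (jFull N)⁻¹ {jFull N}) := by
      rw [Set.pair_comm]; exact hly
    obtain ⟨n, hn⟩ := exists_pow_mul_mem_chartAlg (Set.mem_singleton _) (jFull_ne_zero N) hly'
    have h1 : (jFull N) ^ n * y ∈ chartAlg N ℓ {jFull N} := by
      refine mem_chartAlg_singleton_of_mul D (Or.inl rfl)
        (mul_mem (pow_mem (jFull_mem_LamF N ℓ) n) hy) ?_
      have : ((ℓ : ℕ) : ↥(modularFunctionFieldFull N)) * ((jFull N) ^ n * y) =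
          (jFull N) ^ n * (((ℓ : ℕ) : ↥(modularFunctionFieldFull N)) * y) := by ring
      rw [this]; exact hn
    have h2 : (jFull N) ^ n * y ∈ chartAlg N ℓ {jFull N, (jFull N)⁻¹} :=
      chartAlg_mono N ℓ (sFin_subset N) h1
    have h3 : (jFull N)⁻¹ ∈ chartAlg N ℓ {jFull N, (jFull N)⁻¹} :=
      subset_chartAlg N ℓ _ (by simp)
    have h4 : y = ((jFull N)⁻¹) ^ n * ((jFull N) ^ n * y) := by
      rw [← mul_assoc, ← mul_pow, inv_mul_cancel₀ (jFull_ne_zero N), one_pow, one_mul]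
    rw [h4]
    exact mul_mem (pow_mem h3 n) h2

variable (N ℓ)

/-- **Task F.** -/
theorem isDomain_chartAlg_tensor (hℓN : ¬ ℓ ∣ N)
    (K : Type) [Field K] [CharP K ℓ] [Algebra ↥(GaloisRep.ratLocalizedAt ℓ) K]
    (S : Set ↥(modularFunctionFieldFull N))
    (hS : S = {jFull N} ∨ S = {(jFull N)⁻¹} ∨ S = {jFull N, (jFull N)⁻¹}) :
    IsDomain (↥(chartAlg N ℓ S) ⊗[↥(GaloisRep.ratLocalizedAt ℓ)] K) := by
  obtain ⟨D⟩ := nonempty_bData N ℓ hℓN
  have hSL : ∀ s ∈ S, s ∈ LamF N ℓ := by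
    rcases hS with rfl | rfl | rfl
    · rintro s rfl; exact jFull_mem_LamF N ℓ
    · rintro s rfl; exact jFull_inv_mem_LamF N ℓ
    · rintro s (rfl | rfl)
      · exact jFull_mem_LamF N ℓ
      · exact jFull_inv_mem_LamF N ℓ
  let φ : ↥(chartAlg N ℓ S) →+* ↥(Lam ℓ) :=
    ((algebraMap ↥(modularFunctionFieldFull N) (LaurentSeries ℚ)).comp
      (algebraMap ↥(chartAlg N ℓ S) ↥(modularFunctionFieldFull N))).codRestrict (Lam ℓ)
      (fun z => chartAlg_le_LamF D hSL z.2)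
  refine isDomain_tensor_of_red ℓ K ((red ℓ).comp φ) ?_
  intro a ha
  obtain ⟨x', hx'⟩ := exists_eq_mul_of_red_eq_zero ℓ (x := φ a) ha
  have hℓ : ((ℓ : ℕ) : ↥(modularFunctionFieldFull N)) ≠ 0 :=
    Nat.cast_ne_zero.mpr (Fact.out : ℓ.Prime).ne_zero
  set y : ↥(modularFunctionFieldFull N) :=
    ((ℓ : ℕ) : ↥(modularFunctionFieldFull N))⁻¹ * (a : ↥(modularFunctionFieldFull N)) with hy
  have hay : ((ℓ : ℕ) : ↥(modularFunctionFieldFull N)) * y = a := by
    rw [hy, mul_inv_cancel_left₀ hℓ]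
  have hyx : (y : LaurentSeries ℚ) = (x' : LaurentSeries ℚ) := by
    have h1 : ((a : ↥(modularFunctionFieldFull N)) : LaurentSeries ℚ) =
        ((ℓ : ℕ) : LaurentSeries ℚ) * (x' : LaurentSeries ℚ) := by
      have := congrArg Subtype.val hx'
      rw [Subring.coe_mul, Subring.coe_natCast] at this
      exact this
    have h2 : ((a : ↥(modularFunctionFieldFull N)) : LaurentSeries ℚ) =
        ((ℓ : ℕ) : LaurentSeries ℚ) * (y : LaurentSeries ℚ) := by
      rw [← hay]; simp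
    exact mul_left_cancel₀ (natCast_laurent_ne_zero (Fact.out : ℓ.Prime).ne_zero)
      (h2.symm.trans h1)
  have hyL : y ∈ LamF N ℓ := by
    rw [mem_LamF_iff, hyx]; exact x'.2
  have hyA : y ∈ chartAlg N ℓ S := mem_chartAlg_of_mul D hS hyL (by rw [hay]; exact a.2)
  refine ⟨⟨y, hyA⟩, Subtype.ext ?_⟩
  rw [Subalgebra.coe_mul, show (((ℓ : ℕ) : ↥(chartAlg N ℓ S)) : ↥(modularFunctionFieldFull N)) =
    ((ℓ : ℕ) : ↥(modularFunctionFieldFull N)) from map_natCast (chartAlg N ℓ S).val ℓ]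
  exact hay.symm

end

end Fermat.Agent.S28lib
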