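import Mathlib
import Fermat.Prelude.Def_ModularCurve_IgusaScheme

/-!
# S28 library, task G: reduction of the integrality of the fibre of the Igusa scheme to
three facts on tensor products of the chart algebras.
-/

set_option autoImplicit false

open AlgebraicGeometry CategoryTheory CategoryTheory.Limits TopologicalSpace
open ModularCurve ModularCurve.IgusaScheme
open scoped TensorProduct

noncomputable section

namespace Fermat.Agent.S28lib

/-- A scheme covered by two integral open subschemes which meet is integral. -/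
theorem isIntegral_of_two_charts {Y U V : Scheme.{0}} (i : U ⟶ Y) (j : V ⟶ Y)
    [IsOpenImmersion i] [IsOpenImmersion j] [IsIntegral U] [IsIntegral V]
    (hcov : ∀ y : Y, y ∈ Set.range i ∨ y ∈ Set.range j)
    (hne : ∃ y : Y, y ∈ Set.range i ∧ y ∈ Set.range j) : IsIntegral Y := by
  -- the cover
  let obj : Bool → Scheme.{0} := fun b => match b with
    | true => U
    | false => V
  let map : (b : Bool) → obj b ⟶ Y := fun b => match b with
    | true => i
    | false => j
  have hmap : ∀ b, IsOpenImmersion (map b) := by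
    intro b; cases b
    · exact inferInstanceAs (IsOpenImmersion j)
    · exact inferInstanceAs (IsOpenImmersion i)
  have hint : ∀ b, IsIntegral (obj b) := by
    intro b; cases b
    · exact inferInstanceAs (IsIntegral V)
    · exact inferInstanceAs (IsIntegral U)
  let 𝒰 : Y.OpenCover := Scheme.Cover.mkOfCovers Bool obj map
    (by
      intro y
      rcases hcov y with ⟨x, hx⟩ | ⟨x, hx⟩
      · exact ⟨true, x, hx⟩
      · exact ⟨false, x, hx⟩) hmap
  have hred : IsReduced Y := by
    have : ∀ b, IsReduced (𝒰.X b) := fun b => by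
      have := hint b
      exact inferInstanceAs (IsReduced (obj b))
    exact IsReduced.of_openCover Y 𝒰
  have hirr : IrreducibleSpace Y := by
    let W : Bool → Opens Y := fun b => (map b).opensRange
    have hW : ∀ b, IsPreirreducible ((W b : Opens Y) : Set Y) := by
      intro b
      have := hint b
      have h1 : IsIrreducible (Set.univ : Set (obj b)) := IrreducibleSpace.isIrreducible_univ _
      have h2 := h1.image (map b) (map b).continuous.continuousOn
      rw [Set.image_univ] at h2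
      exact h2.isPreirreducible
    have hn : Pairwise (Function.onFun (fun a b : Opens Y => ¬ Disjoint a b) W) := by
      obtain ⟨y, hy1, hy2⟩ := hne
      intro a b hab
      have key : ¬ Disjoint (W true) (W false) := by
        intro hd
        have := (Opens.coe_disjoint.mpr hd)
        exact Set.disjoint_left.mp this hy1 hy2
      cases a <;> cases b
      · exact absurd rfl hab
      · exact fun hd => key hd.symm
      · exact key
      · exact absurd rfl hab
    have hpre : IsPreirreducible (Set.univ : Set Y) := by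
      refine IsPreirreducible.of_subset_iUnion hn hW isOpen_univ ?_
      intro y _
      rw [Set.mem_iUnion]
      rcases hcov y with h | h
      · exact ⟨true, h⟩
      · exact ⟨false, h⟩
    have : PreirreducibleSpace Y := ⟨hpre⟩
    obtain ⟨y, -, -⟩ := hne
    exact { toNonempty := ⟨y⟩ }
  exact isIntegral_of_irreducibleSpace_of_isReduced Y

section Igusa

variable (N : ℕ) [NeZero N] (ℓ : ℕ) [Fact ℓ.Prime]
variable (K : Type) [Field K] [Algebra ↥(GaloisRep.ratLocalizedAt ℓ) K]

/-- The structure map `Spec K ⟶ Spec ℤ_(ℓ)`. -/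
abbrev gK : Spec (CommRingCat.of K) ⟶ Spec (CommRingCat.of ↥(GaloisRep.ratLocalizedAt ℓ)) :=
  Spec.map (CommRingCat.ofHom (algebraMap ↥(GaloisRep.ratLocalizedAt ℓ) K))

/-- The chart of the fibre coming from the finite chart. -/
abbrev yFin : pullback (Spec.map (CommRingCat.ofHom
      (algebraMap ↥(GaloisRep.ratLocalizedAt ℓ) (chartAlgFin N ℓ)))) (gK ℓ K) ⟶
    pullback (igusaTo N ℓ) (gK ℓ K) :=
  pullback.map _ _ _ _ (ιFin N ℓ) (𝟙 _) (𝟙 _) (by simp) (by simp)

/-- The chart of the fibre coming from the chart at infinity. -/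
abbrev yInf : pullback (Spec.map (CommRingCat.ofHom
      (algebraMap ↥(GaloisRep.ratLocalizedAt ℓ) (chartAlgInf N ℓ)))) (gK ℓ K) ⟶
    pullback (igusaTo N ℓ) (gK ℓ K) :=
  pullback.map _ _ _ _ (ιInf N ℓ) (𝟙 _) (𝟙 _) (by simp) (by simp)

theorem isIntegral_pullback_igusaTo
    (hFin : IsDomain (↥(chartAlgFin N ℓ) ⊗[↥(GaloisRep.ratLocalizedAt ℓ)] K))
    (hInf : IsDomain (↥(chartAlgInf N ℓ) ⊗[↥(GaloisRep.ratLocalizedAt ℓ)] K))
    (hMid : Nontrivial (↥(chartAlgMid N ℓ) ⊗[↥(GaloisRep.ratLocalizedAt ℓ)] K)) :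
    IsIntegral ↑(pullback (igusaTo N ℓ)
      (Spec.map (CommRingCat.ofHom (algebraMap ↥(GaloisRep.ratLocalizedAt ℓ) K)))) := by
  have iFin : IsIntegral (pullback (Spec.map (CommRingCat.ofHom
      (algebraMap ↥(GaloisRep.ratLocalizedAt ℓ) (chartAlgFin N ℓ)))) (gK ℓ K)) := by
    have : IsIntegral (Spec (CommRingCat.of
        (↥(chartAlgFin N ℓ) ⊗[↥(GaloisRep.ratLocalizedAt ℓ)] K))) := inferInstance
    exact IsIntegral.of_isIso
      (pullbackSpecIso ↥(GaloisRep.ratLocalizedAt ℓ) ↥(chartAlgFin N ℓ) K).inv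
  have iInf : IsIntegral (pullback (Spec.map (CommRingCat.ofHom
      (algebraMap ↥(GaloisRep.ratLocalizedAt ℓ) (chartAlgInf N ℓ)))) (gK ℓ K)) := by
    have : IsIntegral (Spec (CommRingCat.of
        (↥(chartAlgInf N ℓ) ⊗[↥(GaloisRep.ratLocalizedAt ℓ)] K))) := inferInstance
    exact IsIntegral.of_isIso
      (pullbackSpecIso ↥(GaloisRep.ratLocalizedAt ℓ) ↥(chartAlgInf N ℓ) K).inv
  refine isIntegral_of_two_charts (yFin N ℓ K) (yInf N ℓ K) ?_ ?_
  · intro y
    rw [Scheme.Pullback.range_map, Scheme.Pullback.range_map]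
    rcases mem_range_ιFin_or_mem_range_ιInf N ℓ (pullback.fst (igusaTo N ℓ) (gK ℓ K) y) with h | h
    · left
      exact ⟨h, ⟨_, rfl⟩⟩
    · right
      exact ⟨h, ⟨_, rfl⟩⟩
  · -- a point of the middle chart
    have hne : Nonempty (Spec (CommRingCat.of
        (↥(chartAlgMid N ℓ) ⊗[↥(GaloisRep.ratLocalizedAt ℓ)] K))) :=
      inferInstanceAs (Nonempty (PrimeSpectrum _))
    obtain ⟨z⟩ := hne
    have e₁ : Spec.map (CommRingCat.ofHom
        (algebraMap ↥(GaloisRep.ratLocalizedAt ℓ) (chartAlgMid N ℓ))) ≫ 𝟙 _ =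
        (fFin N ℓ ≫ ιFin N ℓ) ≫ igusaTo N ℓ := by
      rw [Category.comp_id, Category.assoc, ιFin_igusaTo, ← Spec.map_comp,
        ← CommRingCat.ofHom_comp]
      congr 2
    let yMid : pullback (Spec.map (CommRingCat.ofHom
        (algebraMap ↥(GaloisRep.ratLocalizedAt ℓ) (chartAlgMid N ℓ)))) (gK ℓ K) ⟶
        pullback (igusaTo N ℓ) (gK ℓ K) :=
      pullback.map _ _ _ _ (fFin N ℓ ≫ ιFin N ℓ) (𝟙 _) (𝟙 _) e₁ (by simp)
    obtain ⟨z', -⟩ : ∃ z', z' =
        (pullbackSpecIso ↥(GaloisRep.ratLocalizedAt ℓ) ↥(chartAlgMid N ℓ) K).inv z := ⟨_, rfl⟩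
    let pMid := pullback.fst (Spec.map (CommRingCat.ofHom
        (algebraMap ↥(GaloisRep.ratLocalizedAt ℓ) (chartAlgMid N ℓ)))) (gK ℓ K)
    have hfst : yMid ≫ pullback.fst (igusaTo N ℓ) (gK ℓ K) = pMid ≫ fFin N ℓ ≫ ιFin N ℓ :=
      pullback.lift_fst _ _ _
    have hpt : (pullback.fst (igusaTo N ℓ) (gK ℓ K)) (yMid z') =
        ιFin N ℓ (fFin N ℓ (pMid z')) := by
      rw [← Scheme.Hom.comp_apply, hfst, Scheme.Hom.comp_apply, Scheme.Hom.comp_apply]
    have hpt' : (pullback.fst (igusaTo N ℓ) (gK ℓ K)) (yMid z') =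
        ιInf N ℓ (fInf N ℓ (pMid z')) := by
      rw [← Scheme.Hom.comp_apply, hfst, glue_condition, Scheme.Hom.comp_apply,
        Scheme.Hom.comp_apply]
    refine ⟨yMid z', ?_, ?_⟩
    · rw [Scheme.Pullback.range_map]
      exact ⟨⟨_, hpt.symm⟩, ⟨_, rfl⟩⟩
    · rw [Scheme.Pullback.range_map]
      exact ⟨⟨_, hpt'.symm⟩, ⟨_, rfl⟩⟩

end Igusa

end Fermat.Agent.S28lib
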