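import Mathlib
import Fermat.Prelude.Def_ModularCurve_IgusaScheme
import Fermat.Prelude.Def_ModularCurve_X0ModL

/-!
# S28 library: basic definitions (formal `q`-series over an arbitrary commutative ring)
-/

set_option autoImplicit false

open ModularCurve

namespace Fermat.Agent.S28lib

noncomputable section

variable (A : Type*) [CommRing A]

/-- `j(q)` with coefficients in `A` -/
abbrev jA : LaurentSeries A := jqModC A

/-- `j(q^d)` with coefficients in `A` -/
abbrev jAd (d : ℕ) [NeZero d] : LaurentSeries A := qExpand A d (jqModC A)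

/-- `Δ(q) = q ∏ (1 - q^n)^24` with coefficients in `A` -/
def delta : LaurentSeries A :=
  HahnSeries.single (1 : ℤ) 1 *
    HahnSeries.ofPowerSeries ℤ A (dedekindEtaUnit.map (Int.castRingHom A))

/-- `1 / Δ(q)` with coefficients in `A` -/
def deltaInv : LaurentSeries A :=
  HahnSeries.single (-1 : ℤ) 1 *
    HahnSeries.ofPowerSeries ℤ A (dedekindEtaUnitInv.map (Int.castRingHom A))

/-- `Δ(q^p) / Δ(q)` -/
def uA (p : ℕ) [NeZero p] : LaurentSeries A := qExpand A p (delta A) * deltaInv A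

/-- `Δ(q) / Δ(q^p)` -/
def uAinv (p : ℕ) [NeZero p] : LaurentSeries A := delta A * qExpand A p (deltaInv A)

/-- evaluation `A[Y] → A((q))`, `Y ↦ y` -/
def evY (y : LaurentSeries A) : Polynomial A →+* LaurentSeries A :=
  Polynomial.eval₂RingHom (HahnSeries.C : A →+* LaurentSeries A) y

variable {A}

/-- `P(x, y)` for `P ∈ A[Y][X]` -/
def ev2 (P : Polynomial (Polynomial A)) (x y : LaurentSeries A) : LaurentSeries A :=
  P.eval₂ (evY A y) x

variable (A)

/-- The modular data of prime level `p` over `A`: the modular polynomial `Φ`, the polynomial `Ψ` of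
the modular unit `p^12 Δ(q^p)/Δ(q)`, and the interpolation polynomial `G` expressing the unit
rationally in `j(q), j(q^p)`. -/
structure ModData (p : ℕ) [NeZero p] where
  Φ : Polynomial (Polynomial A)
  Ψ : Polynomial (Polynomial A)
  G : Polynomial (Polynomial A)
  Φ_monic : Φ.Monic
  Φ_natDegree : Φ.natDegree = p + 1
  Φ_ev₁ : ev2 Φ (jAd A p) (jA A) = 0
  Φ_ev₂ : ev2 Φ (jA A) (jAd A p) = 0
  Ψ_monic : Ψ.Monic
  Ψ_natDegree : Ψ.natDegree = p + 1
  Ψ_ev₁ : ev2 Ψ (HahnSeries.C ((p : A) ^ 12) * uA A p) (jA A) = 0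
  Ψ_ev₂ : ev2 Ψ (uAinv A p) (jAd A p) = 0
  G_natDegree : G.natDegree ≤ p
  G_ev₁ : ev2 G (jAd A p) (jA A) =
    HahnSeries.C ((p : A) ^ 12) * uA A p * ev2 (Polynomial.derivative Φ) (jAd A p) (jA A)
  G_ev₂ : ev2 G (jA A) (jAd A p) =
    uAinv A p * ev2 (Polynomial.derivative Φ) (jA A) (jAd A p)

end

end Fermat.Agent.S28lib
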