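import Fermat.Agent.S28.Tower

/-!
# S28 library, task D2: the adjunction step
-/

set_option autoImplicit false

open ModularCurve Polynomial

namespace Fermat.Agent.S28lib

noncomputable section

universe u

variable {K : Type u} [Field K]

theorem dvd_of_dvd_mul_prime_of_ne {N p i M r s : ℕ} (hp : p.Prime) (hNM : N = p ^ i * M)
    (hpM : ¬ p ∣ M) (hr : r.Prime) (h : r ^ s ∣ N * p) (hne : r ^ s ≠ p ^ (i + 1)) : r ^ s ∣ N := by
  by_cases hrp : r = p
  · subst hrp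
    have hcop : Nat.Coprime (r ^ s) M := Nat.Coprime.pow_left s ((Nat.Prime.coprime_iff_not_dvd hp).2 hpM)
    have h1 : r ^ s ∣ r ^ (i + 1) * M := by
      have : N * r = r ^ (i + 1) * M := by rw [hNM]; ring
      rwa [this] at h
    have h2 : r ^ s ∣ r ^ (i + 1) := hcop.dvd_of_dvd_mul_right h1
    have h3 : s ≤ i + 1 := (Nat.pow_dvd_pow_iff_le_right hp.one_lt).1 h2
    have h4 : s ≠ i + 1 := fun h => hne (by rw [h])
    rw [hNM]
    exact Dvd.dvd.mul_right (pow_dvd_pow r (by omega)) M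
  · have hcop : Nat.Coprime (r ^ s) p :=
      Nat.Coprime.pow_left s ((Nat.coprime_primes hr hp).2 hrp)
    exact hcop.dvd_of_dvd_mul_right h

theorem not_pow_succ_dvd {N p i M : ℕ} (hp : p.Prime) (hNM : N = p ^ i * M)
    (hpM : ¬ p ∣ M) : ¬ p ^ (i + 1) ∣ N := by
  intro h
  rw [hNM, pow_succ] at h
  exact hpM (Nat.dvd_of_mul_dvd_mul_left (pow_pos hp.pos i) h)

theorem jSet_mono (A : Type*) [CommRing A] {N N' : ℕ} (h : N ∣ N') : jSet A N ⊆ jSet A N' := by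
  rintro x ⟨d, hd, hdN, rfl⟩
  exact ⟨d, hd, hdN.trans h, rfl⟩

/-- **D2-adjoin.** The general adjunction step: `N = p^i M`, `Q ∈ E[X]` monic irreducible with root
`j(q^(p^(i+1)))` under `ι` and root `j(t^M)` under `(t ↦ t^p) ∘ τ`. -/
theorem Tow.adjoin {N : ℕ} (T : Tow K N) (hN : N ≠ 0) {p : ℕ} (hp : p.Prime) [NeZero p]
    (i M : ℕ) (hNM : N = p ^ i * M) (hpM : ¬ p ∣ M) (Q : T.E[X]) (hQm : Q.Monic)
    (hQ : Irreducible Q) (hQι : (Q.map T.ι).eval (Jt 1 (p ^ (i + 1))) = 0)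
    (hQτ : (Q.map ((qExpand K p).comp T.τ)).eval (Jt 1 M) = 0)
    (hdeg : dedekindPsi (N * p) = dedekindPsi N * Q.natDegree) : Nonempty (Tow K (N * p)) := by
  haveI : Fact (Irreducible Q) := ⟨hQ⟩
  haveI : Module.Finite T.E (AdjoinRoot Q) := hQm.finite_adjoinRoot
  haveI : Algebra.IsAlgebraic (k0 K) (AdjoinRoot Q) :=
    Algebra.IsAlgebraic.trans (k0 K) T.E (AdjoinRoot Q)
  haveI : NeZero (p ^ (i + 1)) := ⟨pow_ne_zero _ hp.ne_zero⟩
  let ι' : AdjoinRoot Q →+* LaurentSeries K :=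
    AdjoinRoot.lift T.ι (Jt 1 (p ^ (i + 1))) (by rw [eval₂_eq_eval_map]; exact hQι)
  let τ' : AdjoinRoot Q →+* LaurentSeries K :=
    AdjoinRoot.lift ((qExpand K p).comp T.τ) (Jt 1 M) (by rw [eval₂_eq_eval_map]; exact hQτ)
  have hι'of : ∀ e : T.E, ι' (AdjoinRoot.of Q e) = T.ι e := fun e => AdjoinRoot.lift_of _
  have hτ'of : ∀ e : T.E, τ' (AdjoinRoot.of Q e) = qExpand K p (T.τ e) :=
    fun e => AdjoinRoot.lift_of _
  have hι'root : ι' (AdjoinRoot.root Q) = Jt 1 (p ^ (i + 1)) := AdjoinRoot.lift_root _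
  have hτ'root : τ' (AdjoinRoot.root Q) = Jt 1 M := AdjoinRoot.lift_root _
  have halg : ∀ z : k0 K, algebraMap (k0 K) (AdjoinRoot Q) z =
      AdjoinRoot.of Q (algebraMap (k0 K) T.E z) := fun z => rfl
  have hpol : ∀ P : K[X], polTo K (AdjoinRoot Q) P = AdjoinRoot.of Q (polTo K T.E P) :=
    fun P => rfl
  let g' : ℕ → AdjoinRoot Q := fun d =>
    if d = p ^ (i + 1) then AdjoinRoot.root Q else AdjoinRoot.of Q (T.g d)
  have hg'1 : g' (p ^ (i + 1)) = AdjoinRoot.root Q := if_pos rfl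
  have hg'2 : ∀ d, d ≠ p ^ (i + 1) → g' d = AdjoinRoot.of Q (T.g d) := fun d hd => if_neg hd
  let xZ : LaurentSeries ℤ := qExpand ℤ (p ^ (i + 1)) (jqModC ℤ)
  have hxZ : coeffMap (Int.castRingHom K) xZ = Jt 1 (p ^ (i + 1)) := by
    rw [Jt_one_eq, coeffMap_qExpand, coeffMap_jqModC]
  have hb' : ∀ ik : T.I × Fin Q.natDegree,
      coeffMap (Int.castRingHom K) (T.b ik.1 * xZ ^ (ik.2 : ℕ)) =
        coeffMap (Int.castRingHom K) (T.b ik.1) * Jt 1 (p ^ (i + 1)) ^ (ik.2 : ℕ) := fun ik => by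
    rw [map_mul, map_pow, hxZ]
  have hNp : N * p = p ^ (i + 1) * M := by rw [hNM]; ring
  refine ⟨{
    E := AdjoinRoot Q
    ι := ι'
    τ := τ'
    ι_pol := fun P => by rw [hpol, hι'of, T.ι_pol]
    τ_pol := fun P => by rw [hpol, hτ'of, T.τ_pol, qExpand_evY, qExpand_Jt]
    g := g'
    ι_g := ?_
    τ_g := ?_
    gen := ?_
    I := T.I × Fin Q.natDegree
    card_I := by rw [Fintype.card_prod, T.card_I, Fintype.card_fin, hdeg]
    b := fun ik => T.b ik.1 * xZ ^ (ik.2 : ℕ)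
    b_mem := ?_
    b_range := ?_
    b_indep := ?_ }⟩
  · intro r s hr hrs
    by_cases h : r ^ s = p ^ (i + 1)
    · rw [h, hg'1, hι'root]
    · rw [hg'2 _ h, hι'of, T.ι_g r s hr (dvd_of_dvd_mul_prime_of_ne hp hNM hpM hr hrs h)]
  · intro r s hr hrs
    by_cases h : r ^ s = p ^ (i + 1)
    · rw [h, hg'1, hτ'root, hNp, Nat.mul_div_cancel_left _ (pow_pos hp.pos _)]
    · have hd := dvd_of_dvd_mul_prime_of_ne hp hNM hpM hr hrs h
      rw [hg'2 _ h, hτ'of, T.τ_g r s hr hd, qExpand_Jt, Nat.div_mul_right_comm hd]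
  · rw [eq_top_iff]
    set S' : Subfield (AdjoinRoot Q) := Subfield.closure (Set.range (algebraMap (k0 K) (AdjoinRoot Q)) ∪
      {x | ∃ r s : ℕ, r.Prime ∧ r ^ s ∣ N * p ∧ x = g' (r ^ s)}) with hS'
    have hroot : AdjoinRoot.root Q ∈ S' := by
      apply Subfield.subset_closure
      right
      exact ⟨p, i + 1, hp, ⟨M, hNp⟩, hg'1.symm⟩
    have hof : ∀ e : T.E, AdjoinRoot.of Q e ∈ S' := by
      have hle : (⊤ : Subfield T.E) ≤ S'.comap (AdjoinRoot.of Q) := by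
        rw [← T.gen, Subfield.closure_le]
        rintro x (⟨z, rfl⟩ | ⟨r, s, hr, hrs, rfl⟩)
        · apply Subfield.subset_closure
          left
          exact ⟨z, rfl⟩
        · apply Subfield.subset_closure
          right
          refine ⟨r, s, hr, Dvd.dvd.mul_right hrs p, ?_⟩
          rw [hg'2]
          intro h
          exact not_pow_succ_dvd hp hNM hpM (h ▸ hrs)
      exact fun e => hle (Subfield.mem_top e)
    intro x _
    induction x using AdjoinRoot.induction_on with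
    | ih P =>
      rw [← AdjoinRoot.aeval_eq, aeval_eq_sum_range]
      refine Subfield.sum_mem _ fun n _ => ?_
      rw [Algebra.smul_def]
      exact S'.mul_mem (hof _) (S'.pow_mem hroot n)
  · intro ik
    have hx : xZ ∈ jSet ℤ (N * p) := ⟨p ^ (i + 1), inferInstance, ⟨M, hNp⟩, rfl⟩
    exact Subalgebra.mul_mem _ (Algebra.adjoin_mono (jSet_mono ℤ (Dvd.intro p rfl)) (T.b_mem ik.1))
      (Subalgebra.pow_mem _ (Algebra.subset_adjoin hx) _)
  · intro ik
    obtain ⟨β, hβ⟩ := T.b_range ik.1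
    refine ⟨AdjoinRoot.of Q β * AdjoinRoot.root Q ^ (ik.2 : ℕ), ?_⟩
    rw [hb', map_mul, map_pow, hι'of, hι'root, hβ]
  · have : (fun ik : T.I × Fin Q.natDegree =>
        coeffMap (Int.castRingHom K) (T.b ik.1 * xZ ^ (ik.2 : ℕ))) =
        fun ik => coeffMap (Int.castRingHom K) (T.b ik.1) * Jt 1 (p ^ (i + 1)) ^ (ik.2 : ℕ) :=
      funext hb'
    rw [this]
    refine JIndepI.prod T.ι (polTo K T.E) T.ι_pol _ T.b_indep T.b_range _ _ fun P hP hPx => ?_
    have h1 : ι' (AdjoinRoot.mk Q P) = 0 := by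
      rw [AdjoinRoot.lift_mk, eval₂_eq_eval_map, hPx]
    have h2 : AdjoinRoot.mk Q P = 0 := by
      rwa [map_eq_zero] at h1
    exact natDegree_le_of_dvd (AdjoinRoot.mk_eq_zero.1 h2) hP

end

end Fermat.Agent.S28lib
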