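import Fermat.Agent.S28.TowerNotMem
import Fermat.Agent.S28.TowerAdjoin

/-!
# S28 library, task D2: the induction
-/

set_option autoImplicit false

open ModularCurve Polynomial

namespace Fermat.Agent.S28lib

noncomputable section

universe u

variable {K : Type u} [Field K]

theorem specialize_map_qExpand (p : ℕ) [NeZero p] (P : K[X][X]) (y : LaurentSeries K) :
    (specialize P y).map (qExpand K p) = specialize P (qExpand K p y) := by
  rw [← spec_C, spec_map, ← spec_C]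
  congr 1
  ext1 a
  rw [RingHom.comp_apply, qExpand_C]

theorem Tow.spec_map_qτ {N : ℕ} (T : Tow K N) (p : ℕ) [NeZero p] (P : K[X][X]) (y : T.E) :
    (spec (cstTo K T.E) P y).map ((qExpand K p).comp T.τ) =
      specialize P (qExpand K p (T.τ y)) := by
  rw [← Polynomial.map_map, T.spec_map_τ, specialize_map_qExpand]

theorem eval_divByMonic_map {E F : Type*} [Field E] [Field F] (f : E →+* F) (P : E[X]) (y : E)
    (h : P.eval y = 0) (x : F) (hx : (P.map f).eval x = 0) (hne : x ≠ f y) :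
    ((P /ₘ (X - C y)).map f).eval x = 0 := by
  have hmul : (X - C y) * (P /ₘ (X - C y)) = P := mul_divByMonic_eq_iff_isRoot.2 h
  rw [← hmul, Polynomial.map_mul, eval_mul, Polynomial.map_sub, map_X, map_C, eval_sub, eval_X,
    eval_C] at hx
  exact (mul_eq_zero.mp hx).resolve_left (sub_ne_zero.mpr hne)

/-- **D2-step0.** -/
theorem Tow.step_of_not_dvd [IsAlgClosed K] {N : ℕ} (T : Tow K N) (hN : N ≠ 0) {p : ℕ}
    (hp : p.Prime) [NeZero p] (hpN : ¬ p ∣ N) (hpK : (p : K) ≠ 0) (hNK : (N : K) ≠ 0)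
    (D : ModData K p)
    (hD : ∀ (r : ℕ) (hr : r.Prime), r ∣ N → haveI : NeZero r := ⟨hr.ne_zero⟩; Nonempty (ModData K r)) :
    Nonempty (Tow K (N * p)) := by
  have hirr := T.irreducible_Phi hN hp hpN hpK D (T.not_mem hN hp hpN hpK hNK D hD)
  refine T.adjoin hN hp 0 N (by simp) hpN (D.Φ.map (polTo K T.E)) (D.Φ_monic.map _) hirr ?_ ?_ ?_
  · rw [← spec_polTo_X, T.spec_map_ι, T.ι_pol, evY_X, ← Jt_one_one]
    have := Phi_up_Jt D (1 : Kˣ) one_ne_zero
    simpa using this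
  · rw [← spec_polTo_X, T.spec_map_qτ, T.τ_pol, evY_X, qExpand_Jt]
    have := Phi_down_Jt D (1 : Kˣ) hN
    simpa using this
  · rw [D.Φ_monic.natDegree_map, D.Φ_natDegree,
      S20lib.dedekindPsi_mul_prime_of_not_dvd hN hp hpN, mul_comm]

/-- **D2-step1.** -/
theorem Tow.step_of_dvd {N : ℕ} (T : Tow K N) (hN : N ≠ 0) {p : ℕ}
    (hp : p.Prime) [NeZero p] (hpN : p ∣ N) (D : ModData K p) :
    Nonempty (Tow K (N * p)) := by
  obtain ⟨i, M, hpM, hNM⟩ := Nat.exists_eq_pow_mul_and_not_dvd hN p hp.ne_one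
  obtain ⟨i, rfl⟩ : ∃ i', i = i' + 1 := by
    rcases i with _ | i
    · exfalso; apply hpM; simpa [hNM] using hpN
    · exact ⟨i, rfl⟩
  have hM : M ≠ 0 := by rintro rfl; simp at hpM
  have hd1 : p ^ (i + 1) ∣ N := ⟨M, hNM⟩
  have hd0 : p ^ i ∣ N := (pow_dvd_pow p (Nat.le_succ i)).trans hd1
  have hq1 : N / p ^ (i + 1) = M := by
    rw [hNM]; exact Nat.mul_div_cancel_left _ (pow_pos hp.pos _)
  have hq0 : N / p ^ i = M * p := by
    rw [hNM, pow_succ, mul_assoc]
    rw [Nat.mul_div_cancel_left _ (pow_pos hp.pos _), mul_comm]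
  set P : T.E[X] := spec (cstTo K T.E) D.Φ (T.g (p ^ (i + 1))) with hP
  have hPm : P.Monic := spec_monic _ D.Φ_monic _
  have hroot : P.eval (T.g (p ^ i)) = 0 := T.rel_down hp D i hd1
  have hmul : (X - C (T.g (p ^ i))) * (P /ₘ (X - C (T.g (p ^ i)))) = P :=
    mul_divByMonic_eq_iff_isRoot.2 hroot
  have hQm : (P /ₘ (X - C (T.g (p ^ i)))).Monic :=
    Monic.of_mul_monic_left (monic_X_sub_C _) (hmul.symm ▸ hPm)
  have hQd : (P /ₘ (X - C (T.g (p ^ i)))).natDegree = p := by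
    rw [natDegree_divByMonic _ (monic_X_sub_C _), natDegree_X_sub_C, hP,
      spec_natDegree _ D.Φ_monic, D.Φ_natDegree]
    simp
  have hQτ : ((P /ₘ (X - C (T.g (p ^ i)))).map ((qExpand K p).comp T.τ)).eval (Jt 1 M) = 0 := by
    apply eval_divByMonic_map _ _ _ hroot
    · rw [hP, T.spec_map_qτ, T.τ_g p (i + 1) hp hd1, hq1, qExpand_Jt]
      have := Phi_down_Jt D (1 : Kˣ) hM
      simpa using this
    · rw [RingHom.comp_apply, T.τ_g p i hp hd0, hq0, qExpand_Jt]
      intro h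
      have := (Jt_injective hM (mul_ne_zero (mul_ne_zero hM hp.ne_zero) hp.ne_zero) h).2
      have h2 : M * 1 = M * (p * p) := by rw [mul_one, ← mul_assoc]; exact this
      have h3 := Nat.eq_of_mul_eq_mul_left (Nat.pos_of_ne_zero hM) h2
      have := hp.two_le
      nlinarith
  refine T.adjoin hN hp (i + 1) M hNM hpM _ hQm ?_ ?_ hQτ ?_
  · refine irreducible_of_ramified hp ((qExpand K p).comp T.τ) (fun e => ⟨T.τ e, rfl⟩) (Jt 1 M)
      (Jt_ne_zero 1 hM) ?_ _ hQm hQd hQτ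
    rw [order_Jt 1 hM, Int.dvd_neg]
    exact_mod_cast hpM
  · apply eval_divByMonic_map _ _ _ hroot
    · rw [hP, T.spec_map_ι, T.ι_g p (i + 1) hp hd1, pow_succ p (i + 1)]
      have := Phi_up_Jt D (1 : Kˣ) (pow_ne_zero (i + 1) hp.ne_zero)
      simpa using this
    · rw [T.ι_g p i hp hd0]
      intro h
      have := (Jt_injective (pow_ne_zero _ hp.ne_zero) (pow_ne_zero _ hp.ne_zero) h).2
      have := Nat.pow_right_injective hp.two_le this
      omega
  · rw [hQd, S20lib.dedekindPsi_mul_prime_of_dvd hN hp hpN, mul_comm]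

theorem nonempty_tow [IsAlgClosed K] (N : ℕ) (hN0 : N ≠ 0) (hN : (N : K) ≠ 0)
    (hD : ∀ (p : ℕ) (hp : p.Prime), p ∣ N → haveI : NeZero p := ⟨hp.ne_zero⟩; Nonempty (ModData K p)) :
    Nonempty (Tow K N) := by
  induction N using Nat.strong_induction_on with
  | _ N ih =>
    rcases eq_or_ne N 1 with rfl | h1
    · exact nonempty_tow_one
    · have hp : N.minFac.Prime := Nat.minFac_prime h1
      obtain ⟨M, hM⟩ : N.minFac ∣ N := Nat.minFac_dvd N
      set p := N.minFac with hpdef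
      have : NeZero p := ⟨hp.ne_zero⟩
      rw [mul_comm] at hM
      have hM0 : M ≠ 0 := by rintro rfl; simp at hM; exact hN0 hM
      have hMK : (M : K) ≠ 0 := by
        intro h; apply hN; rw [hM]; push_cast; rw [h, zero_mul]
      have hpK : (p : K) ≠ 0 := by
        intro h; apply hN; rw [hM]; push_cast; rw [h, mul_zero]
      have hlt : M < N := by
        rw [hM]; exact lt_mul_of_one_lt_right (Nat.pos_of_ne_zero hM0) hp.one_lt
      have hDM : ∀ (r : ℕ) (hr : r.Prime), r ∣ M →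
          haveI : NeZero r := ⟨hr.ne_zero⟩; Nonempty (ModData K r) :=
        fun r hr hrM => hD r hr (hM ▸ Dvd.dvd.mul_right hrM p)
      obtain ⟨T⟩ := ih M hlt hM0 hMK hDM
      obtain ⟨D⟩ := hD p hp (Nat.minFac_dvd N)
      rw [hM]
      by_cases hpM : p ∣ M
      · exact T.step_of_dvd hM0 hp hpM D
      · exact T.step_of_not_dvd hM0 hp hpM hpK hMK D hDM

/-- **Task D2 (lower bound).** -/
theorem exists_JIndep [IsAlgClosed K] (N : ℕ) [NeZero N] (hN : (N : K) ≠ 0)
    (hD : ∀ (p : ℕ) (hp : p.Prime), p ∣ N → haveI : NeZero p := ⟨hp.ne_zero⟩; Nonempty (ModData K p)) :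
    ∃ b : Fin (dedekindPsi N) → LaurentSeries ℤ,
      (∀ i, b i ∈ Algebra.adjoin ℤ (jSet ℤ N)) ∧
      JIndep K (fun i => coeffMap (Int.castRingHom K) (b i)) := by
  obtain ⟨T⟩ := nonempty_tow (K := K) N (NeZero.ne N) hN hD
  let e : Fin (dedekindPsi N) ≃ T.I := (Fintype.equivFinOfCardEq T.card_I).symm
  exact ⟨T.b ∘ e, fun i => T.b_mem _, T.b_indep.reindex e⟩

end

end Fermat.Agent.S28lib
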