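import Fermat.Agent.S28.Indep
import Fermat.Agent.S20.CombIndex

/-!
# S28 library, task E: the upper bound `[K(j(q^d) : d ∣ N) : K(j)] ≤ ψ(N)`
(tower over the prime powers + gcd argument for the composite `d`).
-/

set_option autoImplicit false

open ModularCurve Polynomial

namespace Fermat.Agent.S28lib

noncomputable section

namespace Upper

/-- If `α` is a common root of `f, g ∈ E[X]`, `f` is separable (after mapping to an algebraically
closed field `Om`) and the image of `α` is the only common root of `f` and `g` in `Om`,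
then `α ∈ E`. -/
theorem mem_range_of_unique_common_root {E L Om : Type*} [Field E] [Field L] [Field Om]
    [IsAlgClosed Om] [Algebra E L] (φ : L →+* Om) (α : L) (f g : E[X])
    (hf : aeval α f = 0) (hg : aeval α g = 0)
    (hsep : (f.map (φ.comp (algebraMap E L))).Separable)
    (huniq : ∀ z : Om, (f.map (φ.comp (algebraMap E L))).eval z = 0 →
      (g.map (φ.comp (algebraMap E L))).eval z = 0 → z = φ α) :
    α ∈ (algebraMap E L).range := by
  classical
  set ι : E →+* Om := φ.comp (algebraMap E L) with hι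
  have hf0 : f ≠ 0 := by
    rintro rfl
    simp only [Polynomial.map_zero] at hsep
    exact not_separable_zero hsep
  have hint : IsIntegral E α := (IsAlgebraic.isIntegral ⟨f, hf0, hf⟩)
  set m := minpoly E α with hm
  have hmf : m ∣ f := minpoly.dvd E α hf
  have hmg : m ∣ g := minpoly.dvd E α hg
  have hmsep : (m.map ι).Separable := hsep.of_dvd (Polynomial.map_dvd ι hmf)
  have hsplit : (m.map ι).Splits := IsAlgClosed.splits _
  have hcard : (m.map ι).natDegree = Multiset.card (m.map ι).roots :=
    hsplit.natDegree_eq_card_roots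
  have hnodup : (m.map ι).roots.Nodup := nodup_roots hmsep
  have hm0 : m.map ι ≠ 0 := Polynomial.map_ne_zero (minpoly.ne_zero hint)
  have hsub : (m.map ι).roots ≤ {φ α} := by
    rw [Multiset.le_iff_subset hnodup]
    intro z hz
    rw [mem_roots hm0, IsRoot.def] at hz
    rw [Multiset.mem_singleton]
    refine huniq z ?_ ?_
    · obtain ⟨c, hc⟩ := hmf
      rw [hc, Polynomial.map_mul, eval_mul, hz, zero_mul]
    · obtain ⟨c, hc⟩ := hmg
      rw [hc, Polynomial.map_mul, eval_mul, hz, zero_mul]
  have hle : m.natDegree ≤ 1 := by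
    rw [← natDegree_map ι, hcard]
    simpa using Multiset.card_le_card hsub
  have hpos := minpoly.natDegree_pos hint
  exact minpoly.natDegree_eq_one_iff.1 (le_antisymm hle hpos)

/-- a monic polynomial of degree `n` over an algebraically closed field with `n` distinct roots
is separable -/
theorem separable_of_card_le_roots {Om : Type*} [Field Om] [IsAlgClosed Om] (P : Om[X]) (hP : P ≠ 0)
    (T : Finset Om) (hT : ∀ z ∈ T, P.eval z = 0) (hcard : P.natDegree ≤ T.card) :
    P.Separable := by
  classical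
  rw [← nodup_roots_iff_of_splits hP (IsAlgClosed.splits P)]
  have h1 : T ⊆ P.roots.toFinset := by
    intro z hz
    rw [Multiset.mem_toFinset, mem_roots hP]
    exact hT z hz
  have h2 : P.roots.toFinset.card ≤ Multiset.card P.roots := Multiset.toFinset_card_le _
  have h3 : Multiset.card P.roots ≤ P.natDegree := card_roots' P
  have h4 := Finset.card_le_card h1
  rw [← Multiset.toFinset_card_eq_card_iff_nodup]
  omega

/-- degree bound for a simple extension inside a tower -/
theorem exists_adjoin_finrank_le {k L : Type*} [Field k] [Field L] [Algebra k L]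
    (E : IntermediateField k L) [FiniteDimensional k E] (x : L) (f : (E : Type _)[X]) (hf0 : f ≠ 0)
    (hf : aeval x f = 0) :
    ∃ E' : IntermediateField k L, FiniteDimensional k E' ∧ E ≤ E' ∧ x ∈ E' ∧
      Module.finrank k E' ≤ f.natDegree * Module.finrank k E := by
  have hint : IsIntegral E x := (IsAlgebraic.isIntegral ⟨f, hf0, hf⟩)
  let E1 : IntermediateField E L := IntermediateField.adjoin E {x}
  have : FiniteDimensional E E1 := IntermediateField.adjoin.finiteDimensional hint
  have hfree1 : Module.Free E E1 := Module.Free.of_divisionRing E E1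
  have hfree2 : Module.Free k E := Module.Free.of_divisionRing k E
  have hfin : FiniteDimensional k E1 := FiniteDimensional.trans k E E1
  refine ⟨E1.restrictScalars k, hfin, ?_, ?_, ?_⟩
  · intro y hy
    exact E1.algebraMap_mem ⟨y, hy⟩
  · exact IntermediateField.mem_adjoin_simple_self E x
  · have h1 : Module.finrank k E * Module.finrank E E1 = Module.finrank k E1 :=
      Module.finrank_mul_finrank k E E1
    have h2 : Module.finrank E E1 = (minpoly E x).natDegree := IntermediateField.adjoin.finrank hint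
    have h3 : (minpoly E x).natDegree ≤ f.natDegree :=
      natDegree_le_of_dvd (minpoly.dvd E x hf) hf0
    calc Module.finrank k (E1.restrictScalars k) = Module.finrank k E1 := rfl
      _ = Module.finrank k E * Module.finrank E E1 := h1.symm
      _ ≤ Module.finrank k E * f.natDegree := by rw [h2]; exact Nat.mul_le_mul_left _ h3
      _ = f.natDegree * Module.finrank k E := Nat.mul_comm _ _

section general

variable {K : Type*} [Field K]

/-- total version of `j(q^d)` -/
def jj (K : Type*) [Field K] (d : ℕ) : LaurentSeries K :=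
  if h : d = 0 then 0 else @qExpand K _ d ⟨h⟩ (jqModC K)

theorem jj_eq (d : ℕ) [h : NeZero d] : jj K d = jAd K d := by
  rw [jj, dif_neg h.out]

theorem jj_eq_J (d : ℕ) [NeZero d] : jj K d = J (1 : Kˣ) d := by
  rw [jj_eq, J_one]

theorem jj_one : jj K 1 = jA K := by
  rw [jj_eq, jAd, qExpand_one_apply]

theorem qExpand_jj (M d : ℕ) [NeZero M] (hd : d ≠ 0) : qExpand K M (jj K d) = jj K (M * d) := by
  have : NeZero d := ⟨hd⟩
  have : NeZero (M * d) := ⟨Nat.mul_ne_zero (NeZero.ne M) hd⟩
  rw [jj_eq, jj_eq, jAd, jAd, qExpand_qExpand]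

theorem jj_injective {d d' : ℕ} (hd : d ≠ 0) (hd' : d' ≠ 0) (h : jj K d = jj K d') : d = d' := by
  have : NeZero d := ⟨hd⟩
  have : NeZero d' := ⟨hd'⟩
  rw [jj_eq_J, jj_eq_J] at h
  exact (J_injective h).2

theorem J_eq_jj_imp {c : Kˣ} {e d : ℕ} [NeZero e] (hd : d ≠ 0) (h : J c e = jj K d) : e = d := by
  have : NeZero d := ⟨hd⟩
  rw [jj_eq_J] at h
  exact (J_injective h).2

/-- `P(X, y)` as a polynomial over a subfield containing `y` -/
def specE {E : Type*} [Field E] (c : K →+* E) (y : E) (P : Polynomial (Polynomial K)) : E[X] :=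
  P.map (Polynomial.eval₂RingHom c y)

theorem specE_map {E : Type*} [Field E] [Algebra E (LaurentSeries K)] (c : K →+* E)
    (hc : (algebraMap E (LaurentSeries K)).comp c = HahnSeries.C) (y : E)
    (P : Polynomial (Polynomial K)) :
    (specE c y P).map (algebraMap E (LaurentSeries K)) =
      specialize P (algebraMap E (LaurentSeries K) y) := by
  rw [specE, specialize, Polynomial.map_map]
  congr 1
  refine Polynomial.ringHom_ext (fun a => ?_) ?_
  · simp only [RingHom.comp_apply, coe_eval₂RingHom, eval₂_C, evY]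
    exact RingHom.congr_fun hc a
  · simp [evY]

theorem specialize_map_qExpand (M : ℕ) [NeZero M] (y : LaurentSeries K)
    (P : Polynomial (Polynomial K)) :
    (specialize P y).map (qExpand K M) = specialize P (qExpand K M y) := by
  rw [specialize, specialize, Polynomial.map_map]
  congr 1
  refine Polynomial.ringHom_ext (fun a => ?_) ?_
  · simp [evY]
  · simp [evY]

theorem aeval_specE {E : Type*} [Field E] [Algebra E (LaurentSeries K)] (c : K →+* E)
    (hc : (algebraMap E (LaurentSeries K)).comp c = HahnSeries.C) (y : E)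
    (P : Polynomial (Polynomial K)) (x : LaurentSeries K) :
    aeval x (specE c y P) = ev2 P x (algebraMap E (LaurentSeries K) y) := by
  rw [← eval_specialize, ← specE_map c hc, eval_map_algebraMap]

end general

section closed

variable {K : Type*} [Field K] [IsAlgClosed K]

theorem separable_specialize {p : ℕ} [NeZero p] (hp : p.Prime) (hpK : (p : K) ≠ 0)
    (D : ModData K p) (e : ℕ) [NeZero e] [NeZero (e * p)] [NeZero (e * p * p)]
    {Om : Type*} [Field Om] [IsAlgClosed Om] [Algebra (LaurentSeries K) Om] :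
    ((specialize D.Φ (J (1 : Kˣ) (e * p))).map (algebraMap (LaurentSeries K) Om)).Separable := by
  classical
  have hmonic : ((specialize D.Φ (J (1 : Kˣ) (e * p))).map
      (algebraMap (LaurentSeries K) Om)).Monic := (D.Φ_monic.map _).map _
  have hdeg : ((specialize D.Φ (J (1 : Kˣ) (e * p))).map
      (algebraMap (LaurentSeries K) Om)).natDegree = p + 1 := by
    have h1 : (specialize D.Φ (J (1 : Kˣ) (e * p))).Monic := D.Φ_monic.map _
    rw [h1.natDegree_map, specialize, D.Φ_monic.natDegree_map, D.Φ_natDegree]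
  have hinj : Function.Injective (algebraMap (LaurentSeries K) Om) :=
    (algebraMap (LaurentSeries K) Om).injective
  have : NeZero (p : K) := ⟨hpK⟩
  let _ : Fintype (rootsOfUnity p K) := Fintype.ofFinite _
  have hcardU : Fintype.card (rootsOfUnity p K) = p := by
    rw [← Nat.card_eq_fintype_card]
    exact HasEnoughRootsOfUnity.natCard_rootsOfUnity K p
  let T0 : Finset Om := Finset.univ.image
    (fun c' : rootsOfUnity p K => algebraMap (LaurentSeries K) Om (J (c' : Kˣ) e))
  have hT0 : T0.card = p := by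
    rw [Finset.card_image_of_injective, Finset.card_univ, hcardU]
    intro a b hab
    exact Subtype.ext (J_injective (hinj hab)).1
  have hnot : algebraMap (LaurentSeries K) Om (J ((1 : Kˣ) ^ p) (e * p * p)) ∉ T0 := by
    intro hmem
    obtain ⟨c', -, hc'⟩ := Finset.mem_image.1 hmem
    have h2 := (J_injective (hinj hc')).2
    have he : e ≠ 0 := NeZero.ne e
    have hp2 := hp.two_le
    have : e * 1 < e * (p * p) := Nat.mul_lt_mul_of_pos_left (by nlinarith) (Nat.pos_of_ne_zero he)
    rw [Nat.mul_assoc] at h2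
    omega
  refine separable_of_card_le_roots _ hmonic.ne_zero
    (insert (algebraMap (LaurentSeries K) Om (J ((1 : Kˣ) ^ p) (e * p * p))) T0) ?_ ?_
  · intro z hz
    rw [eval_map_algebraMap, Phi_root_iff hp hpK D (1 : Kˣ) e z]
    rcases Finset.mem_insert.1 hz with rfl | hz
    · exact Or.inl rfl
    · obtain ⟨c', -, rfl⟩ := Finset.mem_image.1 hz
      exact Or.inr ⟨c', (mem_rootsOfUnity _ _).1 c'.2, rfl⟩
  · rw [hdeg, Finset.card_insert_of_notMem hnot, hT0]

/-- the roots of `Φ_p(X, j(t^(e p)))`, in terms of exponents -/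
theorem root_cases {p : ℕ} [NeZero p] (hp : p.Prime) (hpK : (p : K) ≠ 0)
    (D : ModData K p) (e : ℕ) (he : e ≠ 0)
    {Om : Type*} [Field Om] [Algebra (LaurentSeries K) Om] (z : Om)
    (hz : ((specialize D.Φ (jj K (e * p))).map (algebraMap (LaurentSeries K) Om)).eval z = 0) :
    z = algebraMap _ Om (jj K (e * p * p)) ∨
      ∃ (c' : Kˣ) (_ : NeZero e), z = algebraMap _ Om (J c' e) := by
  have h1 : NeZero e := ⟨he⟩
  have h2 : NeZero (e * p) := ⟨Nat.mul_ne_zero he hp.ne_zero⟩
  have h3 : NeZero (e * p * p) := ⟨Nat.mul_ne_zero h2.out hp.ne_zero⟩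
  rw [jj_eq_J, eval_map_algebraMap, Phi_root_iff hp hpK D (1 : Kˣ) e z] at hz
  rcases hz with hz | ⟨c', -, hz⟩
  · left
    rw [hz, jj_eq_J, one_pow]
  · exact Or.inr ⟨c', h1, hz⟩

omit [IsAlgClosed K] in
theorem ev2_up {p : ℕ} [NeZero p] (D : ModData K p) (e : ℕ) (he : e ≠ 0) :
    ev2 D.Φ (jj K (e * p)) (jj K e) = 0 := by
  have h1 : NeZero e := ⟨he⟩
  have h2 : NeZero (e * p) := ⟨Nat.mul_ne_zero he (NeZero.ne p)⟩
  have := Phi_root_up D (1 : Kˣ) e
  rwa [one_pow, ← jj_eq_J, ← jj_eq_J] at this

omit [IsAlgClosed K] in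
theorem ev2_down {p : ℕ} [NeZero p] (D : ModData K p) (e : ℕ) (he : e ≠ 0) :
    ev2 D.Φ (jj K e) (jj K (e * p)) = 0 := by
  have h1 : NeZero e := ⟨he⟩
  have h2 : NeZero (e * p) := ⟨Nat.mul_ne_zero he (NeZero.ne p)⟩
  have := Phi_root_down D (1 : Kˣ) e
  rwa [one_pow, ← jj_eq_J, ← jj_eq_J] at this

variable (K) in
/-- the base field `K(j)` -/
abbrev k0 : IntermediateField K (LaurentSeries K) := IntermediateField.adjoin K {jA K}

/-- the constants, inside an intermediate field -/
def cE (E : IntermediateField (k0 K) (LaurentSeries K)) : K →+* E :=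
  (algebraMap (k0 K) E).comp (algebraMap K (k0 K))

omit [IsAlgClosed K] in
theorem algebraMap_comp_cE (E : IntermediateField (k0 K) (LaurentSeries K)) :
    (algebraMap E (LaurentSeries K)).comp (cE E) = HahnSeries.C := by
  ext a : 1
  show algebraMap K (LaurentSeries K) a = HahnSeries.C a
  rw [algebraMap_laurentSeries_eq_single]
  rfl

theorem jj_mem_of_two_primes (E : IntermediateField (k0 K) (LaurentSeries K)) {p r s : ℕ}
    [NeZero p] [NeZero r] (hp : p.Prime) (hr : r.Prime) (hpr : p ≠ r) (hs : s ≠ 0)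
    (hpK : (p : K) ≠ 0) (hrK : (r : K) ≠ 0) (Dp : ModData K p) (Dr : ModData K r)
    (h1 : jj K (r * s) ∈ E) (h2 : jj K (p * s) ∈ E) : jj K (p * r * s) ∈ E := by
  have hp0 := hp.ne_zero
  have hr0 := hr.ne_zero
  have hpr0 : NeZero (p * r) := ⟨Nat.mul_ne_zero hp0 hr0⟩
  let Om := AlgebraicClosure (LaurentSeries K)
  let φ : LaurentSeries K →+* Om := (algebraMap (LaurentSeries K) Om).comp (qExpand K (p * r))
  have hc := algebraMap_comp_cE E
  have key : ∀ (y : E) (P : Polynomial (Polynomial K)),
      (specE (cE E) y P).map (φ.comp (algebraMap E (LaurentSeries K))) =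
        (specialize P (qExpand K (p * r) (y : LaurentSeries K))).map
          (algebraMap (LaurentSeries K) Om) := by
    intro y P
    rw [← specialize_map_qExpand, Polynomial.map_map, ← Polynomial.map_map (algebraMap E _),
      specE_map (cE E) hc]
    rfl
  have hmem := mem_range_of_unique_common_root φ (jj K (p * r * s))
    (specE (cE E) ⟨_, h1⟩ Dp.Φ) (specE (cE E) ⟨_, h2⟩ Dr.Φ) ?_ ?_ ?_ ?_
  · obtain ⟨y, hy⟩ := hmem
    rw [← hy]
    exact y.2
  · rw [aeval_specE (cE E) hc]
    have := ev2_up Dp (r * s) (Nat.mul_ne_zero hr0 hs)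
    rwa [show r * s * p = p * r * s by ring] at this
  · rw [aeval_specE (cE E) hc]
    have := ev2_up Dr (p * s) (Nat.mul_ne_zero hp0 hs)
    rwa [show p * s * r = p * r * s by ring] at this
  · rw [key]
    have he : NeZero (r * r * s) := ⟨Nat.mul_ne_zero (Nat.mul_ne_zero hr0 hr0) hs⟩
    have he2 : NeZero (r * r * s * p) := ⟨Nat.mul_ne_zero he.out hp0⟩
    have he3 : NeZero (r * r * s * p * p) := ⟨Nat.mul_ne_zero he2.out hp0⟩
    have := separable_specialize hp hpK Dp (r * r * s) (Om := Om)
    rw [← jj_eq_J] at this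
    show ((specialize Dp.Φ (qExpand K (p * r) (jj K (r * s)))).map _).Separable
    rwa [qExpand_jj _ _ (Nat.mul_ne_zero hr0 hs), show p * r * (r * s) = r * r * s * p by ring]
  · intro z hz1 hz2
    rw [key] at hz1 hz2
    change ((specialize Dp.Φ (qExpand K (p * r) (jj K (r * s)))).map _).eval z = 0 at hz1
    change ((specialize Dr.Φ (qExpand K (p * r) (jj K (p * s)))).map _).eval z = 0 at hz2
    rw [qExpand_jj _ _ (Nat.mul_ne_zero hr0 hs),
      show p * r * (r * s) = r * r * s * p by ring] at hz1
    rw [qExpand_jj _ _ (Nat.mul_ne_zero hp0 hs),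
      show p * r * (p * s) = p * p * s * r by ring] at hz2
    have hinj : Function.Injective (algebraMap (LaurentSeries K) Om) :=
      (algebraMap (LaurentSeries K) Om).injective
    have hprs : p * r * s ≠ 0 := Nat.mul_ne_zero (Nat.mul_ne_zero hp0 hr0) hs
    rcases root_cases hp hpK Dp (r * r * s) (Nat.mul_ne_zero (Nat.mul_ne_zero hr0 hr0) hs) z hz1
      with h | ⟨c', hne, h⟩
    · rw [h]
      show _ = algebraMap _ Om (qExpand K (p * r) (jj K (p * r * s)))
      rw [qExpand_jj _ _ hprs, show p * r * (p * r * s) = r * r * s * p * p by ring]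
    · exfalso
      rcases root_cases hr hrK Dr (p * p * s) (Nat.mul_ne_zero (Nat.mul_ne_zero hp0 hp0) hs) z hz2
        with h' | ⟨c'', hne', h'⟩
      · rw [h] at h'
        have h3 := J_eq_jj_imp (Nat.mul_ne_zero (Nat.mul_ne_zero
          (Nat.mul_ne_zero (Nat.mul_ne_zero hp0 hp0) hs) hr0) hr0) (hinj h')
        have h4 : r * r * s * 1 = r * r * s * (p * p) := by
          rw [Nat.mul_one]; conv_lhs => rw [h3]
          ring
        have h5 := Nat.eq_of_mul_eq_mul_left (Nat.pos_of_ne_zero hne.out) h4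
        have := hp.two_le
        nlinarith
      · rw [h] at h'
        have h3 := (J_injective (hinj h')).2
        have h4 : s * (r * r) = s * (p * p) := by
          rw [show s * (r * r) = r * r * s by ring, h3]; ring
        have h5 := Nat.eq_of_mul_eq_mul_left (Nat.pos_of_ne_zero hs) h4
        exact hpr (Nat.mul_self_inj.1 h5).symm

omit [IsAlgClosed K] in
theorem cast_ne_zero_of_dvd {N p : ℕ} (hN : (N : K) ≠ 0) (h : p ∣ N) : (p : K) ≠ 0 := by
  obtain ⟨c, rfl⟩ := h
  intro h0
  apply hN
  rw [Nat.cast_mul, h0, zero_mul]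

theorem jj_mem_of_primePow (N : ℕ) (hN0 : N ≠ 0) (hN : (N : K) ≠ 0)
    (hD : ∀ (p : ℕ) (hp : p.Prime), p ∣ N →
      haveI : NeZero p := ⟨hp.ne_zero⟩; Nonempty (ModData K p))
    (E : IntermediateField (k0 K) (LaurentSeries K))
    (hE : ∀ q i : ℕ, q.Prime → q ^ i ∣ N → jj K (q ^ i) ∈ E) :
    ∀ d, d ∣ N → jj K d ∈ E := by
  intro d
  induction d using Nat.strong_induction_on with
  | _ d ih =>
    intro hdN
    have hd0 : d ≠ 0 := fun h => hN0 (by rw [h] at hdN; exact Nat.eq_zero_of_zero_dvd hdN)
    by_cases hd1 : d = 1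
    · have := hE 2 0 Nat.prime_two (by simp)
      rwa [pow_zero, ← hd1] at this
    have hp : (d.minFac).Prime := Nat.minFac_prime hd1
    set p := d.minFac with hpdef
    have hpd : p ∣ d := Nat.minFac_dvd d
    obtain ⟨a, m, hpm, hdm⟩ := Nat.exists_eq_pow_mul_and_not_dvd hd0 p hp.ne_one
    by_cases hm1 : m = 1
    · rw [hm1, mul_one] at hdm
      rw [hdm]
      exact hE p a hp (hdm ▸ hdN)
    have hr : (m.minFac).Prime := Nat.minFac_prime hm1
    set r := m.minFac with hrdef
    have hrm : r ∣ m := Nat.minFac_dvd m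
    have hpr : p ≠ r := fun h => hpm (h ▸ hrm)
    have hrd : r ∣ d := by rw [hdm]; exact Dvd.dvd.mul_left hrm _
    have hcop : Nat.Coprime p r := (Nat.coprime_primes hp hr).2 hpr
    obtain ⟨s, hs⟩ := hcop.mul_dvd_of_dvd_of_dvd hpd hrd
    have hs0 : s ≠ 0 := by
      rintro rfl
      exact hd0 (by rw [hs, mul_zero])
    have hpN : p ∣ N := hpd.trans hdN
    have hrN : r ∣ N := hrd.trans hdN
    have i1 : NeZero p := ⟨hp.ne_zero⟩
    have i2 : NeZero r := ⟨hr.ne_zero⟩
    obtain ⟨Dp⟩ := hD p hp hpN
    obtain ⟨Dr⟩ := hD r hr hrN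
    rw [hs]
    refine jj_mem_of_two_primes E hp hr hpr hs0 (cast_ne_zero_of_dvd hN hpN)
      (cast_ne_zero_of_dvd hN hrN) Dp Dr (ih (r * s) ?_ ?_) (ih (p * s) ?_ ?_)
    · rw [hs, mul_assoc]
      have : 0 < r * s := Nat.pos_of_ne_zero (Nat.mul_ne_zero hr.ne_zero hs0)
      have := hp.two_le
      nlinarith
    · exact (Dvd.intro_left p (by rw [hs]; ring)).trans hdN
    · rw [hs, show p * r * s = r * (p * s) by ring]
      have : 0 < p * s := Nat.pos_of_ne_zero (Nat.mul_ne_zero hp.ne_zero hs0)
      have := hr.two_le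
      nlinarith
    · exact (Dvd.intro_left r (by rw [hs]; ring)).trans hdN

omit [IsAlgClosed K] in
/-- one step of the tower: adjoin `j(q^(p^(v+1)))` -/
theorem exists_step (E : IntermediateField (k0 K) (LaurentSeries K)) [FiniteDimensional (k0 K) E]
    {p : ℕ} [NeZero p] (hp : p.Prime) (D : ModData K p) (v : ℕ)
    (hy : jj K (p ^ v) ∈ E) (hβ : ∀ w, v = w + 1 → jj K (p ^ w) ∈ E) :
    ∃ E' : IntermediateField (k0 K) (LaurentSeries K), FiniteDimensional (k0 K) E' ∧ E ≤ E' ∧
      jj K (p ^ (v + 1)) ∈ E' ∧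
      Module.finrank (k0 K) E' ≤ (if v = 0 then p + 1 else p) * Module.finrank (k0 K) E := by
  have hc := algebraMap_comp_cE E
  have hpv : p ^ v ≠ 0 := pow_ne_zero _ hp.ne_zero
  set f : (E : Type _)[X] := specE (cE E) ⟨_, hy⟩ D.Φ with hf
  have hmonic : f.Monic := D.Φ_monic.map _
  have hdeg : f.natDegree = p + 1 := by
    rw [hf, specE, D.Φ_monic.natDegree_map, D.Φ_natDegree]
  have hroot : aeval (jj K (p ^ (v + 1))) f = 0 := by
    rw [hf, aeval_specE (cE E) hc, pow_succ]
    exact ev2_up D (p ^ v) hpv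
  rcases Nat.eq_zero_or_pos v with hv | hv
  · rw [if_pos hv]
    have := exists_adjoin_finrank_le E _ f hmonic.ne_zero hroot
    rwa [hdeg] at this
  · obtain ⟨w, rfl⟩ : ∃ w, v = w + 1 := ⟨v - 1, by omega⟩
    rw [if_neg (by omega)]
    have hpw : p ^ w ≠ 0 := pow_ne_zero _ hp.ne_zero
    set b : E := ⟨_, hβ w rfl⟩ with hb
    have hbroot : f.IsRoot b := by
      have h1 : aeval (jj K (p ^ w)) f = 0 := by
        rw [hf, aeval_specE (cE E) hc]
        have := ev2_down D (p ^ w) hpw
        rwa [← pow_succ] at this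
      have h2 : aeval (algebraMap E (LaurentSeries K) b) f =
          algebraMap E (LaurentSeries K) (f.eval b) := by
        rw [aeval_algebraMap_apply, coe_aeval_eq_eval]
      have h3 : algebraMap E (LaurentSeries K) (f.eval b) = 0 := by
        rw [← h2]; exact h1
      exact (map_eq_zero _).1 h3
    have hfac : (X - C b) * (f /ₘ (X - C b)) = f := mul_divByMonic_eq_iff_isRoot.2 hbroot
    have hf1deg : (f /ₘ (X - C b)).natDegree = p := by
      rw [natDegree_divByMonic f (monic_X_sub_C b), hdeg, natDegree_X_sub_C]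
      rfl
    have hf10 : f /ₘ (X - C b) ≠ 0 := by
      intro h0
      rw [h0, mul_zero] at hfac
      exact hmonic.ne_zero hfac.symm
    have hne : jj K (p ^ (w + 1 + 1)) - jj K (p ^ w) ≠ 0 := by
      intro h0
      have h1 := jj_injective (pow_ne_zero _ hp.ne_zero) hpw (sub_eq_zero.1 h0)
      have := Nat.pow_right_injective hp.two_le h1
      omega
    have hroot1 : aeval (jj K (p ^ (w + 1 + 1))) (f /ₘ (X - C b)) = 0 := by
      rw [← hfac, map_mul] at hroot
      rcases mul_eq_zero.1 hroot with h | h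
      · exfalso
        apply hne
        simpa using h
      · exact h
    have := exists_adjoin_finrank_le E _ _ hf10 hroot1
    rwa [hf1deg] at this

omit [IsAlgClosed K] in
theorem exists_field (N : ℕ) : N ≠ 0 →
    (∀ (p : ℕ) (hp : p.Prime), p ∣ N →
      haveI : NeZero p := ⟨hp.ne_zero⟩; Nonempty (ModData K p)) →
    ∃ E : IntermediateField (k0 K) (LaurentSeries K), FiniteDimensional (k0 K) E ∧
      Module.finrank (k0 K) E ≤ dedekindPsi N ∧
      ∀ q i : ℕ, q.Prime → q ^ i ∣ N → jj K (q ^ i) ∈ E := by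
  induction N using induction_on_primes with
  | zero => intro h; exact absurd rfl h
  | one =>
    intro _ _
    refine ⟨⊥, inferInstance, ?_, ?_⟩
    · rw [IntermediateField.finrank_bot, dedekindPsi_one]
    · intro q i _ hqi
      rw [Nat.dvd_one.1 hqi, jj_one]
      exact (⊥ : IntermediateField (k0 K) (LaurentSeries K)).algebraMap_mem
        ⟨jA K, IntermediateField.mem_adjoin_simple_self K (jA K)⟩
  | prime_mul p a hp ih =>
    intro hpa hD
    have ha : a ≠ 0 := fun h => hpa (by rw [h, mul_zero])
    obtain ⟨E, hfin, hrank, hE⟩ := ih ha (fun r hr hra => hD r hr (Dvd.dvd.mul_left hra p))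
    have i1 : NeZero p := ⟨hp.ne_zero⟩
    obtain ⟨D⟩ := hD p hp (Dvd.intro a rfl)
    obtain ⟨v, b, hpb, hab⟩ := Nat.exists_eq_pow_mul_and_not_dvd ha p hp.ne_one
    have hy : jj K (p ^ v) ∈ E := hE p v hp (Dvd.intro b hab.symm)
    have hβ : ∀ w, v = w + 1 → jj K (p ^ w) ∈ E := by
      intro w hw
      refine hE p w hp ((pow_dvd_pow p ?_).trans (Dvd.intro b hab.symm))
      omega
    obtain ⟨E', hfin', hle, hx, hrank'⟩ := exists_step E hp D v hy hβ
    refine ⟨E', hfin', ?_, ?_⟩
    · refine hrank'.trans ?_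
      rw [Nat.mul_comm p a]
      split_ifs with hv
      · have hpa' : ¬ p ∣ a := by
          rw [hab, hv, pow_zero, one_mul]; exact hpb
        rw [Fermat.Agent.S20lib.dedekindPsi_mul_prime_of_not_dvd ha hp hpa']
        exact Nat.mul_le_mul_left _ hrank
      · have hpa' : p ∣ a := by
          rw [hab]
          exact Dvd.dvd.mul_right (dvd_pow_self p hv) b
        rw [Fermat.Agent.S20lib.dedekindPsi_mul_prime_of_dvd ha hp hpa']
        exact Nat.mul_le_mul_left _ hrank
    · intro q i hq hqi
      by_cases hqp : q = p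
      · subst hqp
        have hi : i ≤ v + 1 := by
          have h1 : q ^ i ∣ q ^ (v + 1) * b := by
            rw [pow_succ, mul_assoc, mul_comm q b, ← mul_assoc, ← hab, mul_comm]
            exact hqi
          have hcop : Nat.Coprime (q ^ i) b :=
            Nat.Coprime.pow_left i ((Nat.Prime.coprime_iff_not_dvd hq).2 hpb)
          exact (Nat.pow_dvd_pow_iff_le_right hq.one_lt).1 (hcop.dvd_of_dvd_mul_right h1)
        rcases Nat.lt_or_ge i (v + 1) with h | h
        · exact hle (hE q i hq ((pow_dvd_pow q (by omega)).trans (Dvd.intro b hab.symm)))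
        · rw [show i = v + 1 by omega]
          exact hx
      · have hcop : Nat.Coprime (q ^ i) p :=
          Nat.Coprime.pow_left i ((Nat.coprime_primes hq hp).2 hqp)
        exact hle (hE q i hq (hcop.dvd_of_dvd_mul_left hqi))

end closed

end Upper

open Upper

section closed

variable {K : Type*} [Field K] [IsAlgClosed K]

/-- **Task E (upper bound).** -/
theorem card_le_of_JIndep (N : ℕ) [NeZero N] (hN : (N : K) ≠ 0)
    (hD : ∀ (p : ℕ) (hp : p.Prime), p ∣ N →
      haveI : NeZero p := ⟨hp.ne_zero⟩; Nonempty (ModData K p))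
    {m : ℕ} (x : Fin m → LaurentSeries K) (hx : ∀ i, x i ∈ modularFunctionFieldFullC K N)
    (h : JIndep K x) : m ≤ dedekindPsi N := by
  obtain ⟨E, hfin, hrank, hE⟩ := exists_field (K := K) N (NeZero.ne N) hD
  have hall := jj_mem_of_primePow N (NeZero.ne N) hN hD E hE
  have hle : modularFunctionFieldFullC K N ≤ E.restrictScalars K := by
    rw [modularFunctionFieldFullC, IntermediateField.adjoin_le_iff]
    rintro y ⟨d, hd, hdN, rfl⟩
    have := hall d hdN
    rw [jj_eq] at this
    exact this
  have hlin : LinearIndependent (k0 K) x := (JIndep_iff_linearIndependent x).1 h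
  have hlin' : LinearIndependent (k0 K) (fun i => (⟨x i, hle (hx i)⟩ : E)) := by
    refine LinearIndependent.of_comp E.val.toLinearMap ?_
    exact hlin
  have := hlin'.fintype_card_le_finrank
  rw [Fintype.card_fin] at this
  exact this.trans hrank

end closed

end

end Fermat.Agent.S28lib
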