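import Fermat.Agent.S28.PrimeLevel
import Fermat.Agent.S28.TowerStep
import Fermat.Agent.S28.Upper

/-!
# S28 library, tasks D1, D2, E: the degree of `K(j(q^d) : d ∣ N)` over `K(j)` is `ψ(N)`,
for `K` algebraically closed with `N ≠ 0` in `K`.

* `jp_not_mem` (D1): `PrimeLevel.lean`
* `exists_JIndep` (D2): `TowerStep.lean`
* `card_le_of_JIndep` (E): `Upper.lean`
-/
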