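import Fermat.Agent.S28.Defs

/-!
# S28 library, task F: the localisation `Lam` of `ℤ((q))` at `ℓ` inside `ℚ((q))` and its reduction
map to `𝔽_ℓ((q))`.
-/

set_option autoImplicit false

open ModularCurve

namespace Fermat.Agent.S28lib

noncomputable section

/-- `ℤ((q)) → ℚ((q))` -/
abbrev ιQ : LaurentSeries ℤ →+* LaurentSeries ℚ := coeffMap (Int.castRingHom ℚ)

theorem ιQ_injective : Function.Injective ιQ := by
  intro x y h
  ext n
  have := congrArg (fun z => z.coeff n) h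
  simpa using this

theorem natCast_laurent_ne_zero {m : ℕ} (hm : m ≠ 0) : ((m : ℕ) : LaurentSeries ℚ) ≠ 0 := by
  rw [← map_natCast (HahnSeries.C : ℚ →+* LaurentSeries ℚ)]
  intro h
  have h2 : (HahnSeries.C ((m : ℕ) : ℚ) : LaurentSeries ℚ).coeff 0 = 0 := by rw [h]; rfl
  rw [HahnSeries.C_apply, HahnSeries.coeff_single_same] at h2
  exact hm (Nat.cast_eq_zero.mp h2)

variable (ℓ : ℕ) [Fact ℓ.Prime]

/-- `ℤ((q)) → 𝔽_ℓ((q))` -/
abbrev ρL : LaurentSeries ℤ →+* LaurentSeries (ZMod ℓ) := coeffMap (Int.castRingHom (ZMod ℓ))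

theorem exists_eq_mul_of_ρL_eq_zero {y : LaurentSeries ℤ} (h : ρL ℓ y = 0) :
    ∃ y' : LaurentSeries ℤ, y = ((ℓ : ℕ) : LaurentSeries ℤ) * y' := by
  have hdvd : ∀ n, (ℓ : ℤ) ∣ y.coeff n := by
    intro n
    have := congrArg (fun z => z.coeff n) h
    simp only [coeffMap_coeff, eq_intCast, HahnSeries.coeff_zero] at this
    exact (ZMod.intCast_zmod_eq_zero_iff_dvd _ _).mp this
  refine ⟨{ coeff := fun n => y.coeff n / ℓ
            isPWO_support' := y.isPWO_support.mono fun n hn => by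
              simp only [Function.mem_support, ne_eq] at hn ⊢
              exact fun h0 => hn (by rw [h0, Int.zero_ediv]) }, ?_⟩
  ext n
  have h1 : ((ℓ : ℕ) : LaurentSeries ℤ) = HahnSeries.C (ℓ : ℤ) := by
    rw [← map_natCast (HahnSeries.C : ℤ →+* LaurentSeries ℤ)]
  rw [h1, HahnSeries.C_mul_eq_smul, HahnSeries.coeff_smul]
  simp only [smul_eq_mul]
  exact (Int.mul_ediv_cancel' (hdvd n)).symm

/-- The localisation of `ℤ((q))` at the prime ideal `(ℓ)`, as a subring of `ℚ((q))`. -/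
def Lam : Subring (LaurentSeries ℚ) where
  carrier := {x | ∃ s y : LaurentSeries ℤ, ρL ℓ s ≠ 0 ∧ ιQ s * x = ιQ y}
  mul_mem' := by
    rintro x x' ⟨s, y, hs, h⟩ ⟨s', y', hs', h'⟩
    refine ⟨s * s', y * y', ?_, ?_⟩
    · rw [map_mul]; exact mul_ne_zero hs hs'
    · rw [map_mul, map_mul, ← h, ← h']; ring
  one_mem' := ⟨1, 1, by rw [map_one]; exact one_ne_zero, by simp⟩
  add_mem' := by
    rintro x x' ⟨s, y, hs, h⟩ ⟨s', y', hs', h'⟩
    refine ⟨s * s', y * s' + y' * s, ?_, ?_⟩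
    · rw [map_mul]; exact mul_ne_zero hs hs'
    · rw [map_mul, map_add, map_mul, map_mul, ← h, ← h']; ring
  zero_mem' := ⟨1, 0, by rw [map_one]; exact one_ne_zero, by simp⟩
  neg_mem' := by
    rintro x ⟨s, y, hs, h⟩
    exact ⟨s, -y, hs, by rw [map_neg, ← h]; ring⟩

theorem mem_Lam_iff {x : LaurentSeries ℚ} :
    x ∈ Lam ℓ ↔ ∃ s y : LaurentSeries ℤ, ρL ℓ s ≠ 0 ∧ ιQ s * x = ιQ y := Iff.rfl

/-- the underlying function of `red` -/
def redFun (x : Lam ℓ) : LaurentSeries (ZMod ℓ) :=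
  ρL ℓ x.2.choose_spec.choose / ρL ℓ x.2.choose

theorem redFun_spec (x : Lam ℓ) {s y : LaurentSeries ℤ} (hs : ρL ℓ s ≠ 0)
    (h : ιQ s * (x : LaurentSeries ℚ) = ιQ y) : redFun ℓ x = ρL ℓ y / ρL ℓ s := by
  obtain ⟨hs0, h0⟩ := x.2.choose_spec.choose_spec
  set s0 := x.2.choose
  set y0 := x.2.choose_spec.choose
  have key : s * y0 = s0 * y := by
    apply ιQ_injective
    rw [map_mul, map_mul, ← h0, ← h]; ring
  have key' : ρL ℓ s * ρL ℓ y0 = ρL ℓ s0 * ρL ℓ y := by rw [← map_mul, ← map_mul, key]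
  show ρL ℓ y0 / ρL ℓ s0 = _
  rw [div_eq_div_iff hs0 hs]
  linear_combination key'

/-- The reduction map `Lam → 𝔽_ℓ((q))`. -/
def red : Lam ℓ →+* LaurentSeries (ZMod ℓ) where
  toFun := redFun ℓ
  map_one' := by
    rw [redFun_spec ℓ 1 (s := 1) (y := 1) (by rw [map_one]; exact one_ne_zero) (by simp)]
    simp
  map_mul' := by
    rintro ⟨x, s, y, hs, h⟩ ⟨x', s', y', hs', h'⟩
    rw [redFun_spec ℓ ⟨x, s, y, hs, h⟩ hs h, redFun_spec ℓ ⟨x', s', y', hs', h'⟩ hs' h',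
      redFun_spec ℓ _ (s := s * s') (y := y * y') (by rw [map_mul]; exact mul_ne_zero hs hs')
        (by
          show ιQ (s * s') * (x * x') = _
          rw [map_mul, map_mul, ← h, ← h']; ring)]
    rw [map_mul, map_mul]
    field_simp
  map_zero' := by
    rw [redFun_spec ℓ 0 (s := 1) (y := 0) (by rw [map_one]; exact one_ne_zero) (by simp)]
    simp
  map_add' := by
    rintro ⟨x, s, y, hs, h⟩ ⟨x', s', y', hs', h'⟩
    rw [redFun_spec ℓ ⟨x, s, y, hs, h⟩ hs h, redFun_spec ℓ ⟨x', s', y', hs', h'⟩ hs' h',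
      redFun_spec ℓ _ (s := s * s') (y := y * s' + y' * s)
        (by rw [map_mul]; exact mul_ne_zero hs hs')
        (by
          show ιQ (s * s') * (x + x') = _
          rw [map_mul, map_add, map_mul, map_mul, ← h, ← h']; ring)]
    rw [map_mul, map_add, map_mul, map_mul]
    field_simp

theorem red_eq (x : Lam ℓ) {s y : LaurentSeries ℤ} (hs : ρL ℓ s ≠ 0)
    (h : ιQ s * (x : LaurentSeries ℚ) = ιQ y) : red ℓ x = ρL ℓ y / ρL ℓ s :=
  redFun_spec ℓ x hs h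

theorem ιQ_mem_Lam (d : LaurentSeries ℤ) : ιQ d ∈ Lam ℓ :=
  ⟨1, d, by rw [map_one]; exact one_ne_zero, by simp⟩

theorem red_ιQ (d : LaurentSeries ℤ) : red ℓ ⟨ιQ d, ιQ_mem_Lam ℓ d⟩ = ρL ℓ d := by
  rw [red_eq ℓ _ (s := 1) (y := d) (by rw [map_one]; exact one_ne_zero) (by simp)]
  simp

theorem red_of_eq_ιQ (x : Lam ℓ) (d : LaurentSeries ℤ) (h : (x : LaurentSeries ℚ) = ιQ d) :
    red ℓ x = ρL ℓ d := by
  rw [← red_ιQ]; congr 1; exact Subtype.ext h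

theorem red_natCast_self : red ℓ ((ℓ : ℕ) : Lam ℓ) = 0 := by
  rw [map_natCast, ← map_natCast (HahnSeries.C : ZMod ℓ →+* LaurentSeries (ZMod ℓ)),
    CharP.cast_eq_zero (ZMod ℓ) ℓ, map_zero]

/-- the kernel of `red` is `ℓ Lam` -/
theorem exists_eq_mul_of_red_eq_zero {x : Lam ℓ} (h : red ℓ x = 0) :
    ∃ x' : Lam ℓ, x = ((ℓ : ℕ) : Lam ℓ) * x' := by
  obtain ⟨s, y, hs, hxy⟩ := x.2
  rw [red_eq ℓ _ hs hxy, div_eq_zero_iff] at h
  obtain ⟨y', rfl⟩ := exists_eq_mul_of_ρL_eq_zero ℓ (h.resolve_right hs)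
  have hℓ : ((ℓ : ℕ) : LaurentSeries ℚ) ≠ 0 := natCast_laurent_ne_zero (Fact.out : ℓ.Prime).ne_zero
  rw [map_mul, map_natCast] at hxy
  have hmem : ((ℓ : ℕ) : LaurentSeries ℚ)⁻¹ * (x : LaurentSeries ℚ) ∈ Lam ℓ := by
    refine ⟨s, y', hs, ?_⟩
    calc ιQ s * (((ℓ : ℕ) : LaurentSeries ℚ)⁻¹ * (x : LaurentSeries ℚ))
        = ((ℓ : ℕ) : LaurentSeries ℚ)⁻¹ * (ιQ s * (x : LaurentSeries ℚ)) := by ring
      _ = ιQ y' := by rw [hxy, inv_mul_cancel_left₀ hℓ]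
  refine ⟨⟨_, hmem⟩, Subtype.ext ?_⟩
  rw [Subring.coe_mul, Subring.coe_natCast, mul_inv_cancel_left₀ hℓ]

/-- if `s ∈ ℤ((q))` is nonzero mod `ℓ` then `1 / s ∈ Lam` -/
theorem inv_ιQ_mem_Lam {s : LaurentSeries ℤ} (hs : ρL ℓ s ≠ 0) : (ιQ s)⁻¹ ∈ Lam ℓ := by
  refine ⟨s, 1, hs, ?_⟩
  have : ιQ s ≠ 0 := by
    intro h0
    apply hs
    have : s = 0 := ιQ_injective (by rw [h0, map_zero])
    rw [this, map_zero]
  rw [map_one, mul_inv_cancel₀ this]

end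

end Fermat.Agent.S28lib
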