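import Fermat.Agent.S28.Subst

/-!
# S28 library, task X: independence over `A[j]`, change of constants.
-/

set_option autoImplicit false

open ModularCurve

namespace Fermat.Agent.S28lib

noncomputable section

/-- the generators `j(q^d)`, `d ∣ N`, over a commutative ring -/
def jSet (A : Type*) [CommRing A] (N : ℕ) : Set (LaurentSeries A) :=
  {x | ∃ (d : ℕ) (_ : NeZero d), d ∣ N ∧ x = qExpand A d (jqModC A)}

/-- linear independence over `A[j]` (equivalently over `Frac A[j]` when `A` is a field) -/
def JIndep (A : Type*) [CommRing A] {m : ℕ} (x : Fin m → LaurentSeries A) : Prop :=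
  ∀ P : Fin m → Polynomial A, ∑ i, evY A (jA A) (P i) * x i = 0 → ∀ i, P i = 0

section functional

variable {k K : Type*} [Field k] [Field K] [Algebra k K]

/-- apply a `k`-linear functional coefficientwise -/
theorem map_dual_mul_coeffMap (l : Module.Dual k K) (F : LaurentSeries K) (G : LaurentSeries k) :
    (F * coeffMap (algebraMap k K) G).map l = (F.map l : LaurentSeries k) * G := by
  ext n
  rw [HahnSeries.map_coeff]
  have h1 : (coeffMap (algebraMap k K) G).support ⊆ G.support := by
    intro a ha
    simp only [HahnSeries.mem_support, coeffMap_coeff, ne_eq] at ha ⊢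
    exact fun h => ha (by rw [h, map_zero])
  have h2 : (F.map l : LaurentSeries k).support ⊆ F.support := by
    intro a ha
    simp only [HahnSeries.mem_support, HahnSeries.map_coeff, ne_eq] at ha ⊢
    exact fun h => ha (by rw [h, map_zero])
  rw [HahnSeries.coeff_mul_right' G.isPWO_support h1, HahnSeries.coeff_mul_left' F.isPWO_support h2,
    map_sum]
  refine Finset.sum_congr rfl fun ij _ => ?_
  rw [coeffMap_coeff, HahnSeries.map_coeff, mul_comm (F.coeff ij.1), ← Algebra.smul_def, map_smul,
    smul_eq_mul, mul_comm]

theorem map_dual_add (l : Module.Dual k K) (F G : LaurentSeries K) :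
    ((F + G).map l : LaurentSeries k) = F.map l + G.map l := by
  ext n
  simp

theorem map_dual_sum {ι : Type*} (l : Module.Dual k K) (s : Finset ι) (F : ι → LaurentSeries K) :
    ((∑ i ∈ s, F i).map l : LaurentSeries k) = ∑ i ∈ s, (F i).map l := by
  classical
  induction s using Finset.induction_on with
  | empty => ext n; simp
  | insert a s ha ih => rw [Finset.sum_insert ha, Finset.sum_insert ha, map_dual_add, ih]

theorem map_dual_C (l : Module.Dual k K) (c : K) :
    ((HahnSeries.C c : LaurentSeries K).map l : LaurentSeries k) = HahnSeries.C (l c) := by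
  ext n
  rw [HahnSeries.map_coeff, HahnSeries.C_apply, HahnSeries.C_apply]
  by_cases hn : n = 0
  · subst hn; simp
  · rw [HahnSeries.coeff_single_of_ne hn, HahnSeries.coeff_single_of_ne hn, map_zero]

/-- apply a functional to the coefficients of a polynomial -/
def polyDual (l : Module.Dual k K) (P : Polynomial K) : Polynomial k :=
  ∑ n ∈ Finset.range (P.natDegree + 1), Polynomial.monomial n (l (P.coeff n))

theorem coeff_polyDual (l : Module.Dual k K) (P : Polynomial K) (n : ℕ) :
    (polyDual l P).coeff n = l (P.coeff n) := by
  unfold polyDual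
  rw [Polynomial.finsetSum_coeff]
  simp only [Polynomial.coeff_monomial]
  rw [Finset.sum_ite_eq']
  split_ifs with h
  · rfl
  · rw [Polynomial.coeff_eq_zero_of_natDegree_lt (by simpa using h), map_zero]

theorem map_dual_evY (l : Module.Dual k K) (y : LaurentSeries k) (P : Polynomial K) :
    ((evY K (coeffMap (algebraMap k K) y) P).map l : LaurentSeries k) =
      evY k y (polyDual l P) := by
  have h1 : evY K (coeffMap (algebraMap k K) y) P =
      ∑ n ∈ Finset.range (P.natDegree + 1),
        HahnSeries.C (P.coeff n) * coeffMap (algebraMap k K) (y ^ n) := by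
    unfold evY
    rw [Polynomial.coe_eval₂RingHom, Polynomial.eval₂_eq_sum_range]
    simp only [map_pow]
  rw [h1, map_dual_sum, polyDual, map_sum]
  refine Finset.sum_congr rfl fun n _ => ?_
  rw [map_dual_mul_coeffMap, map_dual_C]
  unfold evY
  rw [Polynomial.coe_eval₂RingHom, Polynomial.eval₂_monomial]

end functional

/-- **Change of constants**: independence over `k[j]` is insensitive to extension of the constant
field.  (`⟸` is trivial; for `⟹` expand the coefficients of the `P i` in a `k`-basis of `K` and
compare coefficients of the Laurent series.) -/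
theorem JIndep.map_iff {k K : Type*} [Field k] [Field K] (f : k →+* K) {m : ℕ}
    (x : Fin m → LaurentSeries k) :
    JIndep K (fun i => coeffMap f (x i)) ↔ JIndep k x := by
  constructor
  · intro h P hP i
    have h1 := congrArg (coeffMap f) hP
    rw [map_sum, map_zero] at h1
    have h2 : ∑ i, evY K (jA K) ((P i).map f) * coeffMap f (x i) = 0 := by
      rw [← h1]
      refine Finset.sum_congr rfl fun i _ => ?_
      rw [map_mul, coeffMap_evY, coeffMap_jqModC]
    have h3 := h (fun i => (P i).map f) h2 i
    exact (Polynomial.map_eq_zero_iff f.injective).mp h3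
  · intro h P hP i
    let _ : Algebra k K := f.toAlgebra
    have hf : algebraMap k K = f := rfl
    have key : ∀ l : Module.Dual k K, ∀ i, polyDual l (P i) = 0 := by
      intro l
      apply h
      have h1 := congrArg (fun F : LaurentSeries K => (F.map l : LaurentSeries k)) hP
      simp only [map_dual_sum] at h1
      have h0 : ((0 : LaurentSeries K).map l : LaurentSeries k) = 0 := by ext n; simp
      rw [h0] at h1
      rw [← h1]
      refine Finset.sum_congr rfl fun i _ => ?_
      rw [← hf, map_dual_mul_coeffMap]
      have e1 : jA K = coeffMap (algebraMap k K) (jA k) := (coeffMap_jqModC (algebraMap k K)).symm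
      rw [e1, map_dual_evY]
    ext n
    rw [Polynomial.coeff_zero]
    apply (Module.forall_dual_apply_eq_zero_iff k _).mp
    intro l
    rw [← coeff_polyDual, key l i, Polynomial.coeff_zero]

/-- `coeffMap` maps the function field over `k` into the function field over `K`. -/
theorem coeffMap_mem_full {k K : Type*} [Field k] [Field K] (f : k →+* K) (N : ℕ)
    {x : LaurentSeries k} (hx : x ∈ modularFunctionFieldFullC k N) :
    coeffMap f x ∈ modularFunctionFieldFullC K N := by
  unfold modularFunctionFieldFullC at hx
  induction hx using IntermediateField.adjoin_induction with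
  | mem y hy =>
    obtain ⟨d, hd, hdN, rfl⟩ := hy
    rw [coeffMap_qExpand, coeffMap_jqModC]
    exact jqModCd_mem_full K N hdN
  | algebraMap c =>
    rw [algebraMap_laurentSeries_eq_single, coeffMap_single, ← algebraMap_laurentSeries_eq_single]
    exact IntermediateField.algebraMap_mem _ _
  | add y z _ _ hy hz => rw [map_add]; exact add_mem hy hz
  | inv y _ hy => rw [map_inv₀]; exact inv_mem hy
  | mul y z _ _ hy hz => rw [map_mul]; exact mul_mem hy hz

theorem evY_eq_aeval {K : Type*} [Field K] (y : LaurentSeries K) (P : Polynomial K) :
    evY K y P = Polynomial.aeval y P := by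
  unfold evY
  rw [Polynomial.coe_eval₂RingHom, Polynomial.aeval_def]
  congr 1
  ext c : 1
  rw [algebraMap_laurentSeries_eq_single, HahnSeries.C_apply]

/-- `JIndep` over a field is the same as linear independence over the subfield `K(j)`. -/
theorem JIndep_iff_linearIndependent {K : Type*} [Field K] {m : ℕ} (x : Fin m → LaurentSeries K) :
    JIndep K x ↔ LinearIndependent (IntermediateField.adjoin K {jA K}) x := by
  classical
  rw [Fintype.linearIndependent_iff]
  constructor
  · intro h g hg
    have hrep : ∀ i, ∃ r s : Polynomial K, s ≠ 0 ∧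
        evY K (jA K) s * (g i : LaurentSeries K) = evY K (jA K) r := by
      intro i
      obtain ⟨r, s, hrs⟩ := IntermediateField.mem_adjoin_simple_iff K (g i : LaurentSeries K) |>.mp
        (g i).2
      by_cases hs : Polynomial.aeval (jA K) s = 0
      · refine ⟨0, 1, one_ne_zero, ?_⟩
        rw [hrs, hs, div_zero, mul_zero, map_zero]
      · refine ⟨r, s, fun h0 => hs (by rw [h0, map_zero]), ?_⟩
        rw [evY_eq_aeval, evY_eq_aeval, hrs, mul_div_cancel₀ _ hs]
    choose r s hs hrs using hrep
    have hP : ∑ i, evY K (jA K) (r i * ∏ k ∈ Finset.univ.erase i, s k) * x i = 0 := by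
      have h1 : ∀ i, evY K (jA K) (r i * ∏ k ∈ Finset.univ.erase i, s k) * x i =
          evY K (jA K) (∏ k, s k) * ((g i : LaurentSeries K) * x i) := by
        intro i
        rw [← Finset.mul_prod_erase Finset.univ s (Finset.mem_univ i), map_mul, map_mul, ← hrs i]
        ring
      simp only [h1]
      rw [← Finset.mul_sum]
      have h2 : ∑ i, (g i : LaurentSeries K) * x i = 0 := by
        simpa [IntermediateField.smul_def] using hg
      rw [h2, mul_zero]
    intro i
    have h3 := h _ hP i
    have h4 : r i = 0 := by
      rcases mul_eq_zero.mp h3 with h | h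
      · exact h
      · exact absurd h (Finset.prod_ne_zero_iff.mpr fun k _ => hs k)
    have h5 := hrs i
    rw [h4, map_zero] at h5
    have h6 : evY K (jA K) (s i) ≠ 0 := (map_ne_zero_iff _ evY_jA_injective).mpr (hs i)
    exact Subtype.ext ((mul_eq_zero.mp h5).resolve_left h6)
  · intro h P hP i
    have hmem : ∀ i, evY K (jA K) (P i) ∈ IntermediateField.adjoin K {jA K} := by
      intro i
      rw [evY_eq_aeval]
      exact IntermediateField.algebra_adjoin_le_adjoin K _
        (Polynomial.aeval_mem_adjoin_singleton K (jA K))
    have h1 := h (fun i => ⟨evY K (jA K) (P i), hmem i⟩) (by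
      simpa [IntermediateField.smul_def] using hP) i
    have h2 : evY K (jA K) (P i) = 0 := congrArg Subtype.val h1
    exact (map_eq_zero_iff _ evY_jA_injective).mp h2

end

end Fermat.Agent.S28lib
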