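import Fermat.Agent.S28.Defs

/-!
# S28 library, task C: substitutions `q ↦ c t^e`, orders, roots of the modular polynomial,
total ramification of `K((t)) / K((t^p))`.
-/

set_option autoImplicit false

open ModularCurve

namespace Fermat.Agent.S28lib

noncomputable section

section scale

variable {A : Type*} [CommRing A]

/-- underlying function of `scale` -/
def scaleFun (c : Aˣ) (f : LaurentSeries A) : LaurentSeries A :=
  { coeff := fun n => ((c ^ n : Aˣ) : A) * f.coeff n
    isPWO_support' := f.isPWO_support.mono fun n hn => by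
      simp only [Function.mem_support, ne_eq] at hn ⊢
      exact fun h => hn (by rw [h, mul_zero]) }

theorem scaleFun_coeff (c : Aˣ) (f : LaurentSeries A) (n : ℤ) :
    (scaleFun c f).coeff n = ((c ^ n : Aˣ) : A) * f.coeff n := rfl

theorem scaleFun_support (c : Aˣ) (f : LaurentSeries A) :
    (scaleFun c f).support = f.support := by
  ext n
  simp only [HahnSeries.mem_support, scaleFun_coeff, ne_eq, Units.mul_right_eq_zero]

theorem scaleFun_mul (c : Aˣ) (f g : LaurentSeries A) :
    scaleFun c (f * g) = scaleFun c f * scaleFun c g := by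
  ext n
  rw [scaleFun_coeff, HahnSeries.coeff_mul, HahnSeries.coeff_mul, Finset.mul_sum]
  refine Finset.sum_congr ?_ ?_
  · ext ij
    simp only [Finset.mem_antidiagonal, scaleFun_support]
  · intro ij hij
    obtain ⟨_, _, h⟩ := Finset.mem_antidiagonal.1 hij
    rw [← h, zpow_add, scaleFun_coeff, scaleFun_coeff, Units.val_mul]
    ring

/-- `f(q) ↦ f(c q)` for a unit `c`. -/
def scale (c : Aˣ) : LaurentSeries A →+* LaurentSeries A where
  toFun f :=
    { coeff := fun n => ((c ^ n : Aˣ) : A) * f.coeff n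
      isPWO_support' := f.isPWO_support.mono fun n hn => by
        simp only [Function.mem_support, ne_eq] at hn ⊢
        exact fun h => hn (by rw [h, mul_zero]) }
  map_one' := by
    ext n
    show ((c ^ n : Aˣ) : A) * (1 : LaurentSeries A).coeff n = _
    rw [HahnSeries.coeff_one]
    split_ifs with h
    · subst h; simp
    · simp
  map_mul' := scaleFun_mul c
  map_zero' := by
    ext n
    show ((c ^ n : Aˣ) : A) * (0 : LaurentSeries A).coeff n = _
    simp
  map_add' f g := by
    ext n
    show ((c ^ n : Aˣ) : A) * (f + g).coeff n = ((c ^ n : Aˣ) : A) * f.coeff n + ((c ^ n : Aˣ) : A) * g.coeff n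
    rw [HahnSeries.coeff_add, mul_add]

@[simp] theorem coeff_scale (c : Aˣ) (f : LaurentSeries A) (n : ℤ) :
    (scale c f).coeff n = ((c ^ n : Aˣ) : A) * f.coeff n := rfl

/-- the substitution `f(q) ↦ f(c t^e)` -/
def sub (c : Aˣ) (e : ℕ) [NeZero e] : LaurentSeries A →+* LaurentSeries A :=
  (qExpand A e).comp (scale c)

theorem sub_apply (c : Aˣ) (e : ℕ) [NeZero e] (f : LaurentSeries A) :
    sub c e f = qExpand A e (scale c f) := rfl

theorem coeff_sub_mul (c : Aˣ) (e : ℕ) [NeZero e] (f : LaurentSeries A) (n : ℤ) :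
    (sub c e f).coeff ((e : ℤ) * n) = ((c ^ n : Aˣ) : A) * f.coeff n := by
  rw [sub_apply, qExpand_coeff_mul, coeff_scale]

theorem coeff_sub_of_not_dvd (c : Aˣ) (e : ℕ) [NeZero e] (f : LaurentSeries A) {n : ℤ}
    (hn : ¬ (e : ℤ) ∣ n) : (sub c e f).coeff n = 0 := by
  rw [sub_apply, qExpand_coeff_of_not_dvd _ _ hn]

theorem scale_C (c : Aˣ) (a : A) : scale c (HahnSeries.C a) = HahnSeries.C a := by
  ext n
  rw [coeff_scale, HahnSeries.C_apply, HahnSeries.coeff_single]
  split_ifs with h
  · subst h; simp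
  · simp

theorem scale_single (c : Aˣ) (n : ℤ) (a : A) :
    scale c (HahnSeries.single n a) = HahnSeries.single n (((c ^ n : Aˣ) : A) * a) := by
  ext m
  rw [coeff_scale, HahnSeries.coeff_single, HahnSeries.coeff_single]
  split_ifs with h
  · subst h; rfl
  · simp

theorem scale_one (f : LaurentSeries A) : scale (1 : Aˣ) f = f := by
  ext n
  simp

theorem sub_C (c : Aˣ) (e : ℕ) [NeZero e] (a : A) :
    sub c e (HahnSeries.C a) = HahnSeries.C a := by
  rw [sub_apply, scale_C, qExpand_C]

theorem sub_one_eq_qExpand (e : ℕ) [NeZero e] (f : LaurentSeries A) :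
    sub (1 : Aˣ) e f = qExpand A e f := by
  rw [sub_apply, scale_one]

/-- `(f(c' q^e'))(c t^e) = f(c' c^e' t^(e e'))` -/
theorem sub_sub (c c' : Aˣ) (e e' : ℕ) [NeZero e] [NeZero e'] [NeZero (e * e')]
    (f : LaurentSeries A) :
    sub c e (sub c' e' f) = sub (c' * c ^ e') (e * e') f := by
  ext k
  by_cases hk : ((e : ℤ) * e') ∣ k
  · obtain ⟨m, rfl⟩ := hk
    rw [show (e : ℤ) * e' * m = (e : ℤ) * ((e' : ℤ) * m) by ring, coeff_sub_mul, coeff_sub_mul,
      show (e : ℤ) * ((e' : ℤ) * m) = (((e * e' : ℕ) : ℤ)) * m by push_cast; ring, coeff_sub_mul,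
      ← mul_assoc, ← Units.val_mul, mul_zpow, zpow_mul, zpow_natCast, mul_comm (c' ^ m)]
  · rw [coeff_sub_of_not_dvd (c' * c ^ e') (e * e') f (by push_cast; exact hk)]
    by_cases hkM : (e : ℤ) ∣ k
    · obtain ⟨m, rfl⟩ := hkM
      rw [coeff_sub_mul, coeff_sub_of_not_dvd, mul_zero]
      rintro ⟨c, hc⟩
      exact hk ⟨c, by rw [hc]; ring⟩
    · exact coeff_sub_of_not_dvd _ _ _ hkM

theorem scale_injective (c : Aˣ) : Function.Injective (scale (A := A) c) := by
  intro f g h
  ext n
  have := congrArg (fun x => HahnSeries.coeff x n) h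
  simpa using this

theorem sub_injective (c : Aˣ) (e : ℕ) [NeZero e] : Function.Injective (sub (A := A) c e) :=
  (qExpand_injective e).comp (scale_injective c)

theorem evY_C (y : LaurentSeries A) (a : A) : evY A y (Polynomial.C a) = HahnSeries.C a := by
  simp [evY]

theorem evY_X (y : LaurentSeries A) : evY A y Polynomial.X = y := by
  simp [evY]

theorem sub_evY (c : Aˣ) (e : ℕ) [NeZero e] (y : LaurentSeries A) (P : Polynomial A) :
    sub c e (evY A y P) = evY A (sub c e y) P := by
  have : (sub c e).comp (evY A y) = evY A (sub c e y) := by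
    apply Polynomial.ringHom_ext
    · intro a; rw [RingHom.comp_apply, evY_C, evY_C, sub_C]
    · rw [RingHom.comp_apply, evY_X, evY_X]
  exact congrArg (fun φ : Polynomial A →+* LaurentSeries A => φ P) this

/-- substitution commutes with evaluation of two-variable polynomials with constant coefficients -/
theorem sub_ev2 (c : Aˣ) (e : ℕ) [NeZero e] (P : Polynomial (Polynomial A))
    (x y : LaurentSeries A) :
    sub c e (ev2 P x y) = ev2 P (sub c e x) (sub c e y) := by
  unfold ev2
  rw [Polynomial.hom_eval₂]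
  congr 1
  exact RingHom.ext fun Q => sub_evY c e y Q

theorem coeffMap_C {B : Type*} [CommRing B] (f : A →+* B) (a : A) :
    coeffMap f (HahnSeries.C a) = HahnSeries.C (f a) := by
  rw [HahnSeries.C_apply, coeffMap_single, HahnSeries.C_apply]

theorem coeffMap_evY {B : Type*} [CommRing B] (f : A →+* B) (y : LaurentSeries A)
    (P : Polynomial A) :
    coeffMap f (evY A y P) = evY B (coeffMap f y) (P.map f) := by
  have : (coeffMap f).comp (evY A y) = (evY B (coeffMap f y)).comp (Polynomial.mapRingHom f) := by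
    apply Polynomial.ringHom_ext
    · intro a
      rw [RingHom.comp_apply, RingHom.comp_apply, evY_C, coeffMap_C, Polynomial.coe_mapRingHom,
        Polynomial.map_C, evY_C]
    · rw [RingHom.comp_apply, RingHom.comp_apply, evY_X, Polynomial.coe_mapRingHom,
        Polynomial.map_X, evY_X]
  exact congrArg (fun φ : Polynomial A →+* LaurentSeries B => φ P) this

/-- change of coefficient ring commutes with evaluation -/
theorem coeffMap_ev2 {B : Type*} [CommRing B] (f : A →+* B) (P : Polynomial (Polynomial A))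
    (x y : LaurentSeries A) :
    coeffMap f (ev2 P x y) =
      ev2 (P.map (Polynomial.mapRingHom f)) (coeffMap f x) (coeffMap f y) := by
  unfold ev2
  rw [Polynomial.hom_eval₂, Polynomial.eval₂_map]
  congr 1
  exact RingHom.ext fun Q => coeffMap_evY f y Q

theorem map_map_intCast {B : Type*} [CommRing B] (f : A →+* B) (u : PowerSeries ℤ) :
    (u.map (Int.castRingHom A)).map f = u.map (Int.castRingHom B) := by
  rw [← RingHom.comp_apply (PowerSeries.map f) (PowerSeries.map (Int.castRingHom A)),
    ← PowerSeries.map_comp, RingHom.ext_int (f.comp (Int.castRingHom A)) (Int.castRingHom B)]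

theorem coeffMap_delta {B : Type*} [CommRing B] (f : A →+* B) :
    coeffMap f (delta A) = delta B := by
  rw [delta, map_mul, coeffMap_single, map_one, coeffMap_ofPowerSeries, map_map_intCast, delta]

theorem coeffMap_deltaInv {B : Type*} [CommRing B] (f : A →+* B) :
    coeffMap f (deltaInv A) = deltaInv B := by
  rw [deltaInv, map_mul, coeffMap_single, map_one, coeffMap_ofPowerSeries, map_map_intCast,
    deltaInv]

theorem delta_mul_deltaInv : delta A * deltaInv A = 1 := by
  rw [delta, deltaInv, mul_mul_mul_comm, HahnSeries.single_mul_single, ← map_mul, ← map_mul,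
    dedekindEtaUnit_mul_inv]
  simp

theorem uA_mul_uAinv (p : ℕ) [NeZero p] : uA A p * uAinv A p = 1 := by
  rw [uA, uAinv, mul_mul_mul_comm, mul_comm (deltaInv A), mul_mul_mul_comm, ← map_mul,
    delta_mul_deltaInv, map_one, mul_one]


end scale

section field

variable {K : Type*} [Field K]

theorem order_eq_of_coeff {f : LaurentSeries K} {n : ℤ} (h1 : f.coeff n ≠ 0)
    (h2 : ∀ m < n, f.coeff m = 0) : f.order = n := by
  apply le_antisymm (HahnSeries.order_le_of_coeff_ne_zero h1)
  by_contra hlt
  rw [not_le] at hlt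
  exact HahnSeries.ne_zero_of_coeff_ne_zero h1 (HahnSeries.coeff_order_eq_zero.1 (h2 _ hlt))

theorem order_sub (c : Kˣ) (e : ℕ) [NeZero e] (f : LaurentSeries K) (hf : f ≠ 0) :
    (sub c e f).order = e * f.order := by
  apply order_eq_of_coeff
  · rw [coeff_sub_mul]
    exact mul_ne_zero (Units.ne_zero _) (fun h => hf (HahnSeries.coeff_order_eq_zero.1 h))
  · intro m hm
    by_cases hd : (e : ℤ) ∣ m
    · obtain ⟨k, rfl⟩ := hd
      have he : (0 : ℤ) < e := by exact_mod_cast Nat.pos_of_ne_zero (NeZero.ne e)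
      rw [coeff_sub_mul, HahnSeries.coeff_eq_zero_of_lt_order (lt_of_mul_lt_mul_left hm he.le),
        mul_zero]
    · exact coeff_sub_of_not_dvd _ _ _ hd

theorem leadingCoeff_sub (c : Kˣ) (e : ℕ) [NeZero e] (f : LaurentSeries K) (hf : f ≠ 0) :
    (sub c e f).leadingCoeff = ((c ^ f.order : Kˣ) : K) * f.leadingCoeff := by
  rw [HahnSeries.leadingCoeff_eq, HahnSeries.leadingCoeff_eq, order_sub c e f hf, coeff_sub_mul]

theorem jA_ne_zero : jA K ≠ 0 := jqModC_ne_zero_of_nontrivial K

theorem order_jA : (jA K).order = -1 :=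
  order_eq_of_coeff (by rw [coeff_jqModC_neg_one]; exact one_ne_zero)
    (fun _ hm => coeff_jqModC_of_lt K hm)

theorem leadingCoeff_jA : (jA K).leadingCoeff = 1 := by
  rw [HahnSeries.leadingCoeff_eq, order_jA, coeff_jqModC_neg_one]

/-- `j(c t^e)` -/
def J (c : Kˣ) (e : ℕ) [NeZero e] : LaurentSeries K := sub c e (jA K)

theorem J_ne_zero (c : Kˣ) (e : ℕ) [NeZero e] : J c e ≠ 0 := fun h =>
  jA_ne_zero (K := K) (sub_injective c e (by rw [map_zero]; exact h))

theorem order_J (c : Kˣ) (e : ℕ) [NeZero e] : (J c e).order = -(e : ℤ) := by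
  rw [J, order_sub c e _ jA_ne_zero, order_jA]; ring

theorem leadingCoeff_J (c : Kˣ) (e : ℕ) [NeZero e] : (J c e).leadingCoeff = ((c⁻¹ : Kˣ) : K) := by
  rw [J, leadingCoeff_sub c e _ jA_ne_zero, order_jA, leadingCoeff_jA, mul_one, zpow_neg_one]

theorem J_injective {c c' : Kˣ} {e e' : ℕ} [NeZero e] [NeZero e'] (h : J c e = J c' e') :
    c = c' ∧ e = e' := by
  constructor
  · have := congrArg HahnSeries.leadingCoeff h
    rw [leadingCoeff_J, leadingCoeff_J] at this
    exact inv_injective (Units.ext this)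
  · have := congrArg HahnSeries.order h
    rw [order_J, order_J] at this
    omega

theorem J_one (e : ℕ) [NeZero e] : J (1 : Kˣ) e = jAd K e := sub_one_eq_qExpand e _

theorem sub_J (c c' : Kˣ) (e e' : ℕ) [NeZero e] [NeZero e'] [NeZero (e * e')] :
    sub c e (J c' e') = J (c' * c ^ e') (e * e') := sub_sub c c' e e' _

theorem order_qExpand (e : ℕ) [NeZero e] (f : LaurentSeries K) (hf : f ≠ 0) :
    (qExpand K e f).order = e * f.order := by
  rw [← sub_one_eq_qExpand, order_sub _ _ _ hf]

theorem coeff_ofPowerSeries_zero (u : PowerSeries K) :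
    (HahnSeries.ofPowerSeries ℤ K u).coeff 0 = PowerSeries.constantCoeff u := by
  rw [show (0 : ℤ) = ((0 : ℕ) : ℤ) from rfl, HahnSeries.ofPowerSeries_apply_coeff,
    PowerSeries.coeff_zero_eq_constantCoeff]

theorem order_single_mul_ofPowerSeries (n : ℤ) (u : PowerSeries K)
    (hu : PowerSeries.constantCoeff u = 1) :
    (HahnSeries.single n (1 : K) * HahnSeries.ofPowerSeries ℤ K u).order = n := by
  apply order_eq_of_coeff
  · rw [HahnSeries.coeff_single_mul, one_mul, sub_self, coeff_ofPowerSeries_zero, hu]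
    exact one_ne_zero
  · intro m hm
    rw [HahnSeries.coeff_single_mul, one_mul]
    exact ofPowerSeries_coeff_of_neg _ (by omega)

theorem constantCoeff_map_intCast (u : PowerSeries ℤ) (hu : PowerSeries.constantCoeff u = 1) :
    PowerSeries.constantCoeff (u.map (Int.castRingHom K)) = 1 := by
  rw [← PowerSeries.coeff_zero_eq_constantCoeff, PowerSeries.coeff_map,
    PowerSeries.coeff_zero_eq_constantCoeff, hu]
  simp

theorem order_delta : (delta K).order = 1 :=
  order_single_mul_ofPowerSeries _ _ (constantCoeff_map_intCast _ constantCoeff_dedekindEtaUnit)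

theorem order_deltaInv : (deltaInv K).order = -1 :=
  order_single_mul_ofPowerSeries _ _ (constantCoeff_map_intCast _ constantCoeff_dedekindEtaUnitInv)

theorem delta_ne_zero : delta K ≠ 0 := fun h => by
  have := delta_mul_deltaInv (A := K)
  rw [h, zero_mul] at this
  exact zero_ne_one this

theorem deltaInv_ne_zero : deltaInv K ≠ 0 := fun h => by
  have := delta_mul_deltaInv (A := K)
  rw [h, mul_zero] at this
  exact zero_ne_one this

theorem uA_ne_zero (p : ℕ) [NeZero p] : uA K p ≠ 0 := fun h => by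
  have := uA_mul_uAinv (A := K) p
  rw [h, zero_mul] at this
  exact zero_ne_one this

theorem order_uA (p : ℕ) [NeZero p] : (uA K p).order = (p : ℤ) - 1 := by
  rw [uA, HahnSeries.order_mul ((map_ne_zero_iff _ (qExpand_injective p)).2 delta_ne_zero)
    deltaInv_ne_zero, order_qExpand _ _ delta_ne_zero, order_delta, order_deltaInv]
  ring

theorem evY_eq_sum (y : LaurentSeries K) (P : Polynomial K) :
    evY K y P = ∑ i ∈ Finset.range (P.natDegree + 1), P.coeff i • y ^ i := by
  rw [evY, Polynomial.coe_eval₂RingHom, Polynomial.eval₂_eq_sum_range]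
  exact Finset.sum_congr rfl fun i _ => HahnSeries.C_mul_eq_smul

theorem coeff_evY_jA_natDegree (P : Polynomial K) :
    (evY K (jA K) P).coeff (-(P.natDegree : ℤ)) = P.leadingCoeff := by
  rw [evY_eq_sum, HahnSeries.coeff_sum, Finset.sum_range_succ, HahnSeries.coeff_smul,
    coeff_jqModC_pow_self, smul_eq_mul, mul_one, Finset.sum_eq_zero, zero_add]
  · rfl
  · intro i hi
    rw [HahnSeries.coeff_smul, coeff_jqModC_pow_of_lt, smul_zero]
    have := Finset.mem_range.1 hi
    omega

theorem coeff_evY_jA_of_lt (P : Polynomial K) {m : ℤ} (hm : m < -(P.natDegree : ℤ)) :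
    (evY K (jA K) P).coeff m = 0 := by
  rw [evY_eq_sum, HahnSeries.coeff_sum, Finset.sum_eq_zero]
  intro i hi
  rw [HahnSeries.coeff_smul, coeff_jqModC_pow_of_lt, smul_zero]
  have := Finset.mem_range.1 hi
  omega

/-- order of a polynomial in `j`: `ord P(j) = - deg P` -/
theorem order_evY_jA (P : Polynomial K) (hP : P ≠ 0) :
    (evY K (jA K) P).order = -(P.natDegree : ℤ) :=
  order_eq_of_coeff (by rw [coeff_evY_jA_natDegree]; exact Polynomial.leadingCoeff_ne_zero.2 hP)
    (fun _ hm => coeff_evY_jA_of_lt P hm)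

theorem evY_jA_injective : Function.Injective (evY K (jA K)) := by
  rw [injective_iff_map_eq_zero]
  intro P hP
  by_contra hne
  have := coeff_evY_jA_natDegree P
  rw [hP, HahnSeries.coeff_zero] at this
  exact Polynomial.leadingCoeff_ne_zero.2 hne this.symm

/-- `j(c t^e)` is transcendental over the constants -/
theorem evY_J_injective (c : Kˣ) (e : ℕ) [NeZero e] : Function.Injective (evY K (J c e)) := by
  intro P Q h
  rw [J, ← sub_evY, ← sub_evY] at h
  exact evY_jA_injective (sub_injective c e h)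

/-- **Total ramification.** If `x ≠ 0` has order prime to `p`, then `1, x, …, x^(p-1)` are linearly
independent over `K((t^p))`. -/
theorem natDegree_ge_of_root {p : ℕ} (hp : p.Prime) [NeZero p] (x : LaurentSeries K) (hx0 : x ≠ 0)
    (hx : ¬ (p : ℤ) ∣ x.order) (P : Polynomial (LaurentSeries K)) (hP : P ≠ 0)
    (hcoef : ∀ i, P.coeff i ∈ (qExpand K p).range) (h : P.eval x = 0) : p ≤ P.natDegree := by
  by_contra hlt
  rw [not_le] at hlt
  have hne : P.support.Nonempty := Polynomial.nonempty_support_iff.2 hP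
  obtain ⟨i₀, hi₀, hmin⟩ := Finset.exists_min_image P.support
    (fun i => (P.coeff i * x ^ i).order) hne
  have hterm : ∀ i ∈ P.support, P.coeff i * x ^ i ≠ 0 := fun i hi =>
    mul_ne_zero (Polynomial.mem_support_iff.1 hi) (pow_ne_zero _ hx0)
  have hord : ∀ i ∈ P.support, ∃ k : ℤ, (P.coeff i * x ^ i).order = p * k + i * x.order := by
    intro i hi
    obtain ⟨b, hb⟩ := hcoef i
    have hb0 : b ≠ 0 := by
      rintro rfl
      rw [map_zero] at hb
      exact Polynomial.mem_support_iff.1 hi hb.symm
    refine ⟨b.order, ?_⟩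
    rw [HahnSeries.order_mul (Polynomial.mem_support_iff.1 hi) (pow_ne_zero _ hx0), ← hb,
      order_qExpand _ _ hb0, HahnSeries.order_pow, nsmul_eq_mul]
  have hlt' : ∀ i ∈ P.support, i ≠ i₀ →
      (P.coeff i₀ * x ^ i₀).order < (P.coeff i * x ^ i).order := by
    intro i hi hii
    refine lt_of_le_of_ne (hmin i hi) ?_
    intro heq
    obtain ⟨k, hk⟩ := hord i hi
    obtain ⟨k₀, hk₀⟩ := hord i₀ hi₀
    rw [hk, hk₀] at heq
    have hdvd : (p : ℤ) ∣ ((i : ℤ) - i₀) * x.order := ⟨k₀ - k, by linarith⟩
    have hpz : Prime (p : ℤ) := Nat.prime_iff_prime_int.1 hp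
    rcases hpz.dvd_or_dvd hdvd with h1 | h1
    · have hi1 : i < p := lt_of_le_of_lt (Polynomial.le_natDegree_of_mem_supp _ hi) hlt
      have hi2 : i₀ < p := lt_of_le_of_lt (Polynomial.le_natDegree_of_mem_supp _ hi₀) hlt
      obtain ⟨m, hm⟩ := h1
      have hm0 : m = 0 := by
        by_contra hm0
        have hp0 : (0 : ℤ) < p := by exact_mod_cast hp.pos
        rcases lt_or_gt_of_ne hm0 with hneg | hpos
        · have : (p : ℤ) * m ≤ p * (-1) := mul_le_mul_of_nonneg_left (by omega) hp0.le
          omega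
        · have : (p : ℤ) * 1 ≤ p * m := mul_le_mul_of_nonneg_left (by omega) hp0.le
          omega
      rw [hm0, mul_zero] at hm
      exact hii (by omega)
    · exact hx h1
  have hsum : P.eval x = ∑ i ∈ P.support, P.coeff i * x ^ i := by
    rw [Polynomial.eval_eq_sum, Polynomial.sum_def]
  have hc := congrArg (fun f => HahnSeries.coeff f (P.coeff i₀ * x ^ i₀).order) hsum
  simp only [h, HahnSeries.coeff_zero, HahnSeries.coeff_sum] at hc
  rw [Finset.sum_eq_single i₀ (fun i hi hii => HahnSeries.coeff_eq_zero_of_lt_order (hlt' i hi hii))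
    (fun hn => absurd hi₀ hn)] at hc
  exact hterm i₀ hi₀ (HahnSeries.coeff_order_eq_zero.1 hc.symm)

/-- The polynomial `P(X, y) ∈ K((t))[X]` -/
def specialize (P : Polynomial (Polynomial K)) (y : LaurentSeries K) :
    Polynomial (LaurentSeries K) := P.map (evY K y)

theorem eval_specialize (P : Polynomial (Polynomial K)) (x y : LaurentSeries K) :
    (specialize P y).eval x = ev2 P x y := by
  rw [specialize, Polynomial.eval_map, ev2]

variable {p : ℕ} [NeZero p]

theorem Phi_root_up (D : ModData K p) (c : Kˣ) (e : ℕ) [NeZero e] [NeZero (e * p)] :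
    ev2 D.Φ (J (c ^ p) (e * p)) (J c e) = 0 := by
  have h := congrArg (sub c e) D.Φ_ev₁
  rw [sub_ev2, map_zero, ← J_one, sub_J, one_mul] at h
  exact h

theorem Phi_root_down (D : ModData K p) (c : Kˣ) (e : ℕ) [NeZero e] [NeZero (e * p)] :
    ev2 D.Φ (J c e) (J (c ^ p) (e * p)) = 0 := by
  have h := congrArg (sub c e) D.Φ_ev₂
  rw [sub_ev2, map_zero, ← J_one, sub_J, one_mul] at h
  exact h

/-- a monic polynomial with `natDegree` many known distinct roots is the product of the linear
factors -/
theorem eq_prod_of_monic_of_roots {L : Type*} [Field L] (F : Polynomial L) (hF : F.Monic)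
    (S : Finset L) (hS : ∀ a ∈ S, F.eval a = 0) (hcard : F.natDegree ≤ S.card) :
    F = ∏ a ∈ S, (Polynomial.X - Polynomial.C a) := by
  have hF0 : F ≠ 0 := hF.ne_zero
  have hle : S.val ≤ F.roots := by
    rw [Multiset.le_iff_subset S.nodup]
    intro a ha
    exact (Polynomial.mem_roots hF0).2 (hS a ha)
  have hc : Multiset.card F.roots ≤ Multiset.card S.val :=
    (Polynomial.card_roots' F).trans hcard
  have heq : S.val = F.roots := Multiset.eq_of_le_of_card_le hle hc
  have hcard' : Multiset.card F.roots = F.natDegree :=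
    le_antisymm (Polynomial.card_roots' F) (by rw [← heq]; exact hcard)
  have := Polynomial.prod_multiset_X_sub_C_of_monic_of_roots_card_eq hF hcard'
  rw [← this, ← heq]
  rfl

/-- the `p`-th roots of a unit `c`, as a finset of units -/
theorem exists_finset_pthRoots [IsAlgClosed K] (hpK : (p : K) ≠ 0) (c : Kˣ) :
    ∃ T : Finset Kˣ, T.card = p ∧ ∀ c' : Kˣ, c' ∈ T ↔ c' ^ p = c := by
  classical
  have hp0 : 0 < p := Nat.pos_of_ne_zero (NeZero.ne p)
  set F : Polynomial K := Polynomial.X ^ p - Polynomial.C (c : K) with hFdef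
  have hsep : F.Separable := Polynomial.separable_X_pow_sub_C (c : K) hpK c.ne_zero
  have hdeg : F.natDegree = p := Polynomial.natDegree_X_pow_sub_C
  have hF0 : F ≠ 0 := hsep.ne_zero
  have hcard : Multiset.card F.roots = p := by
    rw [← hdeg]
    exact (Polynomial.splits_iff_card_roots.1 (IsAlgClosed.splits F))
  have hmem : ∀ a : K, a ∈ F.roots ↔ a ^ p = c := by
    intro a
    rw [Polynomial.mem_roots hF0, Polynomial.IsRoot.def, hFdef]
    simp [sub_eq_zero]
  have hne : ∀ a ∈ F.roots.toFinset, a ≠ 0 := by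
    intro a ha h0
    rw [Multiset.mem_toFinset, hmem, h0, zero_pow hp0.ne'] at ha
    exact c.ne_zero ha.symm
  refine ⟨F.roots.toFinset.attach.image (fun a => Units.mk0 a.1 (hne a.1 a.2)), ?_, ?_⟩
  · rw [Finset.card_image_of_injective, Finset.card_attach,
      Multiset.toFinset_card_of_nodup (Polynomial.nodup_roots hsep), hcard]
    intro a b hab
    exact Subtype.ext (congrArg Units.val hab)
  · intro c'
    simp only [Finset.mem_image, Finset.mem_attach, true_and, Subtype.exists,
      Multiset.mem_toFinset]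
    constructor
    · rintro ⟨a, ha, rfl⟩
      apply Units.ext
      rw [Units.val_pow_eq_pow_val, Units.val_mk0]
      exact (hmem a).1 ha
    · intro h
      refine ⟨c', (hmem _).2 ?_, Units.ext rfl⟩
      rw [← Units.val_pow_eq_pow_val, h]

/-- **Root lemma.** `K` algebraically closed, `p ≠ 0` in `K`. In any field extension `Ω` of
`K((t))`, the roots of `Φ(X, j(c t^(e p)))` are `j(c^p t^(e p^2))` and the `j(c' t^e)`, `c'^p = c`. -/
theorem Phi_root_iff [IsAlgClosed K] (hp : p.Prime) (hpK : (p : K) ≠ 0) (D : ModData K p)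
    (c : Kˣ) (e : ℕ) [NeZero e] [NeZero (e * p)] [NeZero (e * p * p)]
    {Ω : Type*} [Field Ω] [Algebra (LaurentSeries K) Ω] (x : Ω) :
    Polynomial.aeval x (specialize D.Φ (J c (e * p))) = 0 ↔
      x = algebraMap _ Ω (J (c ^ p) (e * p * p)) ∨
        ∃ c' : Kˣ, c' ^ p = c ∧ x = algebraMap _ Ω (J c' e) := by
  classical
  obtain ⟨T, hTcard, hT⟩ := exists_finset_pthRoots (p := p) hpK c
  set F := specialize D.Φ (J c (e * p)) with hFdef
  have hmonic : F.Monic := D.Φ_monic.map _
  have hdeg : F.natDegree = p + 1 := by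
    rw [hFdef, specialize, D.Φ_monic.natDegree_map, D.Φ_natDegree]
  set S : Finset (LaurentSeries K) := insert (J (c ^ p) (e * p * p)) (T.image fun c' => J c' e)
    with hSdef
  have hSroot : ∀ a ∈ S, F.eval a = 0 := by
    intro a ha
    rw [hSdef, Finset.mem_insert, Finset.mem_image] at ha
    rcases ha with rfl | ⟨c', hc', rfl⟩
    · rw [hFdef, eval_specialize]
      exact Phi_root_up D c (e * p)
    · rw [hFdef, eval_specialize, ← (hT c').1 hc']
      exact Phi_root_down D c' e
  have hScard : F.natDegree ≤ S.card := by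
    rw [hdeg, hSdef, Finset.card_insert_of_notMem, Finset.card_image_of_injective, hTcard]
    · intro a b hab
      exact (J_injective hab).1
    · rw [Finset.mem_image]
      rintro ⟨c', _, hc'⟩
      have h2 := (J_injective hc').2
      have he : 0 < e := Nat.pos_of_ne_zero (NeZero.ne e)
      have hp2 := hp.two_le
      have : e * 1 < e * (p * p) := Nat.mul_lt_mul_of_pos_left (by nlinarith) he
      rw [mul_assoc] at h2
      omega
  have hprod := eq_prod_of_monic_of_roots F hmonic S hSroot hScard
  rw [hprod, map_prod, Finset.prod_eq_zero_iff]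
  simp only [map_sub, Polynomial.aeval_X, Polynomial.aeval_C, sub_eq_zero]
  constructor
  · rintro ⟨a, ha, rfl⟩
    rw [hSdef, Finset.mem_insert, Finset.mem_image] at ha
    rcases ha with rfl | ⟨c', hc', rfl⟩
    · exact Or.inl rfl
    · exact Or.inr ⟨c', (hT c').1 hc', rfl⟩
  · rintro (rfl | ⟨c', hc', rfl⟩)
    · exact ⟨_, Finset.mem_insert_self _ _, rfl⟩
    · exact ⟨_, Finset.mem_insert_of_mem (Finset.mem_image_of_mem _ ((hT c').2 hc')), rfl⟩

end field
end
end Fermat.Agent.S28lib
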