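import Fermat.Agent.S28.TowerIrr

/-!
# S28 library, task D2: the base of the tower
-/

set_option autoImplicit false

open ModularCurve Polynomial

namespace Fermat.Agent.S28lib

noncomputable section

universe u

variable {K : Type u} [Field K]

theorem polTo_k0 : polTo K (k0 K) = algebraMap K[X] (k0 K) :=
  RingHom.ext fun _ => rfl

/-- the `q`-expansion embedding of `K(j)` -/
def iotaOne : k0 K →+* LaurentSeries K :=
  IsFractionRing.lift (evY_jA_injective : Function.Injective (evY K (jA K)))

theorem iotaOne_algebraMap (P : K[X]) : iotaOne (algebraMap K[X] (k0 K) P) = evY K (jA K) P :=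
  IsFractionRing.lift_algebraMap _ _

/-- the tower datum of level one -/
def towOne : Tow K 1 where
  E := k0 K
  ι := iotaOne
  τ := iotaOne
  ι_pol P := by rw [polTo_k0, iotaOne_algebraMap]
  τ_pol P := by rw [polTo_k0, iotaOne_algebraMap, Jt_one_one]
  g := fun _ => algebraMap K[X] (k0 K) X
  ι_g r s _ h := by
    rw [Nat.dvd_one.1 h, iotaOne_algebraMap, evY_X, Jt_one_one]
  τ_g r s _ h := by
    rw [Nat.dvd_one.1 h, iotaOne_algebraMap, evY_X, Nat.div_one, Jt_one_one]
  gen := by
    rw [eq_top_iff]
    intro x _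
    exact Subfield.subset_closure (Or.inl ⟨x, rfl⟩)
  I := Unit
  card_I := by rw [dedekindPsi_one]; rfl
  b := fun _ => 1
  b_mem _ := one_mem _
  b_range _ := by rw [map_one]; exact one_mem _
  b_indep := by
    intro P hP i
    simp only [map_one, mul_one, Finset.univ_unique, Finset.sum_singleton] at hP
    have := evY_jA_injective (hP.trans (map_zero _).symm)
    cases i
    exact this

/-- **D2-base.** -/
theorem nonempty_tow_one : Nonempty (Tow K 1) := ⟨towOne⟩

/-- **D2-irr0.** `Φ_p(X, j)` is irreducible over `K(j)`. -/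
theorem irreducible_Phi_base [IsAlgClosed K] {p : ℕ} (hp : p.Prime) [NeZero p] (hpK : (p : K) ≠ 0)
    (D : ModData K p) : Irreducible (D.Φ.map (algebraMap K[X] (k0 K))) := by
  have h := Tow.irreducible_Phi (towOne : Tow K 1) one_ne_zero hp
    (fun h => hp.one_lt.ne' (Nat.dvd_one.1 h)) hpK D (by
      intro (a : k0 K) ha
      obtain ⟨P, Q, hQ, rfl⟩ := IsFractionRing.div_surjective (A := K[X]) a
      have hQ0 : Q ≠ 0 := nonZeroDivisors.ne_zero hQ
      change iotaOne _ = _ at ha
      rw [map_div₀, iotaOne_algebraMap, iotaOne_algebraMap, Jt_one_eq] at ha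
      have hQ1 : evY K (jA K) Q ≠ 0 := fun h0 =>
        hQ0 (evY_jA_injective (h0.trans (map_zero _).symm))
      refine jp_not_mem hp hpK D P Q hQ0 ?_
      rw [← ha, mul_div_cancel₀ _ hQ1])
  rwa [show polTo K (towOne : Tow K 1).E = algebraMap K[X] (k0 K) from polTo_k0] at h

end

end Fermat.Agent.S28lib
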