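import Fermat.Agent.S28.Indep

/-!
# S28 library, task D2 (part 1): general lemmas for the tower induction
-/

set_option autoImplicit false

open ModularCurve Polynomial

namespace Fermat.Agent.S28lib

noncomputable section

universe u

section total

variable {K : Type u} [Field K]

/-- total version of `J` (junk value `0` for `e = 0`) -/
def Jt (c : Kˣ) (e : ℕ) : LaurentSeries K :=
  if h : e = 0 then 0 else haveI : NeZero e := ⟨h⟩; J c e

theorem Jt_eq (c : Kˣ) (e : ℕ) [NeZero e] : Jt c e = J c e := by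
  rw [Jt, dif_neg (NeZero.ne e)]

theorem Jt_one_eq (e : ℕ) [NeZero e] : Jt (1 : Kˣ) e = jAd K e := by
  rw [Jt_eq, J_one]

theorem Jt_one_one : Jt (1 : Kˣ) 1 = jA K := by
  rw [Jt_one_eq]
  exact qExpand_one_apply _

theorem Jt_ne_zero (c : Kˣ) {e : ℕ} (he : e ≠ 0) : Jt c e ≠ 0 := by
  have : NeZero e := ⟨he⟩
  rw [Jt_eq]; exact J_ne_zero c e

theorem order_Jt (c : Kˣ) {e : ℕ} (he : e ≠ 0) : (Jt c e).order = -(e : ℤ) := by
  have : NeZero e := ⟨he⟩
  rw [Jt_eq]; exact order_J c e

theorem Jt_injective {c c' : Kˣ} {e e' : ℕ} (he : e ≠ 0) (he' : e' ≠ 0) (h : Jt c e = Jt c' e') :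
    c = c' ∧ e = e' := by
  have : NeZero e := ⟨he⟩
  have : NeZero e' := ⟨he'⟩
  rw [Jt_eq, Jt_eq] at h
  exact J_injective h

theorem qExpand_Jt (p : ℕ) [NeZero p] (c : Kˣ) (e : ℕ) :
    qExpand K p (Jt c e) = Jt c (e * p) := by
  rcases Nat.eq_zero_or_pos e with rfl | he
  · simp [Jt]
  · have : NeZero e := ⟨he.ne'⟩
    have : NeZero (p * e) := ⟨mul_ne_zero (NeZero.ne p) he.ne'⟩
    rw [mul_comm e p, Jt_eq, Jt_eq, ← sub_one_eq_qExpand, sub_J]
    simp

theorem evY_Jt_injective (c : Kˣ) {e : ℕ} (he : e ≠ 0) : Function.Injective (evY K (Jt c e)) := by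
  have : NeZero e := ⟨he⟩
  rw [Jt_eq]; exact evY_J_injective c e

theorem order_qExpand' (p : ℕ) [NeZero p] (f : LaurentSeries K) (hf : f ≠ 0) :
    (qExpand K p f).order = p * f.order := by
  rw [← sub_one_eq_qExpand, order_sub _ _ _ hf]

theorem Jt_not_mem_range {p : ℕ} [NeZero p] (c : Kˣ) {e : ℕ} (he : e ≠ 0) (hpe : ¬ p ∣ e) :
    Jt c e ∉ (qExpand K p).range := by
  rintro ⟨w, hw⟩
  have hw0 : w ≠ 0 := by
    rintro rfl
    rw [map_zero] at hw
    exact Jt_ne_zero c he hw.symm
  have h := order_qExpand' p w hw0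
  rw [hw, order_Jt c he] at h
  apply hpe
  have : (p : ℤ) ∣ (e : ℤ) := ⟨-w.order, by linarith⟩
  exact_mod_cast this

end total

section spec

variable {K : Type u} [Field K]

/-- `P(X, y) ∈ B[X]` for `P ∈ K[Y][X]`, `y ∈ B`, `κ : K → B` -/
def spec {B : Type*} [CommRing B] (κ : K →+* B) (P : K[X][X]) (y : B) : B[X] :=
  P.map (eval₂RingHom κ y)

theorem spec_map {B B' : Type*} [CommRing B] [CommRing B'] (κ : K →+* B) (f : B →+* B')
    (P : K[X][X]) (y : B) : (spec κ P y).map f = spec (f.comp κ) P (f y) := by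
  rw [spec, spec, Polynomial.map_map]
  congr 1
  apply Polynomial.ringHom_ext
  · intro a; simp
  · simp

theorem spec_C (P : K[X][X]) (y : LaurentSeries K) :
    spec (HahnSeries.C : K →+* LaurentSeries K) P y = specialize P y := rfl

theorem spec_monic {B : Type*} [CommRing B] (κ : K →+* B) {P : K[X][X]} (hP : P.Monic) (y : B) :
    (spec κ P y).Monic := hP.map _

theorem spec_natDegree {B : Type*} [CommRing B] [Nontrivial B] (κ : K →+* B) {P : K[X][X]}
    (hP : P.Monic) (y : B) : (spec κ P y).natDegree = P.natDegree := hP.natDegree_map _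

end spec

section minpoly

/-- the minimal polynomial with respect to a ring homomorphism -/
theorem exists_minpoly_hom {E F : Type*} [Field E] [Field F] (f : E →+* F) (y : F) (Q : E[X])
    (hQ : Q ≠ 0) (h : (Q.map f).eval y = 0) :
    ∃ m : E[X], m.Monic ∧ Irreducible m ∧ (m.map f).eval y = 0 ∧
      ∀ P : E[X], (P.map f).eval y = 0 → m ∣ P := by
  letI : Algebra E F := f.toAlgebra
  have hae : ∀ P : E[X], aeval y P = (P.map f).eval y := fun P => by
    rw [aeval_def, eval_map]; rfl
  have hint : IsIntegral E y := by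
    rw [← isAlgebraic_iff_isIntegral]
    exact ⟨Q, hQ, by rw [hae, h]⟩
  refine ⟨minpoly E y, minpoly.monic hint, minpoly.irreducible hint, ?_, fun P hP => ?_⟩
  · rw [← hae, minpoly.aeval]
  · exact minpoly.dvd E y (by rw [hae, hP])

end minpoly

section ramified

variable {K : Type u} [Field K]

theorem natDegree_ge_of_ramified {p : ℕ} (hp : p.Prime) [NeZero p] {E : Type*} [Field E]
    (τ : E →+* LaurentSeries K) (hτ : ∀ e, τ e ∈ (qExpand K p).range)
    (y : LaurentSeries K) (hy0 : y ≠ 0) (hy : ¬ (p : ℤ) ∣ y.order) (P : E[X]) (hP : P ≠ 0)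
    (h : (P.map τ).eval y = 0) : p ≤ P.natDegree := by
  have := natDegree_ge_of_root hp y hy0 hy (P.map τ) ((Polynomial.map_ne_zero_iff τ.injective).mpr hP)
    (fun i => by rw [coeff_map]; exact hτ _) h
  rwa [natDegree_map] at this

theorem irreducible_of_ramified {p : ℕ} (hp : p.Prime) [NeZero p] {E : Type*} [Field E]
    (τ : E →+* LaurentSeries K) (hτ : ∀ e, τ e ∈ (qExpand K p).range)
    (y : LaurentSeries K) (hy0 : y ≠ 0) (hy : ¬ (p : ℤ) ∣ y.order) (Q : E[X]) (hQm : Q.Monic)
    (hQd : Q.natDegree = p) (h : (Q.map τ).eval y = 0) : Irreducible Q := by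
  obtain ⟨m, hm, hirr, hmy, hdvd⟩ := exists_minpoly_hom τ y Q hQm.ne_zero h
  have h1 := natDegree_ge_of_ramified hp τ hτ y hy0 hy m hm.ne_zero hmy
  have h2 : Q = m := eq_of_monic_of_dvd_of_natDegree_le hm hQm (hdvd Q h) (by omega)
  rw [h2]; exact hirr

end ramified

section indep

/-- independence over `A[j]` for a general finite index type -/
def JIndepI (A : Type*) [CommRing A] {I : Type*} [Fintype I] (x : I → LaurentSeries A) : Prop :=
  ∀ P : I → A[X], ∑ i, evY A (jA A) (P i) * x i = 0 → ∀ i, P i = 0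

theorem JIndepI.reindex {A : Type*} [CommRing A] {I I' : Type*} [Fintype I] [Fintype I']
    (e : I' ≃ I) {x : I → LaurentSeries A} (h : JIndepI A x) : JIndepI A (x ∘ e) := by
  intro P hP i
  have := h (P ∘ e.symm) (by
    rw [← hP, ← Equiv.sum_comp e]
    simp) (e i)
  simpa using this

variable {K : Type u} [Field K]

theorem JIndepI.prod {E : Type*} [Field E] (ι : E →+* LaurentSeries K) (pol : K[X] →+* E)
    (hpol : ∀ P, ι (pol P) = evY K (jA K) P) {I : Type*} [Fintype I] (b : I → LaurentSeries K)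
    (hb : JIndepI K b) (hbr : ∀ i, b i ∈ ι.range) (x : LaurentSeries K) (d : ℕ)
    (hx : ∀ P : E[X], P ≠ 0 → (P.map ι).eval x = 0 → d ≤ P.natDegree) :
    JIndepI K (fun ik : I × Fin d => b ik.1 * x ^ (ik.2 : ℕ)) := by
  choose β hβ using hbr
  intro P hP
  set T : E[X] := ∑ k : Fin d, C (∑ i, pol (P (i, k)) * β i) * X ^ (k : ℕ) with hT
  have hTx : (T.map ι).eval x = 0 := by
    rw [← hP, hT, Polynomial.map_sum, eval_finsetSum, Fintype.sum_prod_type_right]
    refine Finset.sum_congr rfl fun k _ => ?_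
    rw [Polynomial.map_mul, Polynomial.map_pow, map_C, map_X, eval_mul, eval_C, eval_pow,
      eval_X, map_sum, Finset.sum_mul]
    refine Finset.sum_congr rfl fun i _ => ?_
    rw [map_mul, hpol, hβ]
    ring
  have hT0 : T = 0 := by
    by_contra hne
    have h1 := hx T hne hTx
    have h2 : T.degree < d := degree_sum_fin_lt _
    rw [← natDegree_lt_iff_degree_lt hne] at h2
    omega
  have hcoef : ∀ k : Fin d, ∑ i, pol (P (i, k)) * β i = 0 := by
    intro k
    have := congrArg (fun T => T.coeff (k : ℕ)) hT0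
    simp only [hT, finsetSum_coeff, coeff_C_mul, coeff_X_pow, coeff_zero] at this
    rw [Finset.sum_eq_single k] at this
    · simpa using this
    · intro k' _ hk'
      rw [if_neg (fun h => hk' (Fin.ext h.symm)), mul_zero]
    · intro h; exact absurd (Finset.mem_univ k) h
  rintro ⟨i, k⟩
  refine hb (fun i => P (i, k)) ?_ i
  have := congrArg ι (hcoef k)
  simpa only [map_sum, map_mul, hpol, hβ, map_zero] using this

end indep

end

end Fermat.Agent.S28lib
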