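import Fermat.Agent.S28.Tower

/-!
# S28 library, task D2: embeddings over `j(t^(Np))` land in `K((t^p))`
-/

set_option autoImplicit false

open ModularCurve Polynomial

namespace Fermat.Agent.S28lib

noncomputable section

universe u

variable {K : Type u} [Field K]

/-- the image of the generator `g (r^s)` under an embedding over `j ↦ j(t^M)` -/
theorem Tow.emb_gen [IsAlgClosed K] {N : ℕ} (T : Tow K N) {M : ℕ} (hM : M ≠ 0) (hNM : N ∣ M)
    (hNK : (N : K) ≠ 0)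
    (hD : ∀ (r : ℕ) (hr : r.Prime), r ∣ N → haveI : NeZero r := ⟨hr.ne_zero⟩; Nonempty (ModData K r))
    {Ω : Type*} [Field Ω] [Algebra (LaurentSeries K) Ω] (σ : T.E →+* Ω)
    (hσ : ∀ P : K[X], σ (polTo K T.E P) = algebraMap _ Ω (evY K (Jt 1 M) P))
    {r : ℕ} (hr : r.Prime) (s : ℕ) (h : r ^ s ∣ N) :
    ∃ (c : Kˣ) (e : ℕ), e ≠ 0 ∧ M ∣ e * r ^ s ∧ σ (T.g (r ^ s)) = algebraMap _ Ω (Jt c e) := by
  induction s with
  | zero =>
    refine ⟨1, M, hM, by simp, ?_⟩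
    rw [pow_zero, T.g_one, hσ, evY_X]
  | succ s ih =>
    obtain ⟨c, e, he, hMe, hg⟩ := ih ((pow_dvd_pow r (Nat.le_succ s)).trans h)
    have hrN : r ∣ N := (dvd_pow_self r (Nat.succ_ne_zero s)).trans h
    have : NeZero r := ⟨hr.ne_zero⟩
    obtain ⟨D⟩ := hD r hr hrN
    have hrK : (r : K) ≠ 0 := by
      obtain ⟨m, rfl⟩ := hrN
      intro h0
      apply hNK
      rw [Nat.cast_mul, h0, zero_mul]
    -- `r ∣ e`
    have hre : r ∣ e := by
      have h1 : r ^ s * r ∣ e * r ^ s := by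
        rw [← pow_succ]; exact (h.trans hNM).trans hMe
      rw [mul_comm e] at h1
      exact Nat.dvd_of_mul_dvd_mul_left (pow_pos hr.pos s) h1
    obtain ⟨e', rfl⟩ := hre
    have he' : e' ≠ 0 := fun h0 => he (by rw [h0, mul_zero])
    have hcst : σ.comp (cstTo K T.E) = (algebraMap (LaurentSeries K) Ω).comp HahnSeries.C := by
      ext1 a
      rw [RingHom.comp_apply, ← polTo_C, hσ, evY_C, RingHom.comp_apply]
    have hrel := congrArg σ (T.rel_up hr D s h)
    rw [map_zero, ← eval_map_apply, spec_map, hcst, hg, ← spec_map, spec_C, eval_map_algebraMap,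
      mul_comm r e'] at hrel
    rcases (Phi_root_iff_Jt hr hrK D c he' _).1 hrel with hx | ⟨c', -, hx⟩
    · refine ⟨c ^ r, e' * r * r, mul_ne_zero (mul_ne_zero he' hr.ne_zero) hr.ne_zero, ?_, hx⟩
      refine hMe.trans ⟨r * r, ?_⟩
      rw [pow_succ]; ring
    · refine ⟨c', e', he', ?_, hx⟩
      refine hMe.trans (dvd_of_eq ?_)
      rw [pow_succ]; ring

/-- **D2-emb.** Every embedding of `E` over `j ↦ j(t^(N p))` (`p ∤ N`) lands in `K((t^p))`. -/
theorem Tow.emb_range [IsAlgClosed K] {N : ℕ} (T : Tow K N) (hN : N ≠ 0) {p : ℕ} (hp : p.Prime)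
    [NeZero p] (hpN : ¬ p ∣ N) (hNK : (N : K) ≠ 0)
    (hD : ∀ (r : ℕ) (hr : r.Prime), r ∣ N → haveI : NeZero r := ⟨hr.ne_zero⟩; Nonempty (ModData K r))
    {Ω : Type*} [Field Ω] [Algebra (LaurentSeries K) Ω] (σ : T.E →+* Ω)
    (hσ : ∀ P : K[X], σ (polTo K T.E P) = algebraMap _ Ω (evY K (Jt 1 (N * p)) P)) (e : T.E) :
    ∃ w, σ e = algebraMap _ Ω (qExpand K p w) := by
  set S : Subfield Ω := ((qExpand K p).fieldRange).map (algebraMap (LaurentSeries K) Ω) with hS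
  have hmem : ∀ w, algebraMap (LaurentSeries K) Ω (qExpand K p w) ∈ S := fun w =>
    ⟨_, ⟨w, rfl⟩, rfl⟩
  have hpol : ∀ P : K[X], σ (polTo K T.E P) ∈ S := fun P => by
    rw [hσ, ← qExpand_Jt, ← qExpand_evY]
    exact hmem _
  have hle : Subfield.closure (Set.range (algebraMap (k0 K) T.E) ∪
      {x | ∃ r s : ℕ, r.Prime ∧ r ^ s ∣ N ∧ x = T.g (r ^ s)}) ≤ S.comap σ := by
    rw [Subfield.closure_le]
    rintro x (⟨z, rfl⟩ | ⟨r, s, hr, hrs, rfl⟩)
    · obtain ⟨a, b, -, rfl⟩ := IsFractionRing.div_surjective (A := K[X]) z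
      change σ _ ∈ S
      rw [map_div₀, map_div₀]
      exact S.div_mem (hpol a) (hpol b)
    · change σ _ ∈ S
      obtain ⟨c, e, he, hMe, hg⟩ := T.emb_gen (mul_ne_zero hN hp.ne_zero) (dvd_mul_right N p) hNK hD
        σ hσ hr s hrs
      have hpe : p ∣ e := by
        rcases (Nat.Prime.dvd_mul hp).1 ((dvd_mul_left p N).trans hMe) with h1 | h1
        · exact h1
        · exact absurd (h1.trans hrs) hpN
      obtain ⟨e3, rfl⟩ := hpe
      rw [hg, mul_comm p e3, ← qExpand_Jt]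
      exact hmem _
  have he : e ∈ S.comap σ := hle (by rw [T.gen]; trivial)
  obtain ⟨x, ⟨w, rfl⟩, hx⟩ := he
  exact ⟨w, hx.symm⟩

end

end Fermat.Agent.S28lib
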