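import Fermat.Agent.S28.Tower

/-!
# S28 library, task D2: irreducibility of `Φ_p(X,j)` over `E` when `p ∤ N`
-/

set_option autoImplicit false

open ModularCurve Polynomial

namespace Fermat.Agent.S28lib

noncomputable section

universe u

variable {K : Type u} [Field K]

theorem qExpand_ev2 (p : ℕ) [NeZero p] (P : K[X][X]) (x y : LaurentSeries K) :
    qExpand K p (ev2 P x y) = ev2 P (qExpand K p x) (qExpand K p y) := by
  rw [← sub_one_eq_qExpand, sub_ev2, sub_one_eq_qExpand, sub_one_eq_qExpand]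

/-- **D2-irr.** If `p ∤ N` and `j(q^p) ∉ E` then `Φ_p(X, j)` is irreducible over `E`. -/
theorem Tow.irreducible_Phi [IsAlgClosed K] {N : ℕ} (T : Tow K N) (hN : N ≠ 0) {p : ℕ}
    (hp : p.Prime) [NeZero p] (hpN : ¬ p ∣ N) (hpK : (p : K) ≠ 0) (D : ModData K p)
    (hnm : ∀ a : T.E, T.ι a ≠ Jt 1 p) : Irreducible (D.Φ.map (polTo K T.E)) := by
  set Q := D.Φ.map (polTo K T.E) with hQdef
  have hQm : Q.Monic := D.Φ_monic.map _
  have hQd : Q.natDegree = p + 1 := by rw [hQdef, D.Φ_monic.natDegree_map, D.Φ_natDegree]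
  set τ0 : T.E →+* LaurentSeries K := (qExpand K p).comp T.τ with hτ0
  have hτ0r : ∀ e, τ0 e ∈ (qExpand K p).range := fun e => ⟨T.τ e, rfl⟩
  have hQτ : Q.map τ0 = specialize D.Φ (Jt 1 (N * p)) := by
    rw [hQdef, Polynomial.map_map, specialize]
    congr 1
    refine RingHom.ext fun P => ?_
    rw [RingHom.comp_apply, hτ0, RingHom.comp_apply, T.τ_pol, qExpand_evY, qExpand_Jt]
  have hQι : Q.map T.ι = specialize D.Φ (jA K) := by
    rw [hQdef, Polynomial.map_map, specialize]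
    congr 1
    refine RingHom.ext fun P => ?_
    rw [RingHom.comp_apply, T.ι_pol]
  have hy : (Q.map τ0).eval (Jt 1 N) = 0 := by
    rw [hQτ]
    have := Phi_down_Jt D (1 : Kˣ) hN
    rwa [one_pow] at this
  have hy0 : Jt (1 : Kˣ) N ≠ 0 := Jt_ne_zero 1 hN
  have hyo : ¬ (p : ℤ) ∣ (Jt (1 : Kˣ) N).order := by
    rw [order_Jt 1 hN, dvd_neg]
    exact_mod_cast hpN
  obtain ⟨m, hm, hirr, hmy, hdvd⟩ := exists_minpoly_hom τ0 (Jt 1 N) Q hQm.ne_zero hy
  have h1 := natDegree_ge_of_ramified hp τ0 hτ0r (Jt 1 N) hy0 hyo m hm.ne_zero hmy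
  have hmQ : m ∣ Q := hdvd Q hy
  have h2 : m.natDegree ≤ p + 1 := hQd ▸ natDegree_le_of_dvd hmQ hQm.ne_zero
  rcases Nat.lt_or_ge m.natDegree (p + 1) with h3 | h3
  · exfalso
    obtain ⟨h, hh⟩ := hmQ
    have hhm : h.Monic := hm.of_mul_monic_left (hh ▸ hQm)
    have hhd : h.natDegree = 1 := by
      have := hm.natDegree_mul hhm
      rw [← hh, hQd] at this
      omega
    have hhdeg : h.degree = 1 := by
      rw [degree_eq_natDegree hhm.ne_zero, hhd]; rfl
    obtain ⟨a, ha⟩ := exists_root_of_degree_eq_one hhdeg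
    have hQa : Q.eval a = 0 := by
      rw [hh, eval_mul, ha.eq_zero, mul_zero]
    have hι : (specialize D.Φ (jA K)).eval (T.ι a) = 0 := by
      rw [← hQι, eval_map_apply, hQa, map_zero]
    rw [eval_specialize] at hι
    have hq := congrArg (qExpand K p) hι
    rw [qExpand_ev2, map_zero, ← Jt_one_one, qExpand_Jt, ← eval_specialize] at hq
    have hq' : aeval (qExpand K p (T.ι a)) (specialize D.Φ (Jt 1 (1 * p))) = 0 := by
      rw [coe_aeval_eq_eval]; exact hq
    rcases (Phi_root_iff_Jt hp hpK D 1 one_ne_zero _).1 hq' with h4 | ⟨c', _, h4⟩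
    · rw [Algebra.algebraMap_self, RingHom.id_apply, one_pow, ← qExpand_Jt, one_mul] at h4
      exact hnm a (qExpand_injective p h4)
    · rw [Algebra.algebraMap_self, RingHom.id_apply] at h4
      exact Jt_not_mem_range (p := p) c' one_ne_zero (fun h => hp.one_lt.ne' (Nat.dvd_one.1 h))
        ⟨_, h4⟩
  · have : Q = m := eq_of_monic_of_dvd_of_natDegree_le hm hQm hmQ (by omega)
    rw [this]; exact hirr

end

end Fermat.Agent.S28lib
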