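import Fermat.Agent.S28.TowerEmb
import Fermat.Agent.S28.TowerBase

/-!
# S28 library, task D2: `j(q^p) ∉ E` when `p ∤ N`
-/

set_option autoImplicit false

open ModularCurve Polynomial

namespace Fermat.Agent.S28lib

noncomputable section

universe u

variable {K : Type u} [Field K]

/-- **D2-notmem.** If `p ∤ N` then `j(q^p) ∉ E`. -/
theorem Tow.not_mem [IsAlgClosed K] {N : ℕ} (T : Tow K N) (hN : N ≠ 0) {p : ℕ} (hp : p.Prime)
    [NeZero p] (hpN : ¬ p ∣ N) (hpK : (p : K) ≠ 0) (hNK : (N : K) ≠ 0) (D : ModData K p)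
    (hD : ∀ (r : ℕ) (hr : r.Prime), r ∣ N → haveI : NeZero r := ⟨hr.ne_zero⟩; Nonempty (ModData K r))
    (a : T.E) : T.ι a ≠ Jt 1 p := by
  intro ha
  set Q0 : (k0 K)[X] := D.Φ.map (algebraMap K[X] (k0 K)) with hQ0
  have hirr : Irreducible Q0 := irreducible_Phi_base hp hpK D
  have hmonic : Q0.Monic := D.Φ_monic.map _
  -- `a` is a root of `Q0`
  have hroot : aeval a Q0 = 0 := by
    apply T.ι.injective
    rw [map_zero, aeval_def, eval₂_eq_eval_map, hQ0, Polynomial.map_map]
    change T.ι (eval a (D.Φ.map (polTo K T.E))) = 0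
    rw [← spec_polTo_X, ← eval_map_apply, T.spec_map_ι, T.ι_pol, evY_X, ha, ← Jt_one_one]
    have := Phi_up_Jt D (1 : Kˣ) one_ne_zero
    rwa [one_pow, one_mul] at this
  have hmin : Q0 = minpoly (k0 K) a := minpoly.eq_of_irreducible_of_monic hirr hroot hmonic
  -- the second embedding
  have hNp : N * p ≠ 0 := mul_ne_zero hN hp.ne_zero
  let Ω := AlgebraicClosure (LaurentSeries K)
  let f0 : k0 K →+* LaurentSeries K := IsFractionRing.lift (evY_Jt_injective (1 : Kˣ) hNp)
  letI : Algebra (k0 K) Ω := ((algebraMap (LaurentSeries K) Ω).comp f0).toAlgebra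
  have halg : ∀ P : K[X], algebraMap (k0 K) Ω (algebraMap K[X] (k0 K) P) =
      algebraMap (LaurentSeries K) Ω (evY K (Jt 1 (N * p)) P) := fun P => by
    change algebraMap (LaurentSeries K) Ω (f0 _) = _
    rw [IsFractionRing.lift_algebraMap]
  have hroot2 : aeval (algebraMap (LaurentSeries K) Ω (Jt 1 N)) (minpoly (k0 K) a) = 0 := by
    rw [← hmin, aeval_def, eval₂_eq_eval_map, hQ0, Polynomial.map_map]
    have hcomp : (algebraMap (k0 K) Ω).comp (algebraMap K[X] (k0 K)) =
        (algebraMap (LaurentSeries K) Ω).comp (evY K (Jt 1 (N * p))) := RingHom.ext halg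
    rw [hcomp, ← Polynomial.map_map, eval_map_apply]
    have := Phi_down_Jt D (1 : Kˣ) hN
    rw [one_pow] at this
    change algebraMap (LaurentSeries K) Ω (eval (Jt 1 N) (specialize D.Φ (Jt 1 (N * p)))) = 0
    rw [this, map_zero]
  obtain ⟨φ, hφ⟩ := IntermediateField.exists_algHom_of_splits_of_aeval
    (fun s : T.E => ⟨Algebra.IsIntegral.isIntegral s, IsAlgClosed.splits _⟩) hroot2
  obtain ⟨w, hw⟩ := T.emb_range hN hp hpN hNK hD φ.toRingHom (fun P => by
    change φ (algebraMap (k0 K) T.E (algebraMap K[X] (k0 K) P)) = _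
    rw [φ.commutes, halg]) a
  change φ a = _ at hw
  rw [hφ] at hw
  exact Jt_not_mem_range (1 : Kˣ) hN hpN ⟨w, ((algebraMap (LaurentSeries K) Ω).injective hw).symm⟩

end

end Fermat.Agent.S28lib
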